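import Fermat.Agent.S53.Defs

/-!
# S53, task T1: matrix model of `GaloisRepAdic`

API relating `GaloisRepAdic A` with matrix-valued homomorphisms `M : GQ →* M2 A`
(definitions `ofMat`, `mapMat`, `MatCont`, `Strict`, `resMat` are in `Defs.lean`).
-/

set_option autoImplicit false
set_option linter.unusedSectionVars false

open scoped TensorProduct

noncomputable section

namespace Fermat.Agent.S53

open IsLocalRing

section Basic

variable {A : Type} [CommRing A] [IsLocalRing A]

/-- Coordinates (in a basis) of an element of `I • ⊤` lie in `I`. -/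
theorem repr_mem_of_mem_ideal_smul_top {V : Type} [AddCommGroup V] [Module A V]
    (b : Module.Basis (Fin 2) A V) (I : Ideal A) (x : V)
    (hx : x ∈ I • (⊤ : Submodule A V)) (i : Fin 2) : b.repr x i ∈ I := by
  refine Submodule.smul_induction_on (p := fun x => b.repr x i ∈ I) hx ?_ ?_
  · intro a ha v _
    simpa using I.mul_mem_right (b.repr v i) ha
  · intro x y hx hy
    simpa using I.add_mem hx hy

/-- The matrix-valued homomorphism of a `GaloisRepAdic` in a basis. -/
def matrixOf (ρ : GaloisRepAdic A) (b : Module.Basis (Fin 2) A ρ.V) : GQ →* M2 A where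
  toFun σ := LinearMap.toMatrix b b (ρ.ρ σ)
  map_one' := by rw [map_one]; exact LinearMap.toMatrix_one b
  map_mul' σ τ := by rw [map_mul]; exact LinearMap.toMatrix_mul b _ _

@[simp] theorem matrixOf_apply (ρ : GaloisRepAdic A) (b : Module.Basis (Fin 2) A ρ.V) (σ : GQ) :
    matrixOf ρ b σ = LinearMap.toMatrix b b (ρ.ρ σ) := rfl

theorem matCont_matrixOf (ρ : GaloisRepAdic A) (b : Module.Basis (Fin 2) A ρ.V) :
    MatCont (matrixOf ρ b) := by
  intro n
  obtain ⟨L, hL, h⟩ := ρ.isAdicContinuous n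
  refine ⟨L, hL, fun σ hσ i j => ?_⟩
  have h1 : (matrixOf ρ b σ - 1) i j = b.repr (ρ.ρ σ (b j) - b j) i := by
    simp [matrixOf, LinearMap.toMatrix_apply, Matrix.one_apply, Finsupp.single_apply, eq_comm]
  rw [h1]
  exact repr_mem_of_mem_ideal_smul_top b _ _ (h σ hσ (b j)) i

/-- Every `GaloisRepAdic` is equivalent to the matrix model in any basis. -/
def equivOfMatMatrixOf (ρ : GaloisRepAdic A) (b : Module.Basis (Fin 2) A ρ.V) :
    GaloisRepAdic.Equiv ρ (ofMat (matrixOf ρ b) (matCont_matrixOf ρ b)) where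
  toLinearEquiv := b.equivFun
  map_apply σ x := by
    show b.equivFun (ρ.ρ σ x) = (LinearMap.toMatrix b b (ρ.ρ σ)).mulVec (b.equivFun x)
    exact (LinearMap.toMatrix_mulVec_repr b b (ρ.ρ σ) x).symm

theorem isEquiv_ofMat_matrixOf (ρ : GaloisRepAdic A) (b : Module.Basis (Fin 2) A ρ.V) :
    ρ.IsEquiv (ofMat (matrixOf ρ b) (matCont_matrixOf ρ b)) :=
  ⟨equivOfMatMatrixOf ρ b⟩

/-- **T1** every representation is equivalent to a matrix model. -/
theorem exists_ofMat_isEquiv (ρ : GaloisRepAdic A) :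
    ∃ (M : GQ →* M2 A) (hM : MatCont M), ρ.IsEquiv (ofMat M hM) := by
  have hfr : Module.finrank A ρ.V = 2 := ρ.finrank_eq
  exact ⟨_, _, isEquiv_ofMat_matrixOf ρ (Module.finBasisOfFinrankEq A ρ.V hfr)⟩

/-- Equal matrix-valued homomorphisms give equivalent matrix models. -/
def equivOfEq {M M' : GQ →* M2 A} (hM : MatCont M) (hM' : MatCont M') (h : M = M') :
    GaloisRepAdic.Equiv (ofMat M hM) (ofMat M' hM') := by
  subst h
  exact GaloisRepAdic.Equiv.refl _

/-- The linear automorphism of `A²` given by an invertible matrix. -/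
def unitLinearEquiv (P : (M2 A)ˣ) : (Fin 2 → A) ≃ₗ[A] (Fin 2 → A) :=
  LinearEquiv.ofLinearMap (Matrix.toLin' (P : M2 A)) (Matrix.toLin' ((P⁻¹ : (M2 A)ˣ) : M2 A))
    (by rw [← Matrix.toLin'_mul, Units.mul_inv, Matrix.toLin'_one])
    (by rw [← Matrix.toLin'_mul, Units.inv_mul, Matrix.toLin'_one])

@[simp] theorem unitLinearEquiv_apply (P : (M2 A)ˣ) (v : Fin 2 → A) :
    unitLinearEquiv P v = (P : M2 A).mulVec v := rfl

theorem unitLinearEquiv_intertwine (P : (M2 A)ˣ) (N N' : M2 A)
    (hP : (P : M2 A) * N = N' * P) (v : Fin 2 → A) :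
    unitLinearEquiv P (N.mulVec v) = N'.mulVec (unitLinearEquiv P v) := by
  rw [unitLinearEquiv_apply, unitLinearEquiv_apply, Matrix.mulVec_mulVec, Matrix.mulVec_mulVec, hP]

/-- An invertible matrix intertwining two matrix models gives an equivalence. -/
def equivOfConj (M M' : GQ →* M2 A) (hM : MatCont M) (hM' : MatCont M') (P : (M2 A)ˣ)
    (hP : ∀ σ, (P : M2 A) * M σ = M' σ * P) :
    GaloisRepAdic.Equiv (ofMat M hM) (ofMat M' hM') where
  toLinearEquiv := unitLinearEquiv P
  map_apply σ v := unitLinearEquiv_intertwine P (M σ) (M' σ) (hP σ) v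

/-- **T1** two matrix models are equivalent iff the matrices are conjugate. -/
theorem ofMat_isEquiv_iff (M M' : GQ →* M2 A) (hM : MatCont M) (hM' : MatCont M') :
    (ofMat M hM).IsEquiv (ofMat M' hM') ↔ ∃ P : (M2 A)ˣ, ∀ σ, (P : M2 A) * M σ = M' σ * P := by
  constructor
  · rintro ⟨e⟩
    let E : (Fin 2 → A) ≃ₗ[A] (Fin 2 → A) := e.toLinearEquiv
    have hE : ∀ σ v, E (Matrix.mulVec (M σ) v) = Matrix.mulVec (M' σ) (E v) :=
      fun σ v => e.map_apply σ v
    refine ⟨⟨LinearMap.toMatrix' (E : (Fin 2 → A) →ₗ[A] (Fin 2 → A)),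
      LinearMap.toMatrix' (E.symm : (Fin 2 → A) →ₗ[A] (Fin 2 → A)), ?_, ?_⟩, ?_⟩
    · rw [← LinearMap.toMatrix'_comp, LinearEquiv.comp_coe, LinearEquiv.symm_trans_self,
        LinearEquiv.refl_toLinearMap, LinearMap.toMatrix'_id]
    · rw [← LinearMap.toMatrix'_comp, LinearEquiv.comp_coe, LinearEquiv.self_trans_symm,
        LinearEquiv.refl_toLinearMap, LinearMap.toMatrix'_id]
    · intro σ
      show LinearMap.toMatrix' (E : (Fin 2 → A) →ₗ[A] (Fin 2 → A)) * M σ =
        M' σ * LinearMap.toMatrix' (E : (Fin 2 → A) →ₗ[A] (Fin 2 → A))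
      have h1 : (E : (Fin 2 → A) →ₗ[A] (Fin 2 → A)) ∘ₗ Matrix.toLin' (M σ) =
          Matrix.toLin' (M' σ) ∘ₗ (E : (Fin 2 → A) →ₗ[A] (Fin 2 → A)) :=
        LinearMap.ext fun v => hE σ v
      have h2 := congrArg LinearMap.toMatrix' h1
      simpa only [LinearMap.toMatrix'_comp, LinearMap.toMatrix'_toLin'] using h2
  · rintro ⟨P, hP⟩
    exact ⟨equivOfConj M M' hM hM' P hP⟩

/-- Entries of `P * N * Q` lie in an ideal containing all entries of `N`. -/
theorem mul_mul_apply_mem (I : Ideal A) (P N Q : M2 A) (hN : ∀ i j, N i j ∈ I) (i j : Fin 2) :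
    (P * N * Q) i j ∈ I := by
  rw [Matrix.mul_apply]
  refine Ideal.sum_mem _ fun l _ => Ideal.mul_mem_right _ _ ?_
  rw [Matrix.mul_apply]
  exact Ideal.sum_mem _ fun m _ => Ideal.mul_mem_left _ _ (hN m l)

/-- **T1** continuity is invariant under conjugation. -/
theorem matCont_conj (M M' : GQ →* M2 A) (P : (M2 A)ˣ) (hP : ∀ σ, (P : M2 A) * M σ = M' σ * P)
    (hM : MatCont M) : MatCont M' := by
  intro n
  obtain ⟨L, hL, h⟩ := hM n
  refine ⟨L, hL, fun σ hσ i j => ?_⟩
  have h1 : M' σ - 1 = (P : M2 A) * (M σ - 1) * ((P⁻¹ : (M2 A)ˣ) : M2 A) := by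
    rw [mul_sub, sub_mul, hP σ, mul_assoc, Units.mul_inv, mul_one, mul_one, Units.mul_inv]
  rw [h1]
  exact mul_mul_apply_mem _ _ _ _ (h σ hσ) i j

/-- **T1** for `A` with nilpotent maximal ideal, continuity = trivial on an open subgroup. -/
theorem matCont_iff_of_nilpotent (hA : IsNilpotent (maximalIdeal A)) (M : GQ →* M2 A) :
    MatCont M ↔ ∃ L : IntermediateField ℚ (AlgebraicClosure ℚ), FiniteDimensional ℚ L ∧
      ∀ σ : GQ, (∀ x ∈ L, σ x = x) → M σ = 1 := by
  constructor
  · intro hM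
    obtain ⟨n, hn⟩ := hA
    obtain ⟨L, hL, h⟩ := hM n
    refine ⟨L, hL, fun σ hσ => ?_⟩
    ext i j
    have := h σ hσ i j
    rw [hn, Ideal.zero_eq_bot, Ideal.mem_bot] at this
    have h2 : M σ i j - (1 : M2 A) i j = 0 := by simpa using this
    exact sub_eq_zero.mp h2
  · rintro ⟨L, hL, h⟩ n
    refine ⟨L, hL, fun σ hσ i j => ?_⟩
    rw [h σ hσ, sub_self]
    exact Ideal.zero_mem _

/-- The matrices of a matrix model in the standard basis are the given matrices. -/
theorem matrixOf_ofMat (M : GQ →* M2 A) (hM : MatCont M) (σ : GQ) :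
    matrixOf (ofMat M hM) (Pi.basisFun A (Fin 2)) σ = M σ := by
  show LinearMap.toMatrix (Pi.basisFun A (Fin 2)) (Pi.basisFun A (Fin 2)) (Matrix.toLin' (M σ)) =
    M σ
  rw [LinearMap.toMatrix_eq_toMatrix', LinearMap.toMatrix'_toLin']

/-- A basis of the residual representation lifts to a basis of the representation. -/
theorem exists_basis_lifting (ρ : GaloisRepAdic A)
    (bbar : Module.Basis (Fin 2) (ResidueField A) ρ.residual.V) :
    ∃ b : Module.Basis (Fin 2) A ρ.V, ∀ i, (1 : ResidueField A) ⊗ₜ[A] b i = bbar i := by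
  have hsurj : Function.Surjective (TensorProduct.mk A (ResidueField A) ρ.V 1) :=
    TensorProduct.mk_surjective _ _ _ IsLocalRing.residue_surjective
  choose v hv using fun i => hsurj (bbar i)
  have hcomp : TensorProduct.mk A (ResidueField A) ρ.V 1 ∘ v = bbar := by
    funext i; exact hv i
  have : Module.FinitePresentation A ρ.V := Module.finitePresentation_of_projective A ρ.V
  obtain ⟨b, hb⟩ := Module.exists_basis_of_basis_baseChange (R := A) (M := ρ.V) v
    (by rw [hcomp]; exact bbar.linearIndependent)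
    (by rw [hcomp]; exact bbar.span_eq)
    (Module.Flat.rTensor_preserves_injective_linearMap _ Subtype.val_injective)
  refine ⟨b, fun i => ?_⟩
  rw [hb i]
  exact hv i

end Basic

section BaseChange

variable {A B : Type} [CommRing A] [IsLocalRing A] [CommRing B] [IsLocalRing B]

theorem mapMat_apply' (φ : A →+* B) (M : GQ →* M2 A) (σ : GQ) :
    mapMat φ M σ = φ.mapMatrix (M σ) := rfl

theorem map_maximalIdeal_pow_le (φ : A →+* B) (hφ : IsLocalHom φ) (n : ℕ) :
    (maximalIdeal A ^ n).map φ ≤ maximalIdeal B ^ n := by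
  rw [Ideal.map_pow]
  exact Ideal.pow_right_mono (Ideal.map_le_iff_le_comap.mpr fun a ha =>
    Ideal.mem_comap.mpr (haveI := hφ; map_nonunit φ a ha)) n

/-- **T1** continuity is preserved by push-forward along local homomorphisms. -/
theorem matCont_mapMat (φ : A →+* B) (hφ : IsLocalHom φ) (M : GQ →* M2 A) (hM : MatCont M) :
    MatCont (mapMat φ M) := by
  intro n
  obtain ⟨L, hL, h⟩ := hM n
  refine ⟨L, hL, fun σ hσ i j => ?_⟩
  have h1 : (mapMat φ M σ - 1) i j = φ ((M σ - 1) i j) := by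
    simp only [Matrix.sub_apply, mapMat_apply, map_sub, Matrix.one_apply]
    split_ifs <;> simp
  rw [h1]
  exact map_maximalIdeal_pow_le φ hφ n (Ideal.mem_map_of_mem φ (h σ hσ i j))

theorem piScalarRight_baseChange_toLin' {A B : Type} [CommRing A] [CommRing B] [Algebra A B]
    (N : Matrix (Fin 2) (Fin 2) A) (x : B ⊗[A] (Fin 2 → A)) :
    TensorProduct.piScalarRight A B B (Fin 2) ((Matrix.toLin' N).baseChange B x) =
      ((algebraMap A B).mapMatrix N).mulVec (TensorProduct.piScalarRight A B B (Fin 2) x) := by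
  induction x using TensorProduct.induction_on with
  | zero => simp
  | tmul c v =>
    rw [LinearMap.baseChange_tmul, TensorProduct.piScalarRight_apply,
      TensorProduct.piScalarRight_apply, TensorProduct.piScalarRightHom_tmul,
      TensorProduct.piScalarRightHom_tmul]
    funext i
    simp only [Matrix.toLin'_apply, Matrix.mulVec, dotProduct, RingHom.mapMatrix_apply,
      Matrix.map_apply, Algebra.smul_def, map_sum, map_mul, Finset.sum_mul]
    refine Finset.sum_congr rfl fun j _ => ?_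
    ring
  | add x y hx hy => simp only [map_add, hx, hy, Matrix.mulVec_add]

/-- Base change of a matrix model is the matrix model of the pushed-forward matrices. -/
def baseChangeOfMatEquiv (φ : A →+* B) (hφ : IsLocalHom φ) (M : GQ →* M2 A) (hM : MatCont M)
    (hM' : MatCont (mapMat φ M)) :
    GaloisRepAdic.Equiv ((ofMat M hM).baseChangeAlong φ hφ) (ofMat (mapMat φ M) hM') :=
  letI : Algebra A B := φ.toAlgebra
  { toLinearEquiv := TensorProduct.piScalarRight A B B (Fin 2)
    map_apply := fun σ x => piScalarRight_baseChange_toLin' (M σ) x }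

/-- **T1** base change of a matrix model. -/
theorem ofMat_baseChangeAlong_isEquiv (φ : A →+* B) (hφ : IsLocalHom φ) (M : GQ →* M2 A)
    (hM : MatCont M) (hM' : MatCont (mapMat φ M)) :
    ((ofMat M hM).baseChangeAlong φ hφ).IsEquiv (ofMat (mapMat φ M) hM') :=
  ⟨baseChangeOfMatEquiv φ hφ M hM hM'⟩

/-- If two base changes of a matrix model are both equivalent to the same representation,
the pushed-forward matrices are conjugate. -/
theorem exists_conj_of_baseChangeAlong_isEquiv (φ φ' : A →+* B) (hφ : IsLocalHom φ)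
    (hφ' : IsLocalHom φ') (M : GQ →* M2 A) (hM : MatCont M)
    (ρB : GaloisRepAdic B) (h : ((ofMat M hM).baseChangeAlong φ hφ).IsEquiv ρB)
    (h' : ((ofMat M hM).baseChangeAlong φ' hφ').IsEquiv ρB) :
    ∃ P : (M2 B)ˣ, ∀ σ, (P : M2 B) * mapMat φ M σ = mapMat φ' M σ * P := by
  obtain ⟨e⟩ := h
  obtain ⟨e'⟩ := h'
  exact (ofMat_isEquiv_iff _ _ (matCont_mapMat φ hφ M hM) (matCont_mapMat φ' hφ' M hM)).mp
    ⟨((baseChangeOfMatEquiv φ hφ M hM _).symm.trans e).trans
      (e'.symm.trans (baseChangeOfMatEquiv φ' hφ' M hM _))⟩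

/-- If a representation `ρB` has matrices (in some basis) equal to the push-forward of `M`,
then it is equivalent to the base change of the matrix model of `M`. -/
theorem baseChangeAlong_ofMat_isEquiv_of_matrixOf_eq (φ : A →+* B) (hφ : IsLocalHom φ)
    (M : GQ →* M2 A) (hM : MatCont M) (ρB : GaloisRepAdic B) (b : Module.Basis (Fin 2) B ρB.V)
    (h : ∀ σ, mapMat φ M σ = matrixOf ρB b σ) :
    ((ofMat M hM).baseChangeAlong φ hφ).IsEquiv ρB := by
  have hMM : mapMat φ M = matrixOf ρB b := MonoidHom.ext h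
  exact ⟨((baseChangeOfMatEquiv φ hφ M hM (matCont_mapMat φ hφ M hM)).trans
    (equivOfEq _ _ hMM)).trans (equivOfMatMatrixOf ρB b).symm⟩

end BaseChange

section Residual

variable {A : Type} [CommRing A] [IsLocalRing A]

/-- Matrices of the residual representation in the reduction of a basis. -/
theorem toMatrix_residual (ρ : GaloisRepAdic A) (b : Module.Basis (Fin 2) A ρ.V) (σ : GQ) :
    LinearMap.toMatrix (Algebra.TensorProduct.basis (ResidueField A) b)
      (Algebra.TensorProduct.basis (ResidueField A) b) (ρ.residual.ρ σ) =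
    (matrixOf ρ b σ).map (residue A) :=
  LinearMap.toMatrix_baseChange (ResidueField A) (ρ.ρ σ) b b

/-- Matrices of a base-changed residual representation in the base-changed basis. -/
theorem toMatrix_baseChangeAlong {k k' : Type} [Field k] [Field k'] (ψ : k →+* k')
    (ρbar : ResidualGaloisRep k) (b0 : Module.Basis (Fin 2) k ρbar.V) (σ : GQ) :
    letI : Algebra k k' := ψ.toAlgebra
    LinearMap.toMatrix (Algebra.TensorProduct.basis k' b0) (Algebra.TensorProduct.basis k' b0)
      ((ρbar.baseChangeAlong ψ).ρ σ) = (LinearMap.toMatrix b0 b0 (ρbar.ρ σ)).map ψ :=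
  letI : Algebra k k' := ψ.toAlgebra
  LinearMap.toMatrix_baseChange k' (ρbar.ρ σ) b0 b0

/-- Transport of matrices along an equivalence of residual representations. -/
theorem toMatrix_map_equiv {k : Type} [Field k] {ρ₁ ρ₂ : ResidualGaloisRep k}
    (e : ResidualGaloisRep.Equiv ρ₁ ρ₂) (b₁ : Module.Basis (Fin 2) k ρ₁.V) (σ : GQ) :
    LinearMap.toMatrix (b₁.map e.toLinearEquiv) (b₁.map e.toLinearEquiv) (ρ₂.ρ σ) =
      LinearMap.toMatrix b₁ b₁ (ρ₁.ρ σ) := by
  ext i j
  simp only [LinearMap.toMatrix_apply, Module.Basis.map_apply, Module.Basis.map_repr,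
    LinearEquiv.trans_apply]
  rw [← e.map_apply, LinearEquiv.symm_apply_apply]

/-- Two residual representations with the same matrices in some bases are equivalent. -/
def residualEquivOfToMatrixEq {k : Type} [Field k] {ρ₁ ρ₂ : ResidualGaloisRep k}
    (b₁ : Module.Basis (Fin 2) k ρ₁.V) (b₂ : Module.Basis (Fin 2) k ρ₂.V)
    (h : ∀ σ, LinearMap.toMatrix b₁ b₁ (ρ₁.ρ σ) = LinearMap.toMatrix b₂ b₂ (ρ₂.ρ σ)) :
    ResidualGaloisRep.Equiv ρ₁ ρ₂ where
  toLinearEquiv := b₁.equivFun.trans b₂.equivFun.symm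
  map_apply σ x := by
    apply b₂.equivFun.injective
    rw [LinearEquiv.trans_apply, LinearEquiv.apply_symm_apply, LinearEquiv.trans_apply]
    have h1 := LinearMap.toMatrix_mulVec_repr b₁ b₁ (ρ₁.ρ σ) x
    have h2 := LinearMap.toMatrix_mulVec_repr b₂ b₂ (ρ₂.ρ σ) (b₂.equivFun.symm (b₁.equivFun x))
    have h3 : (b₂.repr (b₂.equivFun.symm (b₁.equivFun x)) : Fin 2 → k) = b₁.equivFun x :=
      b₂.equivFun.apply_symm_apply (b₁.equivFun x)
    rw [Module.Basis.equivFun_apply, Module.Basis.equivFun_apply, ← h1, ← h2, h3, h σ]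
    rfl

variable {𝒪 : Type} [CommRing 𝒪] [IsLocalRing 𝒪] [Algebra 𝒪 A] [IsLocalHom (algebraMap 𝒪 A)]
  (ρbar : ResidualGaloisRep (ResidueField 𝒪))

theorem resMat_apply (σ : GQ) :
    resMat ρbar σ = LinearMap.toMatrix
      (Module.finBasisOfFinrankEq (ResidueField 𝒪) ρbar.V ρbar.finrank_eq)
      (Module.finBasisOfFinrankEq (ResidueField 𝒪) ρbar.V ρbar.finrank_eq) (ρbar.ρ σ) := rfl

/-- Strictness in terms of residues. -/
theorem strict_iff_residue (M : GQ →* M2 A) :
    Strict (resMat ρbar) M ↔ ∀ σ i j,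
      residue A (M σ i j) = ResidueField.map (algebraMap 𝒪 A) (resMat ρbar σ i j) := by
  constructor
  · intro hs σ i j
    obtain ⟨c, hc⟩ := residue_surjective (resMat ρbar σ i j)
    have h1 := hs σ i j c hc
    rw [← residue_eq_zero_iff, map_sub, sub_eq_zero] at h1
    rw [h1, ← hc]
    exact (ResidueField.map_residue (algebraMap 𝒪 A) c).symm
  · intro h σ i j c hc
    rw [← residue_eq_zero_iff, map_sub, sub_eq_zero, h σ i j, ← hc]
    exact ResidueField.map_residue (algebraMap 𝒪 A) c

/-- **T1** a lift of `ρbar` is equivalent to a strict matrix model. -/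
theorem exists_strict_of_residual_isEquiv (ρ : GaloisRepAdic A)
    (h : ρ.residual.IsEquiv (ρbar.baseChangeAlong (ResidueField.map (algebraMap 𝒪 A)))) :
    ∃ (M : GQ →* M2 A) (hM : MatCont M), Strict (resMat ρbar) M ∧ ρ.IsEquiv (ofMat M hM) := by
  obtain ⟨e⟩ := h
  set ψ : ResidueField 𝒪 →+* ResidueField A := ResidueField.map (algebraMap 𝒪 A) with hψ
  let b0 := Module.finBasisOfFinrankEq (ResidueField 𝒪) ρbar.V ρbar.finrank_eq
  let _ : Algebra (ResidueField 𝒪) (ResidueField A) := ψ.toAlgebra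
  let c : Module.Basis (Fin 2) (ResidueField A) (ρbar.baseChangeAlong ψ).V :=
    Algebra.TensorProduct.basis (ResidueField A) b0
  let bbar : Module.Basis (Fin 2) (ResidueField A) ρ.residual.V := c.map e.symm.toLinearEquiv
  obtain ⟨b, hb⟩ := exists_basis_lifting ρ bbar
  have hbb : Algebra.TensorProduct.basis (ResidueField A) b = bbar := by
    apply Module.Basis.eq_of_apply_eq
    intro i
    rw [Algebra.TensorProduct.basis_apply]
    exact hb i
  refine ⟨matrixOf ρ b, matCont_matrixOf ρ b, ?_, isEquiv_ofMat_matrixOf ρ b⟩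
  rw [strict_iff_residue]
  intro σ i j
  have h1 := toMatrix_residual ρ b σ
  rw [hbb] at h1
  have h2 := toMatrix_map_equiv e.symm c σ
  have h3 := toMatrix_baseChangeAlong ψ ρbar b0 σ
  have h4 : (matrixOf ρ b σ).map (residue A) = (resMat ρbar σ).map ψ :=
    h1.symm.trans (h2.trans h3)
  exact congrFun (congrFun h4 i) j

/-- **T1** the residual representation of a strict matrix model is `ρbar` (base changed). -/
theorem residual_isEquiv_of_strict (M : GQ →* M2 A) (hM : MatCont M)
    (hs : Strict (resMat ρbar) M) :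
    (ofMat M hM).residual.IsEquiv
      (ρbar.baseChangeAlong (ResidueField.map (algebraMap 𝒪 A))) := by
  set ψ : ResidueField 𝒪 →+* ResidueField A := ResidueField.map (algebraMap 𝒪 A) with hψ
  let b0 := Module.finBasisOfFinrankEq (ResidueField 𝒪) ρbar.V ρbar.finrank_eq
  let _ : Algebra (ResidueField 𝒪) (ResidueField A) := ψ.toAlgebra
  let b₂ : Module.Basis (Fin 2) (ResidueField A) (ρbar.baseChangeAlong ψ).V :=
    Algebra.TensorProduct.basis (ResidueField A) b0
  let b₁ : Module.Basis (Fin 2) (ResidueField A) (ofMat M hM).residual.V :=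
    Algebra.TensorProduct.basis (ResidueField A) (Pi.basisFun A (Fin 2))
  refine ⟨residualEquivOfToMatrixEq b₁ b₂ fun σ => ?_⟩
  have h1 := toMatrix_residual (ofMat M hM) (Pi.basisFun A (Fin 2)) σ
  have h3 := toMatrix_baseChangeAlong ψ ρbar b0 σ
  refine h1.trans (Eq.trans ?_ h3.symm)
  rw [matrixOf_ofMat]
  ext i j
  exact (strict_iff_residue ρbar M).mp hs σ i j

/-- **T1** continuity of the matrix form of `ρbar`. -/
theorem matCont_resMat : MatCont (resMat ρbar) := by
  obtain ⟨L, hL, h⟩ := ρbar.factorsThroughFiniteLevel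
  intro n
  refine ⟨L, hL, fun σ hσ i j => ?_⟩
  have h1 : resMat ρbar σ = 1 := by
    rw [resMat_apply, h σ hσ]
    exact LinearMap.toMatrix_one _
  rw [h1, sub_self]
  exact Ideal.zero_mem _

/-- **T1** `ρbar` itself, as a representation over the field `k`, is `ofMat (resMat ρbar)`. -/
theorem ofResidual_isEquiv_ofMat (hM : MatCont (resMat ρbar)) :
    (GaloisRepAdic.ofResidualGaloisRep ρbar).IsEquiv (ofMat (resMat ρbar) hM) := by
  let b0 := Module.finBasisOfFinrankEq (ResidueField 𝒪) ρbar.V ρbar.finrank_eq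
  refine ⟨{ toLinearEquiv := b0.equivFun, map_apply := fun σ x => ?_ }⟩
  show b0.equivFun (ρbar.ρ σ x) = (LinearMap.toMatrix b0 b0 (ρbar.ρ σ)).mulVec (b0.equivFun x)
  exact (LinearMap.toMatrix_mulVec_repr b0 b0 (ρbar.ρ σ) x).symm

end Residual

end Fermat.Agent.S53

end
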