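import Fermat.Agent.S53.Defs

/-!
# S53, task T4b: uniqueness in the slice lemma

`slice_unique`: two strict normalised lifts which are conjugate are equal.
All auxiliary declarations live in `Fermat.Agent.S53.SliceUnique`.
-/

set_option autoImplicit false
set_option linter.unusedSectionVars false

noncomputable section

namespace Fermat.Agent.S53

open IsLocalRing Matrix

namespace SliceUnique

section General

variable {B : Type} [CommRing B]

/-- commutator with `Wmat x` -/
def wcomm (x : Fin 3 → B) (N : M2 B) : M2 B := Wmat x * N - N * Wmat x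

/-- a linear functional on tuples of `2 × 2` matrices -/
def lin {m : ℕ} (l : Fin m → Fin 2 → Fin 2 → B) (N : Fin m → M2 B) : B :=
  ∑ a, ∑ i, ∑ j, l a i j * N a i j

/-- the coefficient of `x c` in `lin l (wcomm x ∘ N)` -/
def dcoef {m : ℕ} (l : Fin m → Fin 2 → Fin 2 → B) (N : Fin m → M2 B) (c : Fin 3) : B :=
  lin l (fun a => wcomm (Pi.single c 1) (N a))

theorem comm_eq_sum (x : Fin 3 → B) (N : M2 B) :
    wcomm x N = ∑ c, x c • wcomm (Pi.single c (1 : B)) N := by
  ext i j
  fin_cases i <;> fin_cases j <;>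
    simp [wcomm, Wmat, Fin.sum_univ_three, Matrix.mul_apply, Fin.sum_univ_two, Pi.single_apply,
      Matrix.sub_apply, Matrix.add_apply, Matrix.smul_apply, Matrix.vecMul, dotProduct] <;> ring

theorem lin_comm_eq_sum {m : ℕ} (l : Fin m → Fin 2 → Fin 2 → B) (N : Fin m → M2 B)
    (x : Fin 3 → B) :
    lin l (fun a => wcomm x (N a)) = ∑ c, x c * dcoef l N c := by
  unfold dcoef lin
  have h1 : ∀ a i j, l a i j * wcomm x (N a) i j
      = ∑ c, x c * (l a i j * wcomm (Pi.single c 1) (N a) i j) := by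
    intro a i j
    rw [comm_eq_sum x (N a)]
    simp only [Matrix.sum_apply, Matrix.smul_apply, smul_eq_mul, Finset.mul_sum]
    refine Finset.sum_congr rfl fun c _ => ?_
    ring
  simp_rw [h1]
  simp only [Fin.sum_univ_three, Finset.sum_add_distrib, Finset.mul_sum]

theorem lin_mem {m : ℕ} (l : Fin m → Fin 2 → Fin 2 → B) (N : Fin m → M2 B) (I : Ideal B)
    (h : ∀ a i j, N a i j ∈ I) : lin l N ∈ I :=
  Ideal.sum_mem _ fun a _ => Ideal.sum_mem _ fun i _ => Ideal.sum_mem _ fun j _ =>
    Ideal.mul_mem_left _ _ (h a i j)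

theorem lin_add {m : ℕ} (l : Fin m → Fin 2 → Fin 2 → B) (N N' : Fin m → M2 B) :
    lin l (fun a => N a + N' a) = lin l N + lin l N' := by
  unfold lin
  simp only [Matrix.add_apply, mul_add, Finset.sum_add_distrib]

theorem lin_sub {m : ℕ} (l : Fin m → Fin 2 → Fin 2 → B) (N N' : Fin m → M2 B) :
    lin l (fun a => N a - N' a) = lin l N - lin l N' := by
  unfold lin
  simp only [Matrix.sub_apply, mul_sub, Finset.sum_sub_distrib]

theorem lin_smul {m : ℕ} (l : Fin m → Fin 2 → Fin 2 → B) (N : Fin m → M2 B) (c : B) :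
    lin l (fun a => c • N a) = c * lin l N := by
  unfold lin
  simp only [Matrix.smul_apply, smul_eq_mul, Finset.mul_sum]
  refine Finset.sum_congr rfl fun a _ => Finset.sum_congr rfl fun i _ =>
    Finset.sum_congr rfl fun j _ => ?_
  ring

/-- compatibility of `dcoef` with ring homs -/
theorem map_dcoef {B' : Type} [CommRing B'] (φ : B →+* B') {m : ℕ}
    (l : Fin m → Fin 2 → Fin 2 → B) (N : Fin m → M2 B) (c : Fin 3) :
    φ (dcoef l N c) = dcoef (fun a i j => φ (l a i j)) (fun a => (N a).map φ) c := by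
  unfold dcoef lin
  simp only [map_sum, map_mul]
  refine Finset.sum_congr rfl fun a _ => Finset.sum_congr rfl fun i _ =>
    Finset.sum_congr rfl fun j _ => ?_
  congr 1
  fin_cases c <;> fin_cases i <;> fin_cases j <;>
    simp [wcomm, Wmat, Matrix.mul_apply, Fin.sum_univ_two, Matrix.sub_apply,
      Matrix.vecMul, dotProduct]

end General


section Main

variable {𝒪 : Type} [CommRing 𝒪] [IsLocalRing 𝒪] {ρb : GQ →* M2 (ResidueField 𝒪)}
  (sd : SliceData ρb)
variable {A : Type} [CommRing A] [IsLocalRing A] [Algebra 𝒪 A] [IsLocalHom (algebraMap 𝒪 A)]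

/-- coefficients of the `b`-th slice functional, over `A` -/
def lA (b : Fin 3) : Fin sd.m → Fin 2 → Fin 2 → A :=
  fun a i j => algebraMap 𝒪 A (sd.ℓ b a i j)

theorem nrm_eq_lin (M : GQ → M2 A) (b : Fin 3) :
    nrm sd M b = lin (lA (A := A) sd b) (fun a => M (sd.g a)) := rfl

theorem residue_eq_of_strict {M : GQ →* M2 A} (hs : Strict ρb M) (σ : GQ) (i j : Fin 2) :
    residue A (M σ i j) = ResidueField.map (algebraMap 𝒪 A) (ρb σ i j) := by
  obtain ⟨c, hc⟩ := residue_surjective (ρb σ i j)
  have h1 := hs σ i j c hc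
  rw [← residue_eq_zero_iff, map_sub, sub_eq_zero] at h1
  rw [h1, ← hc]
  exact (ResidueField.map_residue (algebraMap 𝒪 A) c).symm

theorem sub_mem_of_strict {M M' : GQ →* M2 A} (hs : Strict ρb M) (hs' : Strict ρb M')
    (σ : GQ) (i j : Fin 2) : M' σ i j - M σ i j ∈ maximalIdeal A := by
  rw [← residue_eq_zero_iff, map_sub, residue_eq_of_strict hs, residue_eq_of_strict hs', sub_self]

/-- The derivative of the conjugation action in slice coordinates is congruent to the
identity modulo the maximal ideal. -/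
theorem dcoef_sub_mem {M : GQ →* M2 A} (hs : Strict ρb M) (b c : Fin 3) :
    dcoef (lA (A := A) sd b) (fun a => M (sd.g a)) c - (if b = c then 1 else 0)
      ∈ maximalIdeal A := by
  rw [← residue_eq_zero_iff, map_sub, map_dcoef]
  have h1 : (fun a i j => residue A (lA (A := A) sd b a i j))
      = fun a i j => ResidueField.map (algebraMap 𝒪 A) (residue 𝒪 (sd.ℓ b a i j)) := by
    funext a i j
    exact (ResidueField.map_residue (algebraMap 𝒪 A) _).symm
  have h2 : (fun a => (M (sd.g a)).map (residue A))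
      = fun a => (ρb (sd.g a)).map (ResidueField.map (algebraMap 𝒪 A)) := by
    funext a
    ext i j
    simp only [Matrix.map_apply]
    exact residue_eq_of_strict hs _ i j
  rw [h1, h2, ← map_dcoef (ResidueField.map (algebraMap 𝒪 A))]
  have h3 : dcoef (fun a i j => residue 𝒪 (sd.ℓ b a i j)) (fun a => ρb (sd.g a)) c
      = (Pi.single c (1 : ResidueField 𝒪) : Fin 3 → ResidueField 𝒪) b :=
    sd.hD b (Pi.single c 1)
  rw [h3, Pi.single_apply]
  by_cases hbc : b = c
  · simp [hbc]
  · simp [hbc]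

/-- Solving `x` from `D x` when `D ≡ 1` modulo `𝔪`. -/
theorem mem_of_sum_mul_dcoef_mem {d : Fin 3 → Fin 3 → A}
    (hd : ∀ b c, d b c - (if b = c then 1 else 0) ∈ maximalIdeal A)
    {x : Fin 3 → A} {I J : Ideal A} (hx : ∀ c, x c ∈ I)
    (hJ : ∀ b, ∑ c, x c * d b c ∈ J) (b : Fin 3) : x b ∈ J ⊔ maximalIdeal A * I := by
  have h1 : x b = ∑ c, x c * d b c - ∑ c, x c * (d b c - (if b = c then 1 else 0)) := by
    rw [← Finset.sum_sub_distrib]
    simp [mul_sub]
  rw [h1]
  refine Ideal.sub_mem _ (Ideal.mem_sup_left (hJ b)) (Ideal.mem_sup_right ?_)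
  refine Ideal.sum_mem _ fun c _ => ?_
  exact Ideal.mul_mem_mul_rev (hd b c) (hx c)

end Main

end SliceUnique

open SliceUnique in
/-- **T4b (slice lemma, uniqueness).** Two strict normalised lifts which are conjugate by an
invertible matrix are equal. -/
theorem slice_unique {𝒪 : Type} [CommRing 𝒪] [IsLocalRing 𝒪] {ρb : GQ →* M2 (ResidueField 𝒪)}
    (sd : SliceData ρb) {A : Type} [CommRing A] [IsLocalRing A] [Algebra 𝒪 A]
    [IsLocalHom (algebraMap 𝒪 A)] [IsHausdorff (maximalIdeal A) A] (M M' : GQ →* M2 A)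
    (hs : Strict ρb M) (hs' : Strict ρb M') (hn : Normalized sd M) (hn' : Normalized sd M')
    (P : (M2 A)ˣ) (hP : ∀ σ, (P : M2 A) * M σ = M' σ * P) : M = M' := by
  set p : M2 A := (P : M2 A) with hp
  set c : A := p 0 0 with hc
  set x : Fin 3 → A := ![p 0 1, p 1 0, p 1 1 - p 0 0] with hx
  have hpform : p = c • (1 : M2 A) + Wmat x := by
    ext i j
    fin_cases i <;> fin_cases j <;> simp [Wmat, hx, hc]
  -- the basic relation
  have hrel : ∀ σ, c • M σ + Wmat x * M σ = c • M' σ + M' σ * Wmat x := by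
    intro σ
    have h := hP σ
    rw [hpform] at h
    simpa only [Matrix.add_mul, Matrix.mul_add, Matrix.smul_mul, Matrix.mul_smul,
      Matrix.one_mul, Matrix.mul_one] using h
  have hE1 : ∀ σ, wcomm x (M σ) = c • (M' σ - M σ) + (M' σ - M σ) * Wmat x := by
    intro σ
    have h1 : Wmat x * M σ = c • M' σ + M' σ * Wmat x - c • M σ := by
      rw [← hrel σ]; abel
    unfold wcomm
    rw [h1, smul_sub, Matrix.sub_mul]
    abel
  have hE2 : ∀ σ, c • (M' σ - M σ) = Wmat x * M σ - M' σ * Wmat x := by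
    intro σ
    have h1 : Wmat x * M σ = c • M' σ + M' σ * Wmat x - c • M σ := by
      rw [← hrel σ]; abel
    rw [h1, smul_sub]
    abel
  have hd := dcoef_sub_mem (A := A) sd hs
  have hW : ∀ (I : Ideal A), (∀ c', x c' ∈ I) → ∀ i j, Wmat x i j ∈ I := by
    intro I hI i j
    fin_cases i <;> fin_cases j <;> simp [Wmat, hI]
  have hstep : ∀ (I I' : Ideal A), (∀ c', x c' ∈ I) → (∀ σ i j, (M' σ - M σ) i j ∈ I') →
      ∀ b, ∑ c', x c' * dcoef (lA (A := A) sd b) (fun a => M (sd.g a)) c' ∈ I' * I := by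
    intro I I' hI hI' b
    rw [← lin_comm_eq_sum]
    have hfun : (fun a => wcomm x (M (sd.g a)))
        = fun a => c • (M' (sd.g a) - M (sd.g a)) + (M' (sd.g a) - M (sd.g a)) * Wmat x :=
      funext fun a => hE1 _
    rw [hfun, lin_add, lin_smul, lin_sub]
    have hκ : lin (lA (A := A) sd b) (fun a => M' (sd.g a))
        - lin (lA (A := A) sd b) (fun a => M (sd.g a)) = 0 := by
      rw [← nrm_eq_lin, ← nrm_eq_lin, hn' b, hn b, sub_self]
    rw [hκ, mul_zero, zero_add]
    apply lin_mem
    intro a i j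
    rw [Matrix.mul_apply]
    exact Ideal.sum_mem _ fun l _ => Ideal.mul_mem_mul (hI' _ i l) (hW I hI l j)
  -- first step: `x` has coordinates in the maximal ideal
  have hx_m : ∀ b, x b ∈ maximalIdeal A := by
    intro b
    have h1 := mem_of_sum_mul_dcoef_mem hd (I := ⊤) (J := maximalIdeal A * ⊤)
      (fun _ => Submodule.mem_top)
      (hstep ⊤ (maximalIdeal A) (fun _ => Submodule.mem_top)
        (fun σ i j => by
          rw [Matrix.sub_apply]; exact sub_mem_of_strict hs hs' σ i j)) b
    simpa using h1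
  -- `c` is a unit
  have hcu : IsUnit c := by
    have hdet : IsUnit p.det := (Matrix.isUnit_iff_isUnit_det _).mp P.isUnit
    by_contra hnu
    have hcm : c ∈ maximalIdeal A := (mem_maximalIdeal _).mpr hnu
    have h01 : p 0 1 ∈ maximalIdeal A := hx_m 0
    have : p.det ∈ maximalIdeal A := by
      rw [Matrix.det_fin_two]
      exact Ideal.sub_mem _ (Ideal.mul_mem_right _ _ hcm) (Ideal.mul_mem_right _ _ h01)
    exact (mem_maximalIdeal _).mp this hdet
  -- induction: coordinates of `x` lie in every power of the maximal ideal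
  have hxn : ∀ n : ℕ, ∀ b, x b ∈ maximalIdeal A ^ (n + 1) := by
    intro n
    induction n with
    | zero => intro b; simpa using hx_m b
    | succ n ih =>
      intro b
      set I : Ideal A := maximalIdeal A ^ (n + 1) with hI
      have hMM : ∀ σ i j, (M' σ - M σ) i j ∈ I := by
        intro σ i j
        have h1 : (c • (M' σ - M σ)) i j ∈ I := by
          rw [hE2 σ, Matrix.sub_apply, Matrix.mul_apply, Matrix.mul_apply]
          refine Ideal.sub_mem _ ?_ ?_
          · exact Ideal.sum_mem _ fun l _ => Ideal.mul_mem_right _ _ (hW I ih i l)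
          · exact Ideal.sum_mem _ fun l _ => Ideal.mul_mem_left _ _ (hW I ih l j)
        rw [Matrix.smul_apply, smul_eq_mul] at h1
        obtain ⟨u, hu⟩ := hcu
        have h2 : ((u⁻¹ : Aˣ) : A) * (c * (M' σ - M σ) i j) ∈ I := Ideal.mul_mem_left _ _ h1
        rwa [← mul_assoc, ← hu, Units.inv_mul, one_mul] at h2
      have h1 := mem_of_sum_mul_dcoef_mem hd (I := I) (J := I * I) ih (hstep I I ih hMM) b
      have hle : I * I ⊔ maximalIdeal A * I ≤ maximalIdeal A ^ (n + 1 + 1) := by
        refine sup_le ?_ ?_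
        · rw [hI, ← pow_add]
          exact Ideal.pow_le_pow_right (by omega)
        · rw [hI, ← pow_succ']
      exact hle h1
  have hx0 : ∀ b, x b = 0 := by
    intro b
    refine IsHausdorff.haus (I := maximalIdeal A) inferInstance (x b) fun n => ?_
    rw [SModEq.zero, smul_eq_mul, Ideal.mul_top]
    exact Ideal.pow_le_pow_right (Nat.le_succ n) (hxn n b)
  have hW0 : Wmat x = 0 := by
    ext i j
    fin_cases i <;> fin_cases j <;> simp [Wmat, hx0]
  ext σ : 1
  have h := hrel σ
  rw [hW0, Matrix.zero_mul, Matrix.mul_zero, add_zero, add_zero] at h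
  exact (hcu.smul_left_cancel).mp h

end Fermat.Agent.S53
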