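import Fermat.Agent.S53.MatrixModel
import Fermat.Agent.S53.SliceUnique

/-!
# S53, task T7: separating coordinates from `TangentFinite`

The normalised lifts of type `𝒟` to the dual numbers `k[ε]` inject into the finite quotient of
`GaloisRep.TangentFinite`; hence they form a finite set of functions, separated by finitely many
matrix coordinates.
-/

set_option autoImplicit false
set_option linter.unusedSectionVars false
set_option linter.style.haveILetI false

noncomputable section

namespace Fermat.Agent.S53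

open IsLocalRing

/-! ### generalities -/

/-- A finite set of functions is separated by finitely many points. -/
theorem exists_separating_points {X Y : Type} (S : Set (X → Y)) (hS : S.Finite) :
    ∃ (r : ℕ) (crd : Fin r → X), ∀ f ∈ S, ∀ g ∈ S, (∀ a, f (crd a) = g (crd a)) → f = g := by
  classical
  haveI : Finite S := hS
  let T : Type := {p : S × S // p.1.1 ≠ p.2.1}
  haveI : Finite T := Subtype.finite
  obtain ⟨r, ⟨e⟩⟩ := Finite.exists_equiv_fin T
  refine ⟨r, fun a => Classical.choose (Function.ne_iff.mp (e.symm a).2), ?_⟩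
  intro f hf g hg h
  by_contra hne
  let t : T := ⟨(⟨f, hf⟩, ⟨g, hg⟩), hne⟩
  have h1 := Classical.choose_spec (Function.ne_iff.mp (e.symm (e t)).2)
  have h2 := h (e t)
  rw [Equiv.symm_apply_apply] at h1
  simp only [Equiv.symm_apply_apply] at h2
  exact h1 h2

section DualNumber

variable (𝒪 : Type) [CommRing 𝒪] [IsLocalRing 𝒪]

/-- The structure map `𝒪 → k[ε]` is a local homomorphism. -/
theorem isLocalHom_algebraMap_dualNumber :
    letI := dualNumberAlgebra 𝒪
    IsLocalHom (algebraMap 𝒪 (DualNumber (ResidueField 𝒪))) := by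
  letI := dualNumberAlgebra 𝒪
  constructor
  intro a ha
  have h1 : algebraMap 𝒪 (DualNumber (ResidueField 𝒪)) a =
      algebraMap (ResidueField 𝒪) (DualNumber (ResidueField 𝒪)) (residue 𝒪 a) := rfl
  rw [h1] at ha
  have h2 : IsUnit (residue 𝒪 a) := (TrivSqZeroExt.isUnit_iff_isUnit_fst).mp ha
  exact isUnit_of_map_unit (residue 𝒪) a h2

/-- The two descriptions of the map `k → residue field of k[ε]` agree. -/
theorem residueField_map_algebraMap_dualNumber :
    letI := dualNumberAlgebra 𝒪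
    haveI := isLocalHom_algebraMap_dualNumber 𝒪
    ResidueField.map (algebraMap 𝒪 (DualNumber (ResidueField 𝒪))) =
      (IsLocalRing.residue (DualNumber (ResidueField 𝒪))).comp
        (algebraMap (ResidueField 𝒪) (DualNumber (ResidueField 𝒪))) := by
  letI := dualNumberAlgebra 𝒪
  haveI := isLocalHom_algebraMap_dualNumber 𝒪
  ext x
  obtain ⟨a, rfl⟩ := IsLocalRing.residue_surjective x
  rw [IsLocalRing.ResidueField.map_residue]
  rfl

end DualNumber

/-! ### the main result -/
section T7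

variable {𝒪 : Type} [CommRing 𝒪] [IsLocalRing 𝒪] [Finite (ResidueField 𝒪)]
  (𝒟 : ∀ ⦃A : Type⦄ [CommRing A] [IsLocalRing A] [Algebra 𝒪 A], GaloisRepAdic A → Prop)
  (ρbar : ResidualGaloisRep (ResidueField 𝒪))

/-- The normalised lifts of type `𝒟` to `k[ε]` form a finite set. -/
theorem finite_nlift_dualNumber (hfin : GaloisRep.TangentFinite 𝒪 ρbar 𝒟)
    (sd : SliceData (resMat ρbar)) :
    letI := dualNumberAlgebra 𝒪
    Finite {M : GQ →* M2 (DualNumber (ResidueField 𝒪)) // IsNLift sd 𝒟 M} := by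
  letI i1 : Algebra 𝒪 (DualNumber (ResidueField 𝒪)) := dualNumberAlgebra 𝒪
  haveI := isLocalHom_algebraMap_dualNumber 𝒪
  letI i2 : Algebra (ResidueField 𝒪) (ResidueField (DualNumber (ResidueField 𝒪))) :=
    ((IsLocalRing.residue (DualNumber (ResidueField 𝒪))).comp
      (algebraMap (ResidueField 𝒪) (DualNumber (ResidueField 𝒪)))).toAlgebra
  let X : Type 1 := {ρ : GaloisRepAdic (DualNumber (ResidueField 𝒪)) //
      𝒟 ρ ∧ ρ.residual.IsEquiv (ρbar.baseChange (ResidueField (DualNumber (ResidueField 𝒪))))}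
  let s : Setoid X := ⟨fun ρ ρ' => ρ.1.IsEquiv ρ'.1, ⟨fun ρ => ⟨GaloisRepAdic.Equiv.refl ρ.1⟩,
    fun ⟨e⟩ => ⟨e.symm⟩, fun ⟨e⟩ ⟨e'⟩ => ⟨e.trans e'⟩⟩⟩
  have hfin' : Finite (Quotient s) := hfin
  have hres : ∀ M : {M : GQ →* M2 (DualNumber (ResidueField 𝒪)) // IsNLift sd 𝒟 M},
      (ofMat M.1 M.2.isType.choose).residual.IsEquiv
        (ρbar.baseChangeAlong ((IsLocalRing.residue (DualNumber (ResidueField 𝒪))).comp
          (algebraMap (ResidueField 𝒪) (DualNumber (ResidueField 𝒪))))) := by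
    intro M
    rw [← residueField_map_algebraMap_dualNumber 𝒪]
    exact residual_isEquiv_of_strict ρbar M.1 M.2.isType.choose M.2.strict
  let Ψ : {M : GQ →* M2 (DualNumber (ResidueField 𝒪)) // IsNLift sd 𝒟 M} → Quotient s :=
    fun M => Quotient.mk s (⟨ofMat M.1 M.2.isType.choose, M.2.isType.choose_spec, hres M⟩ : X)
  refine Finite.of_injective Ψ ?_
  intro M M' h
  have h' : (ofMat M.1 M.2.isType.choose).IsEquiv (ofMat M'.1 M'.2.isType.choose) :=
    Quotient.exact h
  obtain ⟨P, hP⟩ := (ofMat_isEquiv_iff _ _ _ _).mp h'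
  exact Subtype.ext (slice_unique sd M.1 M'.1 M.2.strict M'.2.strict M.2.normalized
    M'.2.normalized P hP)

theorem exists_separating_coords (hfin : GaloisRep.TangentFinite 𝒪 ρbar 𝒟)
    (sd : SliceData (resMat ρbar)) :
    letI := dualNumberAlgebra 𝒪
    ∃ (r : ℕ) (crd : Fin r → GQ × Fin 2 × Fin 2),
      ∀ M M' : GQ →* M2 (DualNumber (ResidueField 𝒪)), IsNLift sd 𝒟 M → IsNLift sd 𝒟 M' →
        (∀ a, M (crd a).1 (crd a).2.1 (crd a).2.2 = M' (crd a).1 (crd a).2.1 (crd a).2.2) →
        M = M' := by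
  letI := dualNumberAlgebra 𝒪
  have hfinN : {M : GQ →* M2 (DualNumber (ResidueField 𝒪)) | IsNLift sd 𝒟 M}.Finite :=
    Set.finite_coe_iff.mp (finite_nlift_dualNumber 𝒟 ρbar hfin sd)
  let unc : (GQ →* M2 (DualNumber (ResidueField 𝒪))) →
      (GQ × Fin 2 × Fin 2 → DualNumber (ResidueField 𝒪)) := fun M x => M x.1 x.2.1 x.2.2
  have hunc : Function.Injective unc := by
    intro M M' h
    exact MonoidHom.ext fun σ => Matrix.ext fun i j => congrFun h (σ, i, j)
  let S : Set (GQ × Fin 2 × Fin 2 → DualNumber (ResidueField 𝒪)) :=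
    unc '' {M | IsNLift sd 𝒟 M}
  have hS : S.Finite := Set.Finite.image _ hfinN
  obtain ⟨r, crd, h⟩ := exists_separating_points S hS
  refine ⟨r, crd, fun M M' hM hM' hc => hunc ?_⟩
  exact h _ ⟨M, hM, rfl⟩ _ ⟨M', hM', rfl⟩ hc

end T7

end Fermat.Agent.S53

end
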