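/-
S53 helper: `MvPowerSeries (Fin d) 𝒪` is complete with respect to its maximal ideal
when `𝒪` is a complete Noetherian local ring.
-/
import Mathlib

set_option autoImplicit false

namespace Fermat.Agent.S53.PSC

open IsLocalRing

section Sup

variable {R : Type*} [CommRing R]

/-- If a ring is precomplete for `I` and for `J`, it is precomplete for `I ⊔ J`. -/
theorem isPrecomplete_sup (I J : Ideal R) [IsPrecomplete I R] [IsPrecomplete J R] :
    IsPrecomplete (I ⊔ J) R := by
  refine ⟨fun {f} hf => ?_⟩
  simp only [smul_eq_mul, Ideal.mul_top] at hf ⊢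
  -- pass to the subsequence `g n = f (2 n)`
  have hg : ∀ n, f (2 * (n + 1)) - f (2 * n) ∈ I ^ n ⊔ J ^ n := by
    intro n
    have h1 : f (2 * n) ≡ f (2 * (n + 1)) [SMOD ((I ⊔ J) ^ (2 * n) : Ideal R)] :=
      hf (by omega)
    have h2 : f (2 * (n + 1)) - f (2 * n) ∈ (I ⊔ J) ^ (2 * n) := by
      rw [← SModEq.sub_mem]; exact h1.symm
    have h3 : (I ⊔ J) ^ (2 * n) ≤ I ^ n ⊔ J ^ n := by
      rw [two_mul]; exact Ideal.sup_pow_add_le_pow_sup_pow
    exact h3 h2
  choose a ha b hb hab using fun n => Submodule.mem_sup.1 (hg n)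
  -- partial sums
  let A : ℕ → R := fun n => ∑ i ∈ Finset.range n, a i
  let B : ℕ → R := fun n => ∑ i ∈ Finset.range n, b i
  have hAcauchy : ∀ {m n}, m ≤ n → A m ≡ A n [SMOD (I ^ m • ⊤ : Submodule R R)] := by
    intro m n hmn
    simp only [smul_eq_mul, Ideal.mul_top]
    rw [SModEq.sub_mem]
    have : A m - A n = - ∑ i ∈ Finset.Ico m n, a i := by
      simp only [A]
      rw [Finset.sum_Ico_eq_sub _ hmn]; ring
    rw [this]
    refine neg_mem (Ideal.sum_mem _ fun i hi => ?_)
    exact Ideal.pow_le_pow_right (Finset.mem_Ico.1 hi).1 (ha i)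
  have hBcauchy : ∀ {m n}, m ≤ n → B m ≡ B n [SMOD (J ^ m • ⊤ : Submodule R R)] := by
    intro m n hmn
    simp only [smul_eq_mul, Ideal.mul_top]
    rw [SModEq.sub_mem]
    have : B m - B n = - ∑ i ∈ Finset.Ico m n, b i := by
      simp only [B]
      rw [Finset.sum_Ico_eq_sub _ hmn]; ring
    rw [this]
    refine neg_mem (Ideal.sum_mem _ fun i hi => ?_)
    exact Ideal.pow_le_pow_right (Finset.mem_Ico.1 hi).1 (hb i)
  obtain ⟨LA, hLA⟩ := IsPrecomplete.prec (I := I) (M := R) inferInstance hAcauchy
  obtain ⟨LB, hLB⟩ := IsPrecomplete.prec (I := J) (M := R) inferInstance hBcauchy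
  simp only [smul_eq_mul, Ideal.mul_top] at hLA hLB
  have hgsum : ∀ n, f (2 * n) = f 0 + A n + B n := by
    intro n
    induction n with
    | zero => simp [A, B]
    | succ n ih =>
      have := hab n
      simp only [A, B, Finset.sum_range_succ] at ih ⊢
      have h4 : f (2 * (n + 1)) = f (2 * n) + (a n + b n) := by rw [this]; ring
      rw [h4, ih]; ring
  refine ⟨f 0 + LA + LB, fun n => ?_⟩
  have h5 : f n ≡ f (2 * n) [SMOD ((I ⊔ J) ^ n : Ideal R)] := hf (by omega)
  refine h5.trans ?_
  rw [SModEq.sub_mem, hgsum n]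
  have h6 : f 0 + A n + B n - (f 0 + LA + LB) = (A n - LA) + (B n - LB) := by ring
  rw [h6]
  refine add_mem ?_ ?_
  · exact Ideal.pow_right_mono le_sup_left n ((SModEq.sub_mem).1 (hLA n))
  · exact Ideal.pow_right_mono le_sup_right n ((SModEq.sub_mem).1 (hLB n))

end Sup

section PowerSeries

open MvPowerSeries

variable {σ : Type*} {R : Type*} [CommRing R]


/-- A power series whose coefficients all lie in a finitely generated ideal `I` lies in the
extension of `I`. -/
theorem mem_map_C_of_forall_coeff_mem {I : Ideal R} (hI : I.FG) (f : MvPowerSeries σ R)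
    (hf : ∀ m, coeff m f ∈ I) : f ∈ I.map (C (σ := σ) (R := R)) := by
  classical
  obtain ⟨s, rfl⟩ := hI
  -- write each coefficient as a combination of the generators
  have h1 : ∀ m, ∃ c : s → R, ∑ i, c i * (i : R) = coeff m f := by
    intro m
    have := hf m
    rw [← Subtype.range_coe (s := (s : Set R)), Ideal.mem_span_range_iff_exists_fun] at this
    exact this
  choose c hc using h1
  let g : s → MvPowerSeries σ R := fun i m => c m i
  have hg : ∀ i m, coeff m (g i) = c m i := fun i m => rfl
  have h2 : f = ∑ i : s, C (σ := σ) (i : R) * g i := by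
    ext m
    rw [map_sum, ← hc m]
    refine Finset.sum_congr rfl fun i _ => ?_
    rw [coeff_C_mul, mul_comm, hg]
  rw [h2]
  refine Ideal.sum_mem _ fun i _ => Ideal.mul_mem_right _ _ (Ideal.mem_map_of_mem _ ?_)
  exact Ideal.subset_span i.2

theorem coeff_mem_of_mem_map_C {I : Ideal R} (f : MvPowerSeries σ R)
    (hf : f ∈ I.map (C (σ := σ) (R := R))) (m : σ →₀ ℕ) : coeff m f ∈ I := by
  classical
  induction hf using Submodule.span_induction generalizing m with
  | mem x hx =>
    obtain ⟨a, ha, rfl⟩ := hx
    rw [coeff_C]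
    split_ifs
    · exact ha
    · exact zero_mem _
  | zero => simp
  | add x y _ _ hx hy => rw [map_add]; exact add_mem (hx m) (hy m)
  | smul a x _ hx =>
    rw [smul_eq_mul, coeff_mul]
    exact Ideal.sum_mem _ fun p _ => Ideal.mul_mem_left _ _ (hx _)

theorem isPrecomplete_map_C (I : Ideal R) (hI : I.FG) [IsPrecomplete I R] :
    IsPrecomplete (I.map (C (σ := σ) (R := R))) (MvPowerSeries σ R) := by
  refine ⟨fun {f} hf => ?_⟩
  simp only [smul_eq_mul, Ideal.mul_top, ← Ideal.map_pow] at hf ⊢
  have hc : ∀ m : σ →₀ ℕ, ∃ L : R, ∀ n, coeff m (f n) ≡ L [SMOD (I ^ n • ⊤ : Submodule R R)] := by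
    intro m
    refine IsPrecomplete.prec inferInstance ?_
    intro a b hab
    simp only [smul_eq_mul, Ideal.mul_top]
    rw [SModEq.sub_mem, ← map_sub]
    exact coeff_mem_of_mem_map_C _ ((SModEq.sub_mem).1 (hf hab)) m
  choose c hc using hc
  simp only [smul_eq_mul, Ideal.mul_top] at hc
  let L : MvPowerSeries σ R := fun m => c m
  have hL : ∀ m, coeff m L = c m := fun m => rfl
  refine ⟨L, fun n => ?_⟩
  rw [SModEq.sub_mem]
  refine mem_map_C_of_forall_coeff_mem (hI.pow) _ fun m => ?_
  rw [map_sub, hL]
  exact (SModEq.sub_mem).1 (hc m n)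


/-- If all coefficients of `f` at monomials not involving the variables in `s` vanish then
`f` lies in the ideal generated by the variables in `s`. -/
theorem mem_span_X_image_of_forall_coeff_eq_zero (s : Finset σ) (f : MvPowerSeries σ R)
    (hf : ∀ m : σ →₀ ℕ, (∀ j ∈ s, m j = 0) → coeff m f = 0) :
    f ∈ Ideal.span ((fun j => (X j : MvPowerSeries σ R)) '' (s : Set σ)) := by
  classical
  induction s using Finset.induction_on generalizing f with
  | empty =>
    have : f = 0 := by
      ext m
      rw [hf m (by simp)]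
      simp
    rw [this]
    exact zero_mem _
  | insert j s hjs ih =>
    let h : MvPowerSeries σ R := fun m => if m j = 0 then coeff m f else 0
    have hcoeff : ∀ m, coeff m h = if m j = 0 then coeff m f else 0 := fun m => rfl
    have hh : ∀ m : σ →₀ ℕ, (∀ j ∈ s, m j = 0) → coeff m h = 0 := by
      intro m hm
      rw [hcoeff]
      split_ifs with hmj
      · apply hf m
        intro j' hj'
        rw [Finset.mem_insert] at hj'
        rcases hj' with rfl | hj'
        · exact hmj
        · exact hm j' hj'
      · rfl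
    have hdvd : (X j : MvPowerSeries σ R) ∣ f - h := by
      rw [X_dvd_iff]
      intro m hmj
      rw [map_sub, hcoeff, if_pos hmj, sub_self]
    obtain ⟨g, hg⟩ := hdvd
    have hf' : f = X j * g + h := by rw [← hg]; ring
    rw [hf']
    refine add_mem ?_ ?_
    · refine Ideal.mul_mem_right _ _ (Ideal.subset_span ⟨j, ?_, rfl⟩)
      simp
    · refine Ideal.span_mono ?_ (ih h hh)
      apply Set.image_mono
      simp

theorem mem_span_range_X_of_constantCoeff_eq_zero [Finite σ] (f : MvPowerSeries σ R)
    (hf : constantCoeff f = 0) : f ∈ Ideal.span (Set.range (X : σ → MvPowerSeries σ R)) := by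
  classical
  have := Fintype.ofFinite σ
  have := mem_span_X_image_of_forall_coeff_eq_zero (Finset.univ : Finset σ) f (by
    intro m hm
    have hm0 : m = 0 := by
      ext j
      simpa using hm j (Finset.mem_univ j)
    rw [hm0, coeff_zero_eq_constantCoeff_apply, hf])
  simpa using this

open IsLocalRing in
theorem maximalIdeal_mvPowerSeries_eq_sup [Finite σ] [IsLocalRing R] :
    maximalIdeal (MvPowerSeries σ R) =
      Ideal.span (Set.range (X : σ → MvPowerSeries σ R)) ⊔
        (maximalIdeal R).map (C (σ := σ) (R := R)) := by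
  apply le_antisymm
  · intro f hf
    have h0 : constantCoeff f ∈ maximalIdeal R := by
      rw [mem_maximalIdeal, mem_nonunits_iff] at hf ⊢
      intro h
      exact hf ((MvPowerSeries.isUnit_iff_constantCoeff).2 h)
    have h1 : f = (f - C (constantCoeff f)) + C (constantCoeff f) := by ring
    rw [h1]
    refine Submodule.add_mem_sup ?_ (Ideal.mem_map_of_mem _ h0)
    apply mem_span_range_X_of_constantCoeff_eq_zero
    simp
  · refine sup_le ?_ ?_
    · rw [Ideal.span_le]
      rintro _ ⟨i, rfl⟩
      rw [SetLike.mem_coe, mem_maximalIdeal, mem_nonunits_iff,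
        MvPowerSeries.isUnit_iff_constantCoeff]
      simp
    · rw [Ideal.map_le_iff_le_comap]
      intro a ha
      rw [Ideal.mem_comap, mem_maximalIdeal, mem_nonunits_iff,
        MvPowerSeries.isUnit_iff_constantCoeff]
      simpa using ha

/-- Power series in finitely many variables over a complete Noetherian local ring are complete
with respect to the maximal ideal. -/
theorem isAdicComplete_mvPowerSeries [Finite σ] [IsLocalRing R] [IsNoetherianRing R]
    [IsAdicComplete (IsLocalRing.maximalIdeal R) R] :
    IsAdicComplete (IsLocalRing.maximalIdeal (MvPowerSeries σ R)) (MvPowerSeries σ R) := by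
  have h1 : IsPrecomplete (Ideal.span (Set.range (X : σ → MvPowerSeries σ R)))
      (MvPowerSeries σ R) := inferInstance
  have h2 : IsPrecomplete ((IsLocalRing.maximalIdeal R).map (C (σ := σ) (R := R)))
      (MvPowerSeries σ R) :=
    isPrecomplete_map_C _ (IsNoetherian.noetherian _)
  have h3 : IsPrecomplete (IsLocalRing.maximalIdeal (MvPowerSeries σ R)) (MvPowerSeries σ R) := by
    rw [maximalIdeal_mvPowerSeries_eq_sup]
    exact isPrecomplete_sup _ _
  exact { toIsHausdorff := inferInstance, toIsPrecomplete := h3 }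

end PowerSeries

section Residue

open MvPowerSeries IsLocalRing

variable {σ : Type*} {R : Type*} [CommRing R]


theorem sub_C_constantCoeff_mem_maximalIdeal [IsLocalRing R] (f : MvPowerSeries σ R) :
    f - C (constantCoeff f) ∈ maximalIdeal (MvPowerSeries σ R) := by
  rw [mem_maximalIdeal, mem_nonunits_iff, MvPowerSeries.isUnit_iff_constantCoeff]
  simp

theorem residue_comp_C_surjective [IsLocalRing R] :
    Function.Surjective ((residue (MvPowerSeries σ R)).comp (C (σ := σ) (R := R))) := by
  intro x
  obtain ⟨f, rfl⟩ := residue_surjective x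
  refine ⟨constantCoeff f, ?_⟩
  rw [RingHom.comp_apply, eq_comm, ← sub_eq_zero, ← map_sub, residue_eq_zero_iff]
  exact sub_C_constantCoeff_mem_maximalIdeal f

instance isLocalHom_C [IsLocalRing R] : IsLocalHom (C (σ := σ) (R := R)) := by
  refine ⟨fun a ha => ?_⟩
  have := (MvPowerSeries.isUnit_iff_constantCoeff).1 ha
  simpa using this

theorem finite_residueField_mvPowerSeries [IsLocalRing R] [Finite (ResidueField R)] :
    Finite (ResidueField (MvPowerSeries σ R)) := by
  have h : Function.Surjective (ResidueField.map (C (σ := σ) (R := R))) := by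
    intro x
    obtain ⟨a, rfl⟩ := residue_comp_C_surjective (σ := σ) (R := R) x
    exact ⟨residue R a, by simp [ResidueField.map_residue]⟩
  exact Finite.of_surjective _ h

theorem finite_quotient_maximalIdeal_pow_mvPowerSeries [Finite σ] [IsLocalRing R]
    [IsNoetherianRing R] [Finite (ResidueField R)] (n : ℕ) :
    Finite (MvPowerSeries σ R ⧸ maximalIdeal (MvPowerSeries σ R) ^ n) := by
  have := finite_residueField_mvPowerSeries (σ := σ) (R := R)
  exact (IsLocalRing.finite_quotient_iff).2 ⟨n, le_rfl⟩

end Residue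

end Fermat.Agent.S53.PSC
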