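import Fermat.Agent.S53.Defs
import Fermat.Agent.S57.MvPSRegular

/-!
# S53, task T5: the power series ring `𝒪⟦X₁,…,X_r⟧`

* explicit description of the powers of the maximal ideal of `MvPowerSeries σ 𝒪`
  (`mem_maximalIdeal_pow_iff`);
* completeness with respect to the maximal ideal (`isAdicComplete_mvPowerSeries`);
* finiteness of quotients by open ideals (`finite_quotient_of_pow_le`);
* evaluation maps into finite test algebras (`exists_evS`, `evS_ext`, `evS_map_maximalIdeal`).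
-/

set_option autoImplicit false
set_option linter.unusedSectionVars false

noncomputable section

namespace Fermat.Agent.S53

open MvPowerSeries Finsupp IsLocalRing

section KeyLemma

variable {σ R : Type*} [Finite σ] [CommRing R]

/-- A power series all of whose coefficients of total degree `< n` vanish lies in the `n`-th
power of the ideal generated by the variables. -/
theorem mem_pow_span_X_of_coeff_eq_zero (n : ℕ) (s : MvPowerSeries σ R)
    (h : ∀ m : σ →₀ ℕ, degree m < n → coeff m s = 0) :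
    s ∈ (Ideal.span (Set.range X) : Ideal (MvPowerSeries σ R)) ^ n := by
  let e := toAdicCompletionAlgEquiv σ R
  have hmap : Ideal.map e.toRingEquiv (Ideal.span (Set.range X)) =
      (MvPolynomial.idealOfVars σ R).map (algebraMap _ _) := by
    simp_rw [Ideal.map_span, ← Set.range_comp]
    congr 2; ext1
    simp [e, AdicCompletion.algebraMap_apply, ← MvPolynomial.coe_X, toAdicCompletion_coe]
  have h0 : truncTotal n s = 0 := by
    ext m
    by_cases hm : degree m < n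
    · rw [coeff_truncTotal _ hm, h m hm, MvPolynomial.coeff_zero]
    · rw [coeff_truncTotal_eq_zero _ (not_lt.mp hm), MvPolynomial.coeff_zero]
  have h1 : e s ∈ (AdicCompletion.eval (MvPolynomial.idealOfVars σ R) (MvPolynomial σ R) n).ker := by
    rw [LinearMap.mem_ker, AdicCompletion.eval_apply]
    show (toAdicCompletion σ R s).val n = 0
    rw [toAdicCompletion_apply_eq_mk_truncTotal, h0, map_zero]
  rw [← AdicCompletion.pow_smul_top_eq_ker_eval (MvPolynomial.idealOfVars_fg σ R),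
    Ideal.smul_top_eq_map, Submodule.restrictScalars_mem, Ideal.map_pow, ← hmap,
    ← Ideal.map_pow] at h1
  exact (Ideal.apply_mem_of_equiv_iff (f := e.toRingEquiv)).mp h1

/-- The tail of a power series. -/
theorem sub_truncTotal_mem_pow_span_X (n : ℕ) (s : MvPowerSeries σ R) :
    s - ((truncTotal n s : MvPolynomial σ R) : MvPowerSeries σ R) ∈
      (Ideal.span (Set.range X) : Ideal (MvPowerSeries σ R)) ^ n := by
  apply mem_pow_span_X_of_coeff_eq_zero
  intro m hm
  rw [map_sub, MvPolynomial.coeff_coe, coeff_truncTotal _ hm, sub_self]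

end KeyLemma

section MaxIdealPow

variable {σ : Type*} [Finite σ] {𝒪 : Type*} [CommRing 𝒪] [IsLocalRing 𝒪]

/-- The ideal of power series whose coefficient at `m` lies in `𝔪 ^ (n - deg m)`. -/
def coeffIdeal (σ : Type*) (𝒪 : Type*) [CommRing 𝒪] [IsLocalRing 𝒪] (n : ℕ) :
    Ideal (MvPowerSeries σ 𝒪) where
  carrier := {s | ∀ m : σ →₀ ℕ, coeff m s ∈ maximalIdeal 𝒪 ^ (n - degree m)}
  zero_mem' := fun m => by simp
  add_mem' := fun {s t} hs ht m => by
    rw [map_add]
    exact add_mem (hs m) (ht m)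
  smul_mem' := fun c s hs m => by
    classical
    rw [smul_eq_mul, coeff_mul]
    refine Ideal.sum_mem _ ?_
    rintro ⟨a, b⟩ hab
    rw [Finset.HasAntidiagonal.mem_antidiagonal] at hab
    have hdeg : degree b ≤ degree m := by
      rw [← hab, map_add]
      exact Nat.le_add_left _ _
    exact Ideal.mul_mem_left _ _ (Ideal.pow_le_pow_right (by omega) (hs b))

omit [Finite σ] in
theorem mem_coeffIdeal {n : ℕ} {s : MvPowerSeries σ 𝒪} :
    s ∈ coeffIdeal σ 𝒪 n ↔ ∀ m : σ →₀ ℕ, coeff m s ∈ maximalIdeal 𝒪 ^ (n - degree m) :=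
  Iff.rfl

omit [Finite σ] in
theorem coeffIdeal_mul_le (a b : ℕ) :
    coeffIdeal σ 𝒪 a * coeffIdeal σ 𝒪 b ≤ coeffIdeal σ 𝒪 (a + b) := by
  classical
  rw [Ideal.mul_le]
  intro s hs t ht m
  rw [coeff_mul]
  refine Ideal.sum_mem _ ?_
  rintro ⟨m', m''⟩ hm
  rw [Finset.HasAntidiagonal.mem_antidiagonal] at hm
  have hdeg : degree m' + degree m'' = degree m := by
    rw [← hm, map_add]
  have h1 := Ideal.mul_mem_mul (hs m') (ht m'')
  rw [← pow_add] at h1
  exact Ideal.pow_le_pow_right (by omega) h1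

omit [Finite σ] in
theorem maximalIdeal_le_coeffIdeal_one :
    maximalIdeal (MvPowerSeries σ 𝒪) ≤ coeffIdeal σ 𝒪 1 := by
  intro s hs m
  by_cases hm : m = 0
  · subst hm
    rw [Fermat.Agent.S57.mem_maximalIdeal_mvPowerSeries] at hs
    simpa using hs
  · have : degree m ≠ 0 := fun h => hm ((degree_eq_zero_iff m).mp h)
    have h1 : 1 - degree m = 0 := by omega
    rw [h1, pow_zero, Ideal.one_eq_top]
    exact Submodule.mem_top

omit [Finite σ] in
theorem maximalIdeal_pow_le_coeffIdeal (n : ℕ) :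
    maximalIdeal (MvPowerSeries σ 𝒪) ^ n ≤ coeffIdeal σ 𝒪 n := by
  induction n with
  | zero =>
    intro s _ m
    simp
  | succ n ih =>
    rw [pow_succ]
    exact (Ideal.mul_mono ih maximalIdeal_le_coeffIdeal_one).trans (coeffIdeal_mul_le n 1)

omit [Finite σ] in
theorem C_mem_maximalIdeal_pow {k : ℕ} {c : 𝒪} (hc : c ∈ maximalIdeal 𝒪 ^ k) :
    (C c : MvPowerSeries σ 𝒪) ∈ maximalIdeal (MvPowerSeries σ 𝒪) ^ k := by
  have h1 : Ideal.map (C : 𝒪 →+* MvPowerSeries σ 𝒪) (maximalIdeal 𝒪) ≤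
      maximalIdeal (MvPowerSeries σ 𝒪) := by
    rw [Ideal.map_le_iff_le_comap]
    intro a ha
    rw [Ideal.mem_comap, Fermat.Agent.S57.mem_maximalIdeal_mvPowerSeries, constantCoeff_C]
    exact ha
  have h2 := Ideal.mem_map_of_mem (C : 𝒪 →+* MvPowerSeries σ 𝒪) hc
  rw [Ideal.map_pow] at h2
  exact Ideal.pow_right_mono h1 k h2

omit [Finite σ] in
theorem X_mem_maximalIdeal (a : σ) :
    (X a : MvPowerSeries σ 𝒪) ∈ maximalIdeal (MvPowerSeries σ 𝒪) := by
  rw [Fermat.Agent.S57.mem_maximalIdeal_mvPowerSeries, constantCoeff_X]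
  exact zero_mem _

omit [Finite σ] in
theorem span_X_le_maximalIdeal :
    (Ideal.span (Set.range X) : Ideal (MvPowerSeries σ 𝒪)) ≤ maximalIdeal (MvPowerSeries σ 𝒪) := by
  rw [Ideal.span_le]
  rintro _ ⟨a, rfl⟩
  exact X_mem_maximalIdeal a

omit [Finite σ] in
theorem monomial_mem_maximalIdeal_pow {k : ℕ} (m : σ →₀ ℕ) {c : 𝒪}
    (hc : c ∈ maximalIdeal 𝒪 ^ k) :
    (monomial m c : MvPowerSeries σ 𝒪) ∈ maximalIdeal (MvPowerSeries σ 𝒪) ^ (k + degree m) := by
  rw [monomial_eq', pow_add]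
  refine Ideal.mul_mem_mul (C_mem_maximalIdeal_pow hc) ?_
  rw [degree_apply, ← Finset.prod_pow_eq_pow_sum, Finsupp.prod]
  exact Ideal.prod_mem_prod fun a _ => Ideal.pow_mem_pow (X_mem_maximalIdeal a) _

theorem coeffIdeal_le_maximalIdeal_pow (n : ℕ) :
    coeffIdeal σ 𝒪 n ≤ maximalIdeal (MvPowerSeries σ 𝒪) ^ n := by
  intro s hs
  have h1 : s = (s - ((truncTotal n s : MvPolynomial σ 𝒪) : MvPowerSeries σ 𝒪)) +
      ((truncTotal n s : MvPolynomial σ 𝒪) : MvPowerSeries σ 𝒪) := by ring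
  rw [h1]
  refine add_mem (Ideal.pow_right_mono span_X_le_maximalIdeal n
    (sub_truncTotal_mem_pow_span_X n s)) ?_
  rw [← MvPolynomial.support_sum_monomial_coeff (truncTotal n s)]
  rw [← MvPolynomial.coeToMvPowerSeries.ringHom_apply, map_sum]
  refine Ideal.sum_mem _ fun m hm => ?_
  rw [MvPolynomial.coeToMvPowerSeries.ringHom_apply, MvPolynomial.coe_monomial]
  have hdeg : degree m < n := by
    by_contra hcon
    rw [MvPolynomial.mem_support_iff] at hm
    exact hm (coeff_truncTotal_eq_zero _ (not_lt.mp hcon))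
  have h2 := monomial_mem_maximalIdeal_pow (σ := σ) m (k := n - degree m)
    (c := MvPolynomial.coeff m (truncTotal n s)) (by
      rw [coeff_truncTotal _ hdeg]
      exact hs m)
  have h3 : n - degree m + degree m = n := by omega
  rwa [h3] at h2

/-- Explicit description of the powers of the maximal ideal of `𝒪⟦X⟧`. -/
theorem mem_maximalIdeal_pow_iff (n : ℕ) (s : MvPowerSeries σ 𝒪) :
    s ∈ maximalIdeal (MvPowerSeries σ 𝒪) ^ n ↔
      ∀ m : σ →₀ ℕ, coeff m s ∈ maximalIdeal 𝒪 ^ (n - degree m) :=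
  ⟨fun h => maximalIdeal_pow_le_coeffIdeal n h, fun h => coeffIdeal_le_maximalIdeal_pow n h⟩

end MaxIdealPow

section Complete

variable {σ : Type*} [Finite σ] {𝒪 : Type*} [CommRing 𝒪] [IsLocalRing 𝒪]

theorem isHausdorff_mvPowerSeries [IsHausdorff (maximalIdeal 𝒪) 𝒪] :
    IsHausdorff (maximalIdeal (MvPowerSeries σ 𝒪)) (MvPowerSeries σ 𝒪) := by
  refine ⟨fun s hs => ?_⟩
  ext m
  rw [map_zero]
  refine IsHausdorff.haus (I := maximalIdeal 𝒪) inferInstance _ fun j => ?_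
  have h1 := hs (j + degree m)
  rw [SModEq.zero, smul_eq_mul, Ideal.mul_top, mem_maximalIdeal_pow_iff] at h1
  have h2 := h1 m
  rw [Nat.add_sub_cancel] at h2
  rw [SModEq.zero, smul_eq_mul, Ideal.mul_top]
  exact h2

theorem isPrecomplete_mvPowerSeries [IsPrecomplete (maximalIdeal 𝒪) 𝒪] :
    IsPrecomplete (maximalIdeal (MvPowerSeries σ 𝒪)) (MvPowerSeries σ 𝒪) := by
  refine ⟨fun f hf => ?_⟩
  -- coefficientwise limits
  have hcoef : ∀ μ : σ →₀ ℕ, ∃ c : 𝒪, ∀ j : ℕ,
      coeff μ (f (j + degree μ)) ≡ c [SMOD (maximalIdeal 𝒪 ^ j • ⊤ : Submodule 𝒪 𝒪)] := by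
    intro μ
    refine IsPrecomplete.prec (I := maximalIdeal 𝒪) inferInstance
      (f := fun j => coeff μ (f (j + degree μ))) ?_
    intro j j' hjj'
    have h1 := hf (m := j + degree μ) (n := j' + degree μ) (by omega)
    rw [SModEq.sub_mem, smul_eq_mul, Ideal.mul_top, mem_maximalIdeal_pow_iff] at h1
    have h2 := h1 μ
    rw [Nat.add_sub_cancel, map_sub] at h2
    rw [SModEq.sub_mem, smul_eq_mul, Ideal.mul_top]
    exact h2
  choose c hc using hcoef
  let L : MvPowerSeries σ 𝒪 := fun μ => c μ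
  have hL : ∀ μ, coeff μ L = c μ := fun μ => rfl
  refine ⟨L, fun n => ?_⟩
  rw [SModEq.sub_mem, smul_eq_mul, Ideal.mul_top, mem_maximalIdeal_pow_iff]
  intro μ
  rw [map_sub, hL]
  by_cases hμ : degree μ < n
  · have h1 := hc μ (n - degree μ)
    rw [SModEq.sub_mem, smul_eq_mul, Ideal.mul_top] at h1
    have h2 : n - degree μ + degree μ = n := by omega
    rw [h2] at h1
    exact h1
  · have h1 : n - degree μ = 0 := by omega
    rw [h1, pow_zero, Ideal.one_eq_top]
    exact Submodule.mem_top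

theorem isAdicComplete_mvPowerSeries' [IsAdicComplete (maximalIdeal 𝒪) 𝒪] :
    IsAdicComplete (maximalIdeal (MvPowerSeries σ 𝒪)) (MvPowerSeries σ 𝒪) :=
  { isHausdorff_mvPowerSeries, isPrecomplete_mvPowerSeries with }

end Complete

section FiniteQuot

variable {σ : Type*} [Finite σ] {𝒪 : Type*} [CommRing 𝒪] [IsLocalRing 𝒪]

omit [Finite σ] in
theorem finite_quotient_maximalIdeal [Finite (ResidueField 𝒪)] :
    Finite (MvPowerSeries σ 𝒪 ⧸ maximalIdeal (MvPowerSeries σ 𝒪)) := by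
  let g : ResidueField 𝒪 →+* MvPowerSeries σ 𝒪 ⧸ maximalIdeal (MvPowerSeries σ 𝒪) :=
    Ideal.Quotient.lift (maximalIdeal 𝒪)
      ((Ideal.Quotient.mk (maximalIdeal (MvPowerSeries σ 𝒪))).comp (C : 𝒪 →+* MvPowerSeries σ 𝒪))
      (fun a ha => by
        rw [RingHom.comp_apply, Ideal.Quotient.eq_zero_iff_mem,
          Fermat.Agent.S57.mem_maximalIdeal_mvPowerSeries, constantCoeff_C]
        exact ha)
  refine Finite.of_surjective g ?_
  intro x
  obtain ⟨s, rfl⟩ := Ideal.Quotient.mk_surjective x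
  refine ⟨Ideal.Quotient.mk _ (constantCoeff s), ?_⟩
  show Ideal.Quotient.lift _ _ _ (Ideal.Quotient.mk _ (constantCoeff s)) = _
  rw [Ideal.Quotient.lift_mk, RingHom.comp_apply, Ideal.Quotient.eq,
    Fermat.Agent.S57.mem_maximalIdeal_mvPowerSeries, map_sub, constantCoeff_C, sub_self]
  exact zero_mem _

theorem finite_quotient_of_pow_le' [IsNoetherianRing 𝒪] [Finite (ResidueField 𝒪)]
    (J : Ideal (MvPowerSeries σ 𝒪)) (N : ℕ)
    (h : maximalIdeal (MvPowerSeries σ 𝒪) ^ N ≤ J) : Finite (MvPowerSeries σ 𝒪 ⧸ J) := by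
  have h0 := finite_quotient_maximalIdeal (σ := σ) (𝒪 := 𝒪)
  have h1 : Finite (MvPowerSeries σ 𝒪 ⧸ maximalIdeal (MvPowerSeries σ 𝒪) ^ N) :=
    Ideal.finite_quotient_pow (IsNoetherian.noetherian _) N
  exact Finite.of_surjective (Ideal.Quotient.factor h) (Ideal.Quotient.factor_surjective h)

end FiniteQuot

section Eval

variable {σ : Type*} [Finite σ] {𝒪 : Type*} [CommRing 𝒪] [IsLocalRing 𝒪]
variable {B : Type*} [CommRing B] [IsLocalRing B] [Algebra 𝒪 B]

omit [IsLocalRing 𝒪] [Algebra 𝒪 B] in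
/-- In a finite local ring the maximal ideal is nilpotent. -/
theorem exists_maximalIdeal_pow_eq_bot [Finite B] : ∃ n : ℕ, maximalIdeal B ^ n = ⊥ := by
  have h := IsArtinianRing.isNilpotent_jacobson_bot (R := B)
  rw [IsLocalRing.jacobson_eq_maximalIdeal _ bot_ne_top] at h
  obtain ⟨n, hn⟩ := h
  exact ⟨n, by rwa [Ideal.zero_eq_bot] at hn⟩

omit [Finite σ] [Algebra 𝒪 B] in
/-- Any ring hom from `𝒪⟦X⟧` to a finite local ring maps the maximal ideal into the
maximal ideal. -/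
theorem map_mem_maximalIdeal_of_finite [Finite B] (f : MvPowerSeries σ 𝒪 →+* B)
    (s : MvPowerSeries σ 𝒪) (hs : s ∈ maximalIdeal (MvPowerSeries σ 𝒪)) :
    f s ∈ maximalIdeal B := by
  by_contra hcon
  rw [mem_maximalIdeal, mem_nonunits_iff, not_not] at hcon
  have : Fintype Bˣ := Fintype.ofFinite _
  have h1 : (hcon.unit) ^ Fintype.card Bˣ = 1 := pow_card_eq_one
  have h2 : f s ^ Fintype.card Bˣ = 1 := by
    have := congrArg Units.val h1
    rwa [Units.val_pow_eq_pow_val, IsUnit.unit_spec, Units.val_one] at this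
  have hk : Fintype.card Bˣ ≠ 0 := Fintype.card_ne_zero
  have h3 : s ^ Fintype.card Bˣ ∈ maximalIdeal (MvPowerSeries σ 𝒪) :=
    Ideal.pow_mem_of_mem _ hs _ (Nat.pos_of_ne_zero hk)
  have h4 : IsUnit (1 - s ^ Fintype.card Bˣ) :=
    IsLocalRing.isUnit_one_sub_self_of_mem_nonunits _ h3
  have h5 := h4.map f
  rw [map_sub, map_one, map_pow, h2, sub_self] at h5
  exact not_isUnit_zero h5

omit [IsLocalRing 𝒪] in
/-- Existence of evaluation maps `𝒪⟦X⟧ → B`, `X a ↦ x a`, for `B` finite local and `x a` in the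
maximal ideal. -/
theorem exists_eval_of_finite [Finite B] (x : σ → B) (hx : ∀ a, x a ∈ maximalIdeal B) :
    ∃ f : MvPowerSeries σ 𝒪 →ₐ[𝒪] B, ∀ a, f (X a) = x a := by
  obtain ⟨n, hn⟩ := exists_maximalIdeal_pow_eq_bot (B := B)
  have hI : ∀ p : MvPolynomial σ 𝒪, p ∈ MvPolynomial.idealOfVars σ 𝒪 ^ n →
      MvPolynomial.aeval x p = 0 := by
    intro p hp
    have h1 : MvPolynomial.aeval x p ∈
        Ideal.map (MvPolynomial.aeval x : MvPolynomial σ 𝒪 →ₐ[𝒪] B)
          (MvPolynomial.idealOfVars σ 𝒪 ^ n) := Ideal.mem_map_of_mem _ hp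
    rw [Ideal.map_pow, MvPolynomial.idealOfVars, Ideal.map_span] at h1
    have h2 : Ideal.span ((MvPolynomial.aeval x : MvPolynomial σ 𝒪 →ₐ[𝒪] B) ''
        Set.range MvPolynomial.X) ≤ maximalIdeal B := by
      rw [Ideal.span_le]
      rintro _ ⟨_, ⟨a, rfl⟩, rfl⟩
      rw [MvPolynomial.aeval_X]
      exact hx a
    have h3 := Ideal.pow_right_mono h2 n h1
    rwa [hn, Ideal.mem_bot] at h3
  let f : MvPowerSeries σ 𝒪 →ₐ[𝒪] B :=
    (Ideal.Quotient.liftₐ (MvPolynomial.idealOfVars σ 𝒪 ^ n) (MvPolynomial.aeval x) hI).comp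
      ((truncTotalAlgHom σ 𝒪 n).restrictScalars 𝒪)
  refine ⟨f, fun a => ?_⟩
  have h1 : (X a : MvPowerSeries σ 𝒪) =
      algebraMap (MvPolynomial σ 𝒪) (MvPowerSeries σ 𝒪) (MvPolynomial.X a) := by
    rw [MvPowerSeries.algebraMap_apply']
    simp
  show Ideal.Quotient.liftₐ _ _ hI (truncTotalAlgHom σ 𝒪 n (X a)) = x a
  rw [h1, AlgHom.commutes]
  show Ideal.Quotient.liftₐ _ _ hI (Ideal.Quotient.mk _ (MvPolynomial.X a)) = x a
  have h2 := congrArg (fun φ => φ (MvPolynomial.X a))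
    (Ideal.Quotient.liftₐ_comp (MvPolynomial.idealOfVars σ 𝒪 ^ n) (MvPolynomial.aeval x) hI)
  simp only [AlgHom.comp_apply, Ideal.Quotient.mkₐ_eq_mk, MvPolynomial.aeval_X] at h2
  exact h2

/-- Uniqueness of evaluation maps into finite local rings. -/
theorem eval_ext_of_finite [Finite B] (f g : MvPowerSeries σ 𝒪 →ₐ[𝒪] B)
    (h : ∀ a, f (X a) = g (X a)) : f = g := by
  obtain ⟨n, hn⟩ := exists_maximalIdeal_pow_eq_bot (B := B)
  -- both kill `𝔪 ^ n`
  have hkill : ∀ (φ : MvPowerSeries σ 𝒪 →ₐ[𝒪] B) (t : MvPowerSeries σ 𝒪),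
      t ∈ maximalIdeal (MvPowerSeries σ 𝒪) ^ n → φ t = 0 := by
    intro φ t ht
    have h1 : φ t ∈ Ideal.map (φ : MvPowerSeries σ 𝒪 →+* B)
        (maximalIdeal (MvPowerSeries σ 𝒪) ^ n) := Ideal.mem_map_of_mem _ ht
    rw [Ideal.map_pow] at h1
    have h2 : Ideal.map (φ : MvPowerSeries σ 𝒪 →+* B) (maximalIdeal (MvPowerSeries σ 𝒪)) ≤
        maximalIdeal B := by
      rw [Ideal.map_le_iff_le_comap]
      intro s hs
      exact map_mem_maximalIdeal_of_finite (φ : MvPowerSeries σ 𝒪 →+* B) s hs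
    have h3 := Ideal.pow_right_mono h2 n h1
    rwa [hn, Ideal.mem_bot] at h3
  -- they agree on polynomials
  have hpoly : ∀ p : MvPolynomial σ 𝒪, f (p : MvPowerSeries σ 𝒪) = g (p : MvPowerSeries σ 𝒪) := by
    intro p
    have h1 : f.comp (MvPolynomial.coeToMvPowerSeries.algHom 𝒪) =
        g.comp (MvPolynomial.coeToMvPowerSeries.algHom 𝒪) := by
      apply MvPolynomial.algHom_ext
      intro a
      simpa using h a
    have h2 := congrArg (fun φ => φ p) h1
    simpa using h2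
  ext s
  have h1 : s = (s - ((truncTotal n s : MvPolynomial σ 𝒪) : MvPowerSeries σ 𝒪)) +
      ((truncTotal n s : MvPolynomial σ 𝒪) : MvPowerSeries σ 𝒪) := by ring
  have h2 : s - ((truncTotal n s : MvPolynomial σ 𝒪) : MvPowerSeries σ 𝒪) ∈
      maximalIdeal (MvPowerSeries σ 𝒪) ^ n :=
    Ideal.pow_right_mono span_X_le_maximalIdeal n (sub_truncTotal_mem_pow_span_X n s)
  rw [h1, map_add, map_add, hkill f _ h2, hkill g _ h2, hpoly]

end Eval

/-! ### The statements of blueprint section T5, in their exact form -/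

section T5

variable (𝒪 : Type) [CommRing 𝒪] [IsDomain 𝒪] [IsDiscreteValuationRing 𝒪]
  [IsAdicComplete (maximalIdeal 𝒪) 𝒪] [Finite (ResidueField 𝒪)] (r : ℕ)

theorem isAdicComplete_mvPowerSeries :
    IsAdicComplete (maximalIdeal (MvPowerSeries (Fin r) 𝒪)) (MvPowerSeries (Fin r) 𝒪) :=
  isAdicComplete_mvPowerSeries'

theorem finite_quotient_of_pow_le (J : Ideal (MvPowerSeries (Fin r) 𝒪)) (N : ℕ)
    (h : maximalIdeal (MvPowerSeries (Fin r) 𝒪) ^ N ≤ J) :
    Finite (MvPowerSeries (Fin r) 𝒪 ⧸ J) :=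
  finite_quotient_of_pow_le' J N h

variable {𝒪 r}
variable {A : Type} [CommRing A] [IsLocalRing A] [Algebra 𝒪 A]

theorem exists_evS (hA : FinTest 𝒪 A) (x : Fin r → A) (hx : ∀ a, x a ∈ maximalIdeal A) :
    ∃ f : MvPowerSeries (Fin r) 𝒪 →ₐ[𝒪] A, ∀ a, f (MvPowerSeries.X a) = x a :=
  haveI := hA.finite
  exists_eval_of_finite x hx

theorem evS_ext (hA : FinTest 𝒪 A) (f g : MvPowerSeries (Fin r) 𝒪 →ₐ[𝒪] A)
    (h : ∀ a, f (MvPowerSeries.X a) = g (MvPowerSeries.X a)) : f = g :=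
  haveI := hA.finite
  eval_ext_of_finite f g h

theorem evS_map_maximalIdeal (hA : FinTest 𝒪 A) (f : MvPowerSeries (Fin r) 𝒪 →ₐ[𝒪] A)
    (s : MvPowerSeries (Fin r) 𝒪) (hs : s ∈ maximalIdeal (MvPowerSeries (Fin r) 𝒪)) :
    f s ∈ maximalIdeal A :=
  haveI := hA.finite
  map_mem_maximalIdeal_of_finite (f : MvPowerSeries (Fin r) 𝒪 →+* A) s hs

end T5

end Fermat.Agent.S53

end
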