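import Fermat.Agent.S53.Defs

/-!
# S53: quotients of complete local `𝒪`-algebras by powers of the maximal ideal

Blueprint-independent lemmas used in the final assembly (T9): `A ⧸ I` is a finite test algebra
whenever `A` is a noetherian local `𝒪`-algebra with local structure map, residue field generated
by `𝒪` (finite), and `𝔪 ^ n ≤ I ≠ ⊤`.
-/

set_option autoImplicit false
set_option linter.unusedSectionVars false
set_option linter.style.haveILetI false

noncomputable section

namespace Fermat.Agent.S53

open IsLocalRing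

section Quot

variable {A : Type} [CommRing A] [IsLocalRing A]

/-- The quotient of a local ring by a proper ideal is local. -/
theorem isLocalRing_quotient (I : Ideal A) (hI : I ≠ ⊤) : IsLocalRing (A ⧸ I) := by
  have : Nontrivial (A ⧸ I) := Ideal.Quotient.nontrivial_iff.mpr hI
  exact IsLocalRing.of_surjective' (Ideal.Quotient.mk I) Ideal.Quotient.mk_surjective

theorem maximalIdeal_pow_ne_top {n : ℕ} (hn : 1 ≤ n) : maximalIdeal A ^ n ≠ ⊤ := by
  intro h
  have h1 : maximalIdeal A ^ n ≤ maximalIdeal A := by
    calc maximalIdeal A ^ n ≤ maximalIdeal A ^ 1 := Ideal.pow_le_pow_right hn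
      _ = maximalIdeal A := pow_one _
  rw [h] at h1
  exact (maximalIdeal.isMaximal A).ne_top (top_le_iff.mp h1)

/-- The quotient map of a local ring by a proper ideal is a local homomorphism. -/
theorem isLocalHom_quotient_mk (I : Ideal A) (hI : I ≠ ⊤) :
    haveI := isLocalRing_quotient I hI
    IsLocalHom (Ideal.Quotient.mk I) := by
  have : Nontrivial (A ⧸ I) := Ideal.Quotient.nontrivial_iff.mpr hI
  exact IsLocalHom.of_surjective (Ideal.Quotient.mk I) Ideal.Quotient.mk_surjective

/-- Membership in the maximal ideal of a quotient. -/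
theorem mk_mem_maximalIdeal_quotient_iff (I : Ideal A) (hI : I ≠ ⊤) (a : A) :
    haveI := isLocalRing_quotient I hI
    Ideal.Quotient.mk I a ∈ maximalIdeal (A ⧸ I) ↔ a ∈ maximalIdeal A := by
  haveI := isLocalRing_quotient I hI
  haveI := isLocalHom_quotient_mk I hI
  rw [mem_maximalIdeal, mem_maximalIdeal, mem_nonunits_iff, mem_nonunits_iff]
  constructor
  · intro h hu
    exact h (hu.map _)
  · intro h hu
    exact h (isUnit_of_map_unit (Ideal.Quotient.mk I) a hu)

/-- The maximal ideal of a quotient is the image of the maximal ideal. -/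
theorem map_mk_maximalIdeal (I : Ideal A) (hI : I ≠ ⊤) :
    haveI := isLocalRing_quotient I hI
    (maximalIdeal A).map (Ideal.Quotient.mk I) = maximalIdeal (A ⧸ I) := by
  haveI := isLocalRing_quotient I hI
  apply le_antisymm
  · rw [Ideal.map_le_iff_le_comap]
    intro a ha
    exact (mk_mem_maximalIdeal_quotient_iff I hI a).mpr ha
  · intro x hx
    obtain ⟨a, rfl⟩ := Ideal.Quotient.mk_surjective x
    exact Ideal.mem_map_of_mem _ ((mk_mem_maximalIdeal_quotient_iff I hI a).mp hx)

/-- If `𝔪 ^ n ≤ I` then the maximal ideal of `A ⧸ I` is nilpotent. -/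
theorem maximalIdeal_quotient_pow_eq_bot (I : Ideal A) (hI : I ≠ ⊤) {n : ℕ}
    (hn : maximalIdeal A ^ n ≤ I) :
    haveI := isLocalRing_quotient I hI
    maximalIdeal (A ⧸ I) ^ n = ⊥ := by
  haveI := isLocalRing_quotient I hI
  rw [← map_mk_maximalIdeal I hI, ← Ideal.map_pow, Ideal.map_eq_bot_iff_le_ker, Ideal.mk_ker]
  exact hn

end Quot

section Test

variable {𝒪 : Type} [CommRing 𝒪] [IsLocalRing 𝒪]
variable {A : Type} [CommRing A] [IsLocalRing A] [Algebra 𝒪 A]

/-- The residue field of `A` is finite if it is generated by `𝒪` with finite residue field. -/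
theorem finite_residueField_of_surjective [Finite (ResidueField 𝒪)]
    (hloc : IsLocalHom (algebraMap 𝒪 A))
    (hres : Function.Surjective (IsLocalRing.residue A ∘ algebraMap 𝒪 A)) :
    Finite (ResidueField A) := by
  haveI := hloc
  have hsurj : Function.Surjective (ResidueField.map (algebraMap 𝒪 A)) := by
    intro x
    obtain ⟨c, hc⟩ := hres x
    exact ⟨residue 𝒪 c, by rw [ResidueField.map_residue]; exact hc⟩
  exact Finite.of_surjective _ hsurj

/-- Quotients of a noetherian local `𝒪`-algebra (local structure map, residue field generated by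
`𝒪`, finite) by an ideal containing a power of the maximal ideal are finite test algebras. -/
theorem quotient_finTest [Finite (ResidueField 𝒪)] [IsNoetherianRing A]
    (hloc : IsLocalHom (algebraMap 𝒪 A))
    (hres : Function.Surjective (IsLocalRing.residue A ∘ algebraMap 𝒪 A))
    (I : Ideal A) (hI : I ≠ ⊤) (n : ℕ) (hn : maximalIdeal A ^ n ≤ I) :
    haveI := isLocalRing_quotient I hI
    FinTest 𝒪 (A ⧸ I) := by
  haveI := isLocalRing_quotient I hI
  haveI := finite_residueField_of_surjective hloc hres
  refine ⟨IsLocalRing.finite_quotient_iff.mpr ⟨n, hn⟩, ⟨fun c hc => ?_⟩, ?_⟩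
  · have h1 : IsUnit (Ideal.Quotient.mk I (algebraMap 𝒪 A c)) := hc
    haveI := isLocalHom_quotient_mk I hI
    have h2 : IsUnit (algebraMap 𝒪 A c) := isUnit_of_map_unit (Ideal.Quotient.mk I) _ h1
    haveI := hloc
    exact isUnit_of_map_unit (algebraMap 𝒪 A) c h2
  · intro x
    obtain ⟨y, rfl⟩ := IsLocalRing.residue_surjective x
    obtain ⟨a, rfl⟩ := Ideal.Quotient.mk_surjective y
    obtain ⟨c, hc⟩ := hres (residue A a)
    refine ⟨c, ?_⟩
    have h1 : algebraMap 𝒪 A c - a ∈ maximalIdeal A := by
      rw [← residue_eq_zero_iff, map_sub, sub_eq_zero]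
      exact hc
    have h2 : Ideal.Quotient.mk I (algebraMap 𝒪 A c - a) ∈ maximalIdeal (A ⧸ I) :=
      (mk_mem_maximalIdeal_quotient_iff I hI _).mpr h1
    rw [← residue_eq_zero_iff, map_sub, map_sub, sub_eq_zero] at h2
    exact h2

/-- A surjective local homomorphism onto a ring with nilpotent maximal ideal kills a power of the
maximal ideal. -/
theorem exists_maximalIdeal_pow_le_ker {B : Type} [CommRing B] [IsLocalRing B]
    (q : A →+* B) (hq : IsLocalHom q) {n : ℕ} (hn : maximalIdeal B ^ n = ⊥) :
    maximalIdeal A ^ n ≤ RingHom.ker q := by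
  have h1 : (maximalIdeal A ^ n).map q ≤ maximalIdeal B ^ n := by
    rw [Ideal.map_pow]
    exact Ideal.pow_right_mono (Ideal.map_le_iff_le_comap.mpr fun a ha =>
      Ideal.mem_comap.mpr (haveI := hq; map_nonunit q a ha)) n
  rw [hn, le_bot_iff, Ideal.map_eq_bot_iff_le_ker] at h1
  exact h1

/-- Finite test algebras have nilpotent maximal ideal. -/
theorem FinTest.exists_maximalIdeal_pow_eq_bot (hA : FinTest 𝒪 A) :
    ∃ n : ℕ, maximalIdeal A ^ n = ⊥ := by
  haveI := hA.finite
  obtain ⟨n, hn⟩ := IsArtinianRing.isNilpotent_jacobson_bot (R := A)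
  rw [jacobson_eq_maximalIdeal _ bot_ne_top] at hn
  exact ⟨n, hn⟩

end Test

end Fermat.Agent.S53

end
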