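import Fermat.Agent.S53.Defs
import Fermat.Agent.S53.MatrixModel

/-!
# S53 / T2: the deformation condition in matrix form

`DM 𝒟 M` says that the matrix representation `M` is continuous and of type `𝒟`.
We translate the axioms of `GaloisRep.IsDeformationCondition` into statements about `DM`.
-/

set_option autoImplicit false
set_option linter.unusedSectionVars false
set_option linter.unusedVariables false

noncomputable section

namespace Fermat.Agent.S53

open IsLocalRing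

/-! ### Generalities -/

/-- A ring hom out of an Artinian local ring into a nontrivial ring is local. -/
theorem isLocalHom_of_isArtinianRing {A B : Type} [CommRing A] [IsLocalRing A] [IsArtinianRing A]
    [CommRing B] [Nontrivial B] (φ : A →+* B) : IsLocalHom φ := by
  constructor
  intro a ha
  by_contra hna
  have hmem : a ∈ maximalIdeal A := (mem_maximalIdeal a).mpr hna
  have hnil : IsNilpotent (maximalIdeal A) := by
    have := IsArtinianRing.isNilpotent_jacobson_bot (R := A)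
    rwa [IsLocalRing.jacobson_eq_maximalIdeal ⊥ bot_ne_top] at this
  obtain ⟨n, hn⟩ := hnil
  have han : a ^ n = 0 := by
    have : a ^ n ∈ maximalIdeal A ^ n := Ideal.pow_mem_pow hmem n
    rw [hn] at this
    simpa using this
  have hφ : IsUnit (φ a ^ n) := ha.pow n
  rw [← map_pow, han, map_zero] at hφ
  exact not_isUnit_zero hφ

theorem isNilpotent_maximalIdeal_of_isArtinianRing {A : Type} [CommRing A] [IsLocalRing A]
    [IsArtinianRing A] : IsNilpotent (maximalIdeal A) := by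
  have := IsArtinianRing.isNilpotent_jacobson_bot (R := A)
  rwa [IsLocalRing.jacobson_eq_maximalIdeal ⊥ bot_ne_top] at this

section T2
variable {𝒪 : Type} [CommRing 𝒪] [IsLocalRing 𝒪]
  (𝒟 : ∀ ⦃A : Type⦄ [CommRing A] [IsLocalRing A] [Algebra 𝒪 A], GaloisRepAdic A → Prop)

/-- `M` is continuous and of type `𝒟`. -/
def DM {A : Type} [CommRing A] [IsLocalRing A] [Algebra 𝒪 A] (M : GQ →* M2 A) : Prop :=
  ∃ h : MatCont M, 𝒟 (ofMat M h)

variable {𝒟} (h𝒟 : GaloisRep.IsDeformationCondition 𝒪 𝒟)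
variable {A B C P : Type} [CommRing A] [IsLocalRing A] [Algebra 𝒪 A]
  [CommRing B] [IsLocalRing B] [Algebra 𝒪 B] [CommRing C] [IsLocalRing C] [Algebra 𝒪 C]
  [CommRing P] [IsLocalRing P] [Algebra 𝒪 P]

/-- every `𝒪`-algebra hom between Artinian test algebras is local -/
theorem isLocalHom_algHom_of_artinian (hA : GaloisRep.IsArtinianTestAlgebra 𝒪 A)
    (φ : A →ₐ[𝒪] B) : IsLocalHom (φ : A →+* B) :=
  haveI := hA.isArtinian
  isLocalHom_of_isArtinianRing _

/-- every `𝒪`-algebra hom between finite test algebras is local -/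
theorem FinTest.isLocalHom_algHom (hA : FinTest 𝒪 A) (hB : FinTest 𝒪 B) (φ : A →ₐ[𝒪] B) :
    IsLocalHom (φ : A →+* B) :=
  isLocalHom_algHom_of_artinian hA.isArtinianTestAlgebra φ

include h𝒟

/-- Conjugation invariance over Artinian test algebras. -/
theorem DM_conj_of_artinian (hA : GaloisRep.IsArtinianTestAlgebra 𝒪 A) {M M' : GQ →* M2 A}
    (Q : (M2 A)ˣ) (hQ : ∀ σ, (Q : M2 A) * M σ = M' σ * Q) (h : DM 𝒟 M) : DM 𝒟 M' := by
  obtain ⟨hM, hD⟩ := h
  have hM' : MatCont M' := matCont_conj M M' Q hQ hM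
  exact ⟨hM', h𝒟.of_isEquiv hA ((ofMat_isEquiv_iff M M' hM hM').mpr ⟨Q, hQ⟩) hD⟩

theorem DM_conj (hA : FinTest 𝒪 A) {M M' : GQ →* M2 A} (Q : (M2 A)ˣ)
    (hQ : ∀ σ, (Q : M2 A) * M σ = M' σ * Q) (h : DM 𝒟 M) : DM 𝒟 M' :=
  DM_conj_of_artinian h𝒟 hA.isArtinianTestAlgebra Q hQ h

/-- Functoriality over Artinian test algebras. -/
theorem DM_map_of_artinian (hA : GaloisRep.IsArtinianTestAlgebra 𝒪 A)
    (hB : GaloisRep.IsArtinianTestAlgebra 𝒪 B) (φ : A →ₐ[𝒪] B) {M : GQ →* M2 A}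
    (h : DM 𝒟 M) : DM 𝒟 (mapMat (φ : A →+* B) M) := by
  obtain ⟨hM, hD⟩ := h
  have hφ : IsLocalHom (φ : A →+* B) := isLocalHom_algHom_of_artinian hA φ
  have hM' : MatCont (mapMat (φ : A →+* B) M) := matCont_mapMat _ hφ M hM
  exact ⟨hM', h𝒟.of_isEquiv hB (ofMat_baseChangeAlong_isEquiv _ hφ M hM hM')
    (h𝒟.baseChangeAlong hA hB φ hφ hD)⟩

theorem DM_map (hA : FinTest 𝒪 A) (hB : FinTest 𝒪 B) (φ : A →ₐ[𝒪] B) {M : GQ →* M2 A}
    (h : DM 𝒟 M) : DM 𝒟 (mapMat (φ : A →+* B) M) :=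
  DM_map_of_artinian h𝒟 hA.isArtinianTestAlgebra hB.isArtinianTestAlgebra φ h

omit h𝒟 in
/-- Continuity descends along injective maps of Artinian local rings. -/
theorem matCont_of_mapMat_injective [IsArtinianRing A] [IsArtinianRing B] (φ : A →+* B)
    (hφ : Function.Injective φ) {M : GQ →* M2 A} (h : MatCont (mapMat φ M)) : MatCont M := by
  have hnilA : IsNilpotent (maximalIdeal A) := isNilpotent_maximalIdeal_of_isArtinianRing
  have hnilB : IsNilpotent (maximalIdeal B) := isNilpotent_maximalIdeal_of_isArtinianRing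
  rw [matCont_iff_of_nilpotent hnilA]
  obtain ⟨L, hL, hL'⟩ := (matCont_iff_of_nilpotent hnilB _).mp h
  refine ⟨L, hL, fun σ hσ => ?_⟩
  have h1 := hL' σ hσ
  ext i j
  apply hφ
  have h2 := congrFun (congrFun h1 i) j
  rw [mapMat_apply] at h2
  rw [h2, Matrix.one_apply, Matrix.one_apply]
  split_ifs <;> simp

/-- Descent of the condition along injective maps of Artinian test algebras. -/
theorem DM_of_map_injective_of_artinian (hA : GaloisRep.IsArtinianTestAlgebra 𝒪 A)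
    (hB : GaloisRep.IsArtinianTestAlgebra 𝒪 B) (φ : A →ₐ[𝒪] B)
    (hφ : Function.Injective φ) {M : GQ →* M2 A} (h : DM 𝒟 (mapMat (φ : A →+* B) M)) :
    DM 𝒟 M := by
  obtain ⟨hM', hD⟩ := h
  have := hA.isArtinian
  have := hB.isArtinian
  have hφloc : IsLocalHom (φ : A →+* B) := isLocalHom_algHom_of_artinian hA φ
  have hM : MatCont M := matCont_of_mapMat_injective (φ : A →+* B) hφ hM'
  refine ⟨hM, h𝒟.of_baseChangeAlong_injective hA hB φ hφloc hφ ?_⟩
  obtain ⟨e⟩ := ofMat_baseChangeAlong_isEquiv _ hφloc M hM hM'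
  exact h𝒟.of_isEquiv hB ⟨e.symm⟩ hD

theorem DM_of_map_injective (hA : FinTest 𝒪 A) (hB : FinTest 𝒪 B) (φ : A →ₐ[𝒪] B)
    (hφ : Function.Injective φ) {M : GQ →* M2 A} (h : DM 𝒟 (mapMat (φ : A →+* B) M)) :
    DM 𝒟 M :=
  DM_of_map_injective_of_artinian h𝒟 hA.isArtinianTestAlgebra hB.isArtinianTestAlgebra φ hφ h

omit h𝒟 in
/-- Continuity for a jointly injective pair of maps of Artinian local rings. -/
theorem matCont_of_mapMat_pair [IsArtinianRing A] [IsArtinianRing B] [IsArtinianRing P]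
    (pA : P →+* A) (pB : P →+* B) (hinj : Function.Injective (fun x => (pA x, pB x)))
    {M : GQ →* M2 P} (h1 : MatCont (mapMat pA M)) (h2 : MatCont (mapMat pB M)) : MatCont M := by
  have hnilA : IsNilpotent (maximalIdeal A) := isNilpotent_maximalIdeal_of_isArtinianRing
  have hnilB : IsNilpotent (maximalIdeal B) := isNilpotent_maximalIdeal_of_isArtinianRing
  have hnilP : IsNilpotent (maximalIdeal P) := isNilpotent_maximalIdeal_of_isArtinianRing
  rw [matCont_iff_of_nilpotent hnilP]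
  obtain ⟨L1, hL1, hL1'⟩ := (matCont_iff_of_nilpotent hnilA _).mp h1
  obtain ⟨L2, hL2, hL2'⟩ := (matCont_iff_of_nilpotent hnilB _).mp h2
  refine ⟨L1 ⊔ L2, IntermediateField.finiteDimensional_sup L1 L2, fun σ hσ => ?_⟩
  have hA1 := hL1' σ fun x hx => hσ x ((le_sup_left : L1 ≤ L1 ⊔ L2) hx)
  have hB1 := hL2' σ fun x hx => hσ x ((le_sup_right : L2 ≤ L1 ⊔ L2) hx)
  ext i j
  apply hinj
  have hA2 := congrFun (congrFun hA1 i) j
  have hB2 := congrFun (congrFun hB1 i) j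
  rw [mapMat_apply] at hA2 hB2
  simp only [Prod.mk.injEq]
  rw [hA2, hB2, Matrix.one_apply, Matrix.one_apply, Matrix.one_apply]
  split_ifs <;> simp

/-- The fibre product axiom over Artinian test algebras. -/
theorem DM_of_fibreProduct_of_artinian (hA : GaloisRep.IsArtinianTestAlgebra 𝒪 A)
    (hB : GaloisRep.IsArtinianTestAlgebra 𝒪 B) (hC : GaloisRep.IsArtinianTestAlgebra 𝒪 C)
    (hP : GaloisRep.IsArtinianTestAlgebra 𝒪 P) (f : A →ₐ[𝒪] C) (g : B →ₐ[𝒪] C)
    (pA : P →ₐ[𝒪] A) (pB : P →ₐ[𝒪] B)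
    (hcomm : f.comp pA = g.comp pB) (hinj : Function.Injective (fun x => (pA x, pB x)))
    (hsurj : ∀ a b, f a = g b → ∃ x, pA x = a ∧ pB x = b) {M : GQ →* M2 P}
    (h1 : DM 𝒟 (mapMat (pA : P →+* A) M)) (h2 : DM 𝒟 (mapMat (pB : P →+* B) M)) :
    DM 𝒟 M := by
  obtain ⟨hMA, hDA⟩ := h1
  obtain ⟨hMB, hDB⟩ := h2
  have := hA.isArtinian
  have := hB.isArtinian
  have := hP.isArtinian
  have hpA : IsLocalHom (pA : P →+* A) := isLocalHom_algHom_of_artinian hP pA
  have hpB : IsLocalHom (pB : P →+* B) := isLocalHom_algHom_of_artinian hP pB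
  have hM : MatCont M := matCont_of_mapMat_pair (pA : P →+* A) (pB : P →+* B) hinj hMA hMB
  refine ⟨hM, h𝒟.of_fibreProduct hA hB hC hP f g pA pB hpA hpB hcomm hinj hsurj ?_ ?_⟩
  · obtain ⟨e⟩ := ofMat_baseChangeAlong_isEquiv _ hpA M hM hMA
    exact h𝒟.of_isEquiv hA ⟨e.symm⟩ hDA
  · obtain ⟨e⟩ := ofMat_baseChangeAlong_isEquiv _ hpB M hM hMB
    exact h𝒟.of_isEquiv hB ⟨e.symm⟩ hDB

theorem DM_of_fibreProduct (hA : FinTest 𝒪 A) (hB : FinTest 𝒪 B) (hC : FinTest 𝒪 C)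
    (hP : FinTest 𝒪 P) (f : A →ₐ[𝒪] C) (g : B →ₐ[𝒪] C) (pA : P →ₐ[𝒪] A) (pB : P →ₐ[𝒪] B)
    (hcomm : f.comp pA = g.comp pB) (hinj : Function.Injective (fun x => (pA x, pB x)))
    (hsurj : ∀ a b, f a = g b → ∃ x, pA x = a ∧ pB x = b) {M : GQ →* M2 P}
    (h1 : DM 𝒟 (mapMat (pA : P →+* A) M)) (h2 : DM 𝒟 (mapMat (pB : P →+* B) M)) :
    DM 𝒟 M :=
  DM_of_fibreProduct_of_artinian h𝒟 hA.isArtinianTestAlgebra hB.isArtinianTestAlgebra
    hC.isArtinianTestAlgebra hP.isArtinianTestAlgebra f g pA pB hcomm hinj hsurj h1 h2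

theorem type_iff_forall_surjective [IsNoetherianRing A] [IsAdicComplete (maximalIdeal A) A]
    (hloc : IsLocalHom (algebraMap 𝒪 A))
    (hres : Function.Surjective (IsLocalRing.residue A ∘ algebraMap 𝒪 A))
    (M : GQ →* M2 A) (hM : MatCont M) :
    𝒟 (ofMat M hM) ↔ ∀ (B : Type) [CommRing B] [IsLocalRing B] [Algebra 𝒪 B],
      GaloisRep.IsArtinianTestAlgebra 𝒪 B → ∀ (q : A →ₐ[𝒪] B), IsLocalHom (q : A →+* B) →
        Function.Surjective q → DM 𝒟 (mapMat (q : A →+* B) M) := by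
  rw [h𝒟.iff_forall_surjective hloc hres]
  constructor
  · intro h B _ _ _ hB q hq hsurj
    have hM' : MatCont (mapMat (q : A →+* B) M) := matCont_mapMat _ hq M hM
    exact ⟨hM', h𝒟.of_isEquiv hB (ofMat_baseChangeAlong_isEquiv _ hq M hM hM')
      (h hB q hq hsurj)⟩
  · intro h B _ _ _ hB q hq hsurj
    obtain ⟨hM', hD⟩ := h B hB q hq hsurj
    obtain ⟨e⟩ := ofMat_baseChangeAlong_isEquiv _ hq M hM hM'
    exact h𝒟.of_isEquiv hB ⟨e.symm⟩ hD

/-- `𝒟` is invariant under equivalence also over complete noetherian local rings -/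
theorem type_of_isEquiv [IsNoetherianRing A] [IsAdicComplete (maximalIdeal A) A]
    (hloc : IsLocalHom (algebraMap 𝒪 A))
    (hres : Function.Surjective (IsLocalRing.residue A ∘ algebraMap 𝒪 A))
    {ρ ρ' : GaloisRepAdic A} (e : ρ.IsEquiv ρ') (h : 𝒟 ρ) : 𝒟 ρ' := by
  rw [h𝒟.iff_forall_surjective hloc hres] at h ⊢
  intro B _ _ _ hB q hq hsurj
  obtain ⟨e'⟩ := e
  exact h𝒟.of_isEquiv hB ⟨e'.baseChangeAlong (q : A →+* B) hq⟩ (h hB q hq hsurj)

end T2

end Fermat.Agent.S53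

end
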