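import Fermat.Agent.S53.MatrixModel
import Fermat.Agent.S53.DCond
import Fermat.Agent.S53.CompleteLocal

/-!
# S53: from a universal normalised lift over finite test algebras to `DeformationRingData`

Given a complete noetherian local `𝒪`-algebra `R` with a normalised strict lift `Muniv` of type `𝒟`
which is universal among normalised strict lifts of type `𝒟` over *finite* test algebras, we build
`GaloisRep.DeformationRingData 𝒪 ρbar 𝒟`.  The slice lemma (task T4) enters through the two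
statements `SliceExistsStatement` and `SliceUniqueStatement`.
-/

set_option autoImplicit false
set_option linter.unusedSectionVars false
set_option linter.style.haveILetI false

noncomputable section

namespace Fermat.Agent.S53

open IsLocalRing

section Maps

variable {𝒪 : Type} [CommRing 𝒪] [IsLocalRing 𝒪] {ρb : GQ →* M2 (ResidueField 𝒪)}
variable {A B : Type} [CommRing A] [IsLocalRing A] [Algebra 𝒪 A]
  [CommRing B] [IsLocalRing B] [Algebra 𝒪 B]

/-- Strictness is preserved by local `𝒪`-algebra homomorphisms. -/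
theorem Strict.map (φ : A →ₐ[𝒪] B) (hφ : IsLocalHom (φ : A →+* B)) {M : GQ →* M2 A}
    (hs : Strict ρb M) : Strict ρb (mapMat (φ : A →+* B) M) := by
  intro σ i j c hc
  have h1 := hs σ i j c hc
  have h2 : mapMat (φ : A →+* B) M σ i j - algebraMap 𝒪 B c = φ (M σ i j - algebraMap 𝒪 A c) := by
    rw [map_sub, AlgHom.commutes]; rfl
  rw [h2]
  haveI := hφ
  exact map_nonunit (φ : A →+* B) _ h1

theorem nrm_mapMat_univ (sd : SliceData ρb) (φ : A →ₐ[𝒪] B) (M : GQ →* M2 A) (b : Fin 3) :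
    nrm sd (mapMat (φ : A →+* B) M) b = φ (nrm sd M b) := by
  simp only [nrm, map_sum, map_mul, AlgHom.commutes]
  rfl

/-- Normalisation is preserved by `𝒪`-algebra homomorphisms. -/
theorem Normalized.map (sd : SliceData ρb) (φ : A →ₐ[𝒪] B) {M : GQ →* M2 A}
    (hn : Normalized sd M) : Normalized sd (mapMat (φ : A →+* B) M) := by
  intro b
  rw [nrm_mapMat_univ, hn b, AlgHom.commutes]

theorem mapMat_comp {C : Type} [CommRing C] (φ : A →+* B) (ψ : B →+* C) (M : GQ →* M2 A) :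
    mapMat ψ (mapMat φ M) = mapMat (ψ.comp φ) M := by
  ext σ i j
  rfl

/-- An `𝒪`-algebra homomorphism into a local `𝒪`-algebra whose residue field is generated by `𝒪`
is local. -/
theorem isLocalHom_algHom_of_residue_surjective
    (hres : Function.Surjective (IsLocalRing.residue B ∘ algebraMap 𝒪 B)) (φ : A →ₐ[𝒪] B) :
    IsLocalHom (φ : A →+* B) := by
  refine ⟨fun a ha => ?_⟩
  by_contra hna
  have hsurj : Function.Surjective ((residue B).comp (φ : A →+* B)) := by
    intro x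
    obtain ⟨c, hc⟩ := hres x
    refine ⟨algebraMap 𝒪 A c, ?_⟩
    rw [RingHom.comp_apply, AlgHom.coe_toRingHom, AlgHom.commutes]
    exact hc
  have hmax := RingHom.ker_isMaximal_of_surjective _ hsurj
  have hker := IsLocalRing.eq_maximalIdeal hmax
  have h1 : a ∈ RingHom.ker ((residue B).comp (φ : A →+* B)) := by
    rw [hker]; exact hna
  rw [RingHom.mem_ker, RingHom.comp_apply, residue_eq_zero_iff] at h1
  exact h1 ha

end Maps

section Statements

variable {𝒪 : Type} [CommRing 𝒪] [IsLocalRing 𝒪] {ρb : GQ →* M2 (ResidueField 𝒪)}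

/-- Statement of `slice_exists` (task T4). -/
def SliceExistsStatement (sd : SliceData ρb) : Prop :=
  ∀ (A : Type) [CommRing A] [IsLocalRing A] [Algebra 𝒪 A] [IsLocalHom (algebraMap 𝒪 A)]
    [IsAdicComplete (maximalIdeal A) A] (M : GQ →* M2 A), Strict ρb M →
    ∃ (P : (M2 A)ˣ) (M' : GQ →* M2 A), (∀ σ, (P : M2 A) * M σ = M' σ * P) ∧
      Strict ρb M' ∧ Normalized sd M'

/-- Statement of `slice_unique` (task T4b). -/
def SliceUniqueStatement (sd : SliceData ρb) : Prop :=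
  ∀ (A : Type) [CommRing A] [IsLocalRing A] [Algebra 𝒪 A] [IsLocalHom (algebraMap 𝒪 A)]
    [IsHausdorff (maximalIdeal A) A] (M M' : GQ →* M2 A), Strict ρb M → Strict ρb M' →
    Normalized sd M → Normalized sd M' → ∀ (P : (M2 A)ˣ),
    (∀ σ, (P : M2 A) * M σ = M' σ * P) → M = M'

end Statements

section Main

variable {𝒪 : Type} [CommRing 𝒪] [IsLocalRing 𝒪] [Finite (ResidueField 𝒪)]
  {ρbar : ResidualGaloisRep (ResidueField 𝒪)}
  {𝒟 : ∀ ⦃A : Type⦄ [CommRing A] [IsLocalRing A] [Algebra 𝒪 A], GaloisRepAdic A → Prop}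

theorem eq_of_forall_mk_eq {S : Type} [CommRing S] (I : Ideal S) [IsHausdorff I S] {x y : S}
    (h : ∀ n, Ideal.Quotient.mk (I ^ n) x = Ideal.Quotient.mk (I ^ n) y) : x = y := by
  have := IsHausdorff.funext' (R := Unit) I (f := fun _ => x) (g := fun _ => y) (fun n _ => h n)
  exact congrFun this ()

/-- The reduction of a normalised strict lift of type `𝒟` over a complete noetherian local
`𝒪`-algebra modulo an open ideal is a normalised strict lift of type `𝒟`. -/
theorem isNLift_quotient (h𝒟 : GaloisRep.IsDeformationCondition 𝒪 𝒟)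
    (sd : SliceData (resMat ρbar))
    {A : Type} [CommRing A] [IsLocalRing A] [IsNoetherianRing A]
    [IsAdicComplete (maximalIdeal A) A] [Algebra 𝒪 A]
    (hloc : IsLocalHom (algebraMap 𝒪 A))
    (hres : Function.Surjective (IsLocalRing.residue A ∘ algebraMap 𝒪 A))
    (M : GQ →* M2 A) (hN : IsNLift sd 𝒟 M) (I : Ideal A) (hI : I ≠ ⊤) (n : ℕ)
    (hn : maximalIdeal A ^ n ≤ I) :
    haveI := isLocalRing_quotient I hI
    IsNLift sd 𝒟 (mapMat ((Ideal.Quotient.mkₐ 𝒪 I : A →ₐ[𝒪] A ⧸ I) : A →+* A ⧸ I) M) := by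
  haveI := isLocalRing_quotient I hI
  have hq : IsLocalHom ((Ideal.Quotient.mkₐ 𝒪 I : A →ₐ[𝒪] A ⧸ I) : A →+* A ⧸ I) :=
    isLocalHom_quotient_mk I hI
  refine ⟨hN.strict.map _ hq, hN.normalized.map sd _, ?_⟩
  obtain ⟨hM, hD⟩ := hN.isType
  exact (type_iff_forall_surjective h𝒟 hloc hres M hM).mp hD (A ⧸ I)
    (quotient_finTest hloc hres I hI n hn).isArtinianTestAlgebra
    (Ideal.Quotient.mkₐ 𝒪 I) hq (Ideal.Quotient.mkₐ_surjective 𝒪 I)

variable {R : Type} [CommRing R] [IsLocalRing R] [Algebra 𝒪 R]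

/-- The universal property over finite test algebras. -/
def FiniteUniversal (sd : SliceData (resMat ρbar))
    (𝒟 : ∀ ⦃A : Type⦄ [CommRing A] [IsLocalRing A] [Algebra 𝒪 A], GaloisRepAdic A → Prop)
    (Muniv : GQ →* M2 R) : Prop :=
  ∀ (A : Type) [CommRing A] [IsLocalRing A] [Algebra 𝒪 A], FinTest 𝒪 A →
    ∀ M : GQ →* M2 A, IsNLift sd 𝒟 M →
      ∃! φ : R →ₐ[𝒪] A, mapMat (φ : R →+* A) Muniv = M

/-- Existence half: a normalised strict lift of type `𝒟` over a complete noetherian local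
`𝒪`-algebra is the push-forward of the universal one. -/
theorem exists_algHom_of_isNLift (h𝒟 : GaloisRep.IsDeformationCondition 𝒪 𝒟)
    (sd : SliceData (resMat ρbar)) (Muniv : GQ →* M2 R)
    (hU2 : FiniteUniversal sd 𝒟 Muniv)
    {A : Type} [CommRing A] [IsLocalRing A] [IsNoetherianRing A]
    [IsAdicComplete (maximalIdeal A) A] [Algebra 𝒪 A]
    (hloc : IsLocalHom (algebraMap 𝒪 A))
    (hres : Function.Surjective (IsLocalRing.residue A ∘ algebraMap 𝒪 A))
    (M : GQ →* M2 A) (hN : IsNLift sd 𝒟 M) :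
    ∃ φ : R →ₐ[𝒪] A, mapMat (φ : R →+* A) Muniv = M := by
  have hne : ∀ n : ℕ, maximalIdeal A ^ (n + 1) ≠ ⊤ := fun n =>
    maximalIdeal_pow_ne_top (Nat.succ_le_succ (Nat.zero_le n))
  have key : ∀ n : ℕ, ∃! φ : R →ₐ[𝒪] A ⧸ maximalIdeal A ^ (n + 1),
      mapMat (φ : R →+* A ⧸ maximalIdeal A ^ (n + 1)) Muniv =
        mapMat ((Ideal.Quotient.mkₐ 𝒪 (maximalIdeal A ^ (n + 1)) :
          A →ₐ[𝒪] A ⧸ maximalIdeal A ^ (n + 1)) : A →+* A ⧸ maximalIdeal A ^ (n + 1)) M := by
    intro n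
    haveI := isLocalRing_quotient _ (hne n)
    exact hU2 _ (quotient_finTest hloc hres _ (hne n) (n + 1) le_rfl) _
      (isNLift_quotient h𝒟 sd hloc hres M hN _ (hne n) (n + 1) le_rfl)
  let φ' : ∀ n : ℕ, R →ₐ[𝒪] A ⧸ maximalIdeal A ^ (n + 1) := fun n => (key n).exists.choose
  have hφ' : ∀ n, mapMat (φ' n : R →+* A ⧸ maximalIdeal A ^ (n + 1)) Muniv =
        mapMat ((Ideal.Quotient.mkₐ 𝒪 (maximalIdeal A ^ (n + 1)) :
          A →ₐ[𝒪] A ⧸ maximalIdeal A ^ (n + 1)) : A →+* A ⧸ maximalIdeal A ^ (n + 1)) M :=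
    fun n => (key n).exists.choose_spec
  -- compatibility of the `φ'`
  have hcompat : ∀ {m n : ℕ} (hle : m ≤ n),
      (Ideal.Quotient.factorₐ 𝒪 (Ideal.pow_le_pow_right (Nat.succ_le_succ hle))).comp (φ' n) =
        φ' m := by
    intro m n hle
    refine (key m).unique ?_ (hφ' m)
    have h1 := hφ' n
    ext σ i j
    have h2 := congrFun (congrFun (congrFun (congrArg DFunLike.coe h1) σ) i) j
    simp only [mapMat_apply] at h2
    have h3 : (φ' n) (Muniv σ i j) =
        Ideal.Quotient.mk (maximalIdeal A ^ (n + 1)) (M σ i j) := h2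
    show Ideal.Quotient.factorₐ 𝒪 (Ideal.pow_le_pow_right (Nat.succ_le_succ hle))
      ((φ' n) (Muniv σ i j)) = Ideal.Quotient.mk (maximalIdeal A ^ (m + 1)) (M σ i j)
    rw [h3]
    rfl
  let f : ∀ n : ℕ, R →ₐ[𝒪] A ⧸ maximalIdeal A ^ n := fun n =>
    (Ideal.Quotient.factorₐ 𝒪 (Ideal.pow_le_pow_right (Nat.le_succ n))).comp (φ' n)
  have hf : ∀ {m n : ℕ} (hle : m ≤ n),
      (Ideal.Quotient.factorₐ 𝒪 (Ideal.pow_le_pow_right hle)).comp (f n) = f m := by
    intro m n hle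
    show (Ideal.Quotient.factorₐ 𝒪 _).comp ((Ideal.Quotient.factorₐ 𝒪 _).comp (φ' n)) =
      (Ideal.Quotient.factorₐ 𝒪 _).comp (φ' m)
    rw [← hcompat hle, ← AlgHom.comp_assoc, ← AlgHom.comp_assoc, Ideal.Quotient.factorₐ_comp,
      Ideal.Quotient.factorₐ_comp]
  refine ⟨IsAdicComplete.liftAlgHom (maximalIdeal A) f hf, ?_⟩
  ext σ i j
  apply eq_of_forall_mk_eq (maximalIdeal A)
  intro n
  rw [mapMat_apply]
  have h1 : Ideal.Quotient.mk (maximalIdeal A ^ n)
      ((IsAdicComplete.liftAlgHom (maximalIdeal A) f hf) (Muniv σ i j)) = f n (Muniv σ i j) :=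
    IsAdicComplete.mk_liftAlgHom (maximalIdeal A) f hf n (Muniv σ i j)
  have h2 := congrFun (congrFun (congrFun (congrArg DFunLike.coe (hφ' n)) σ) i) j
  simp only [mapMat_apply] at h2
  rw [AlgHom.coe_toRingHom, h1]
  have h3 : (φ' n) (Muniv σ i j) =
      Ideal.Quotient.mk (maximalIdeal A ^ (n + 1)) (M σ i j) := h2
  show Ideal.Quotient.factorₐ 𝒪 (Ideal.pow_le_pow_right (Nat.le_succ n))
    ((φ' n) (Muniv σ i j)) = Ideal.Quotient.mk (maximalIdeal A ^ n) (M σ i j)
  rw [h3]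
  rfl

/-- Uniqueness half: an `𝒪`-algebra homomorphism out of `R` into a complete noetherian local
`𝒪`-algebra is determined by the push-forward of the universal lift (when the latter is a
normalised strict lift of type `𝒟`). -/
theorem algHom_ext_of_mapMat_eq (h𝒟 : GaloisRep.IsDeformationCondition 𝒪 𝒟)
    (sd : SliceData (resMat ρbar)) (Muniv : GQ →* M2 R)
    (hU2 : FiniteUniversal sd 𝒟 Muniv)
    {A : Type} [CommRing A] [IsLocalRing A] [IsNoetherianRing A]
    [IsAdicComplete (maximalIdeal A) A] [Algebra 𝒪 A]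
    (hloc : IsLocalHom (algebraMap 𝒪 A))
    (hres : Function.Surjective (IsLocalRing.residue A ∘ algebraMap 𝒪 A))
    (M : GQ →* M2 A) (hN : IsNLift sd 𝒟 M) (φ φ₂ : R →ₐ[𝒪] A)
    (h1 : mapMat (φ : R →+* A) Muniv = M) (h2 : mapMat (φ₂ : R →+* A) Muniv = M) : φ = φ₂ := by
  apply IsAdicComplete.algHom_ext (maximalIdeal A)
  intro n
  cases n with
  | zero =>
    have : Subsingleton (A ⧸ maximalIdeal A ^ 0) := by
      rw [Ideal.Quotient.subsingleton_iff, pow_zero, Ideal.one_eq_top]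
    exact AlgHom.ext fun x => Subsingleton.elim _ _
  | succ k =>
    have hne : maximalIdeal A ^ (k + 1) ≠ ⊤ :=
      maximalIdeal_pow_ne_top (Nat.succ_le_succ (Nat.zero_le k))
    haveI := isLocalRing_quotient _ hne
    have key := hU2 _ (quotient_finTest hloc hres _ hne (k + 1) le_rfl) _
      (isNLift_quotient h𝒟 sd hloc hres M hN _ hne (k + 1) le_rfl)
    refine key.unique ?_ ?_
    · rw [← h1]; ext σ i j; rfl
    · rw [← h2]; ext σ i j; rfl

/-- **Final assembly (abstract form)**: a complete noetherian local `𝒪`-algebra carrying a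
normalised strict lift of type `𝒟` that is universal over finite test algebras is a universal
deformation ring. -/
theorem nonempty_deformationRingData_of_finiteUniversal
    {𝒪 : Type} [CommRing 𝒪] [IsDomain 𝒪] [IsDiscreteValuationRing 𝒪]
    [IsAdicComplete (maximalIdeal 𝒪) 𝒪] [Finite (ResidueField 𝒪)]
    (ρbar : ResidualGaloisRep (ResidueField 𝒪))
    (𝒟 : ∀ ⦃A : Type⦄ [CommRing A] [IsLocalRing A] [Algebra 𝒪 A], GaloisRepAdic A → Prop)
    (habs : ρbar.IsAbsolutelyIrreducible) (h𝒟 : GaloisRep.IsDeformationCondition 𝒪 𝒟)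
    (sd : SliceData (resMat ρbar)) (hSE : SliceExistsStatement sd)
    (hSU : SliceUniqueStatement sd)
    (R : Type) [CommRing R] [IsLocalRing R] [IsNoetherianRing R]
    [IsAdicComplete (maximalIdeal R) R] [Algebra 𝒪 R] [IsLocalHom (algebraMap 𝒪 R)]
    (hresR : Function.Surjective (IsLocalRing.residue R ∘ algebraMap 𝒪 R))
    (Muniv : GQ →* M2 R) (hU1 : IsNLift sd 𝒟 Muniv) (hU2 : FiniteUniversal sd 𝒟 Muniv) :
    Nonempty (GaloisRep.DeformationRingData 𝒪 ρbar 𝒟) := by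
  obtain ⟨hcont, hD⟩ := hU1.isType
  refine ⟨{ R := R
            residue_surjective := hresR
            absIrr := habs
            ρ := ofMat Muniv hcont
            isOfType := hD
            residual_isEquiv := residual_isEquiv_of_strict ρbar Muniv hcont hU1.strict
            universal := ?_ }⟩
  intro A _ _ _ _ _ hlocA hresA ρA hDA hresid
  obtain ⟨M₀, hM₀, hs₀, e₀⟩ := exists_strict_of_residual_isEquiv ρbar ρA hresid
  obtain ⟨P, M', hP, hs', hn'⟩ := hSE A M₀ hs₀
  have hM' : MatCont M' := matCont_conj M₀ M' P hP hM₀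
  have e₁ : ρA.IsEquiv (ofMat M' hM') := by
    obtain ⟨e⟩ := e₀
    exact ⟨e.trans (equivOfConj M₀ M' hM₀ hM' P hP)⟩
  have hD' : 𝒟 (ofMat M' hM') := type_of_isEquiv h𝒟 hlocA hresA e₁ hDA
  have hN' : IsNLift sd 𝒟 M' := ⟨hs', hn', ⟨hM', hD'⟩⟩
  obtain ⟨φ, hφ⟩ := exists_algHom_of_isNLift h𝒟 sd Muniv hU2 hlocA hresA M' hN'
  have hφloc : IsLocalHom (φ : R →+* A) := isLocalHom_algHom_of_residue_surjective hresA φ
  have hex : ((ofMat Muniv hcont).baseChangeAlong (φ : R →+* A) hφloc).IsEquiv ρA := by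
    obtain ⟨e⟩ := e₁
    exact ⟨((baseChangeOfMatEquiv (φ : R →+* A) hφloc Muniv hcont
      (matCont_mapMat _ hφloc Muniv hcont)).trans (equivOfEq _ hM' hφ)).trans e.symm⟩
  refine ⟨φ, ⟨hφloc, hex⟩, ?_⟩
  rintro φ₂ ⟨hφ₂, e₂⟩
  obtain ⟨Q, hQ⟩ := exists_conj_of_baseChangeAlong_isEquiv (φ₂ : R →+* A) (φ : R →+* A) hφ₂ hφloc
    Muniv hcont ρA e₂ hex
  have hs₂ : Strict (resMat ρbar) (mapMat (φ₂ : R →+* A) Muniv) := hU1.strict.map φ₂ hφ₂
  have hn₂ : Normalized sd (mapMat (φ₂ : R →+* A) Muniv) := hU1.normalized.map sd φ₂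
  have heq : mapMat (φ₂ : R →+* A) Muniv = mapMat (φ : R →+* A) Muniv :=
    hSU A _ _ hs₂ (hφ ▸ hs') hn₂ (hφ ▸ hn') Q hQ
  exact algHom_ext_of_mapMat_eq h𝒟 sd Muniv hU2 hlocA hresA M' hN' φ₂ φ (heq.trans hφ) hφ

end Main

end Fermat.Agent.S53

end
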