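import Fermat.Agent.S53.Defs

/-!
# S53, task T6: algebra of finite test algebras

`k`, `k[ε]` are finite test algebras; nilpotency of the maximal ideal; subalgebras; the residue
map to `k`; pullbacks over `k`; and F1: a proper subalgebra is not detected by maps to the dual
numbers.
-/

set_option autoImplicit false
set_option linter.unusedSectionVars false
set_option linter.style.haveILetI false

noncomputable section

namespace Fermat.Agent.S53

open IsLocalRing

section General
variable {R C : Type} [CommRing R] [CommRing C] [Algebra R C]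

/-- In a finite commutative ring, an element of a subalgebra that is a unit in the ambient ring
is a unit of the subalgebra. -/
theorem subalgebra_isUnit_of_isUnit_val [Finite C] (S : Subalgebra R C) {s : S}
    (h : IsUnit (s : C)) : IsUnit s := by
  rw [isUnit_iff_mem_nonZeroDivisors_of_finite]
  refine mem_nonZeroDivisors_iff.mpr ⟨fun t ht => ?_, fun t ht => ?_⟩
  · have h1 : (s : C) * (t : C) = 0 := by rw [← Subalgebra.coe_mul, ht]; rfl
    exact Subtype.ext (h.mul_right_eq_zero.mp h1)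
  · have h1 : (t : C) * (s : C) = 0 := by rw [← Subalgebra.coe_mul, ht]; rfl
    exact Subtype.ext (h.mul_left_eq_zero.mp h1)

theorem subalgebra_isUnit_iff [Finite C] (S : Subalgebra R C) {s : S} :
    IsUnit s ↔ IsUnit (s : C) :=
  ⟨fun h => h.map S.val, subalgebra_isUnit_of_isUnit_val S⟩

end General

section T6
variable {𝒪 : Type} [CommRing 𝒪] [IsLocalRing 𝒪]
variable {A B : Type} [CommRing A] [IsLocalRing A] [Algebra 𝒪 A]
  [CommRing B] [IsLocalRing B] [Algebra 𝒪 B]

theorem finTest_residueField [Finite (ResidueField 𝒪)] : FinTest 𝒪 (ResidueField 𝒪) where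
  finite := inferInstance
  isLocalHom := by
    refine ⟨fun a ha => ?_⟩
    have h : algebraMap 𝒪 (ResidueField 𝒪) a = residue 𝒪 a := rfl
    rw [h] at ha
    by_contra hna
    have : residue 𝒪 a = 0 := (residue_eq_zero_iff a).mpr hna
    rw [this] at ha
    exact not_isUnit_zero ha
  residue_surjective := by
    intro x
    obtain ⟨y, rfl⟩ := residue_surjective (R := ResidueField 𝒪) x
    obtain ⟨c, rfl⟩ := residue_surjective (R := 𝒪) y
    exact ⟨c, rfl⟩

theorem dualNumberAlgebra_algebraMap_apply (c : 𝒪) :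
    letI := dualNumberAlgebra 𝒪
    algebraMap 𝒪 (DualNumber (ResidueField 𝒪)) c = TrivSqZeroExt.inl (residue 𝒪 c) := rfl

theorem finTest_dualNumber [Finite (ResidueField 𝒪)] :
    letI := dualNumberAlgebra 𝒪
    FinTest 𝒪 (DualNumber (ResidueField 𝒪)) := by
  let _ := dualNumberAlgebra 𝒪
  refine ⟨?_, ?_, ?_⟩
  · exact inferInstanceAs (Finite (ResidueField 𝒪 × ResidueField 𝒪))
  · refine ⟨fun a ha => ?_⟩
    rw [dualNumberAlgebra_algebraMap_apply, TrivSqZeroExt.isUnit_iff_isUnit_fst,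
      TrivSqZeroExt.fst_inl] at ha
    by_contra hna
    have : residue 𝒪 a = 0 := (residue_eq_zero_iff a).mpr hna
    rw [this] at ha
    exact not_isUnit_zero ha
  · intro x
    obtain ⟨y, rfl⟩ := residue_surjective (R := DualNumber (ResidueField 𝒪)) x
    obtain ⟨c, hc⟩ := residue_surjective (R := 𝒪) y.fst
    refine ⟨c, ?_⟩
    simp only [Function.comp_apply]
    rw [dualNumberAlgebra_algebraMap_apply, hc, ← sub_eq_zero, ← map_sub, residue_eq_zero_iff,
      mem_maximalIdeal, mem_nonunits_iff, TrivSqZeroExt.isUnit_iff_isUnit_fst]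
    simp

theorem FinTest.isNilpotent_maximalIdeal (hA : FinTest 𝒪 A) : IsNilpotent (maximalIdeal A) := by
  have := hA.finite
  rw [← IsLocalRing.jacobson_eq_maximalIdeal (⊥ : Ideal A) bot_ne_top]
  exact IsArtinianRing.isNilpotent_jacobson_bot

theorem subalgebra_isLocalRing (hA : FinTest 𝒪 A) (S : Subalgebra 𝒪 A) : IsLocalRing S := by
  have := hA.finite
  refine IsLocalRing.of_nonunits_add fun {a b} ha hb => ?_
  rw [mem_nonunits_iff, subalgebra_isUnit_iff] at ha hb ⊢
  have ha' : (a : A) ∈ maximalIdeal A := ha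
  have hb' : (b : A) ∈ maximalIdeal A := hb
  exact (maximalIdeal A).add_mem ha' hb'

theorem subalgebra_mem_maximalIdeal_iff (hA : FinTest 𝒪 A) (S : Subalgebra 𝒪 A) (s : S) :
    haveI := subalgebra_isLocalRing hA S
    s ∈ maximalIdeal S ↔ (s : A) ∈ maximalIdeal A := by
  haveI := subalgebra_isLocalRing hA S
  have := hA.finite
  rw [mem_maximalIdeal, mem_maximalIdeal, mem_nonunits_iff, mem_nonunits_iff,
    subalgebra_isUnit_iff]

theorem subalgebra_finTest (hA : FinTest 𝒪 A) (S : Subalgebra 𝒪 A) :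
    haveI := subalgebra_isLocalRing hA S
    FinTest 𝒪 S := by
  haveI := subalgebra_isLocalRing hA S
  have := hA.finite
  have := hA.isLocalHom
  refine ⟨inferInstance, ⟨fun c hc => ?_⟩, fun x => ?_⟩
  · have h1 : IsUnit (algebraMap 𝒪 A c) := by
      have := (subalgebra_isUnit_iff S).mp hc
      simpa using this
    exact isUnit_of_map_unit (algebraMap 𝒪 A) c h1
  · obtain ⟨s, rfl⟩ := residue_surjective (R := S) x
    obtain ⟨c, hc⟩ := hA.residue_surjective (residue A (s : A))
    refine ⟨c, ?_⟩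
    simp only [Function.comp_apply] at hc ⊢
    rw [← sub_eq_zero, ← map_sub, residue_eq_zero_iff] at hc ⊢
    rw [subalgebra_mem_maximalIdeal_iff hA S]
    simpa using hc

/-- the residue map to `k` as an `𝒪`-algebra hom -/
theorem exists_resk (hA : FinTest 𝒪 A) : ∃ f : A →ₐ[𝒪] ResidueField 𝒪,
    Function.Surjective f ∧ ∀ a, f a = 0 ↔ a ∈ maximalIdeal A := by
  haveI := hA.isLocalHom
  have hbij : Function.Bijective (ResidueField.map (algebraMap 𝒪 A)) := by
    refine ⟨(ResidueField.map (algebraMap 𝒪 A)).injective, fun x => ?_⟩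
    obtain ⟨c, hc⟩ := hA.residue_surjective x
    exact ⟨residue 𝒪 c, by rw [ResidueField.map_residue]; exact hc⟩
  let e : ResidueField 𝒪 ≃+* ResidueField A := RingEquiv.ofBijective _ hbij
  let f0 : A →+* ResidueField 𝒪 := (e.symm : ResidueField A →+* ResidueField 𝒪).comp (residue A)
  have hf0 : ∀ c : 𝒪, f0 (algebraMap 𝒪 A c) = algebraMap 𝒪 (ResidueField 𝒪) c := by
    intro c
    change e.symm (residue A (algebraMap 𝒪 A c)) = residue 𝒪 c
    rw [RingEquiv.symm_apply_eq]
    change _ = ResidueField.map (algebraMap 𝒪 A) (residue 𝒪 c)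
    rw [ResidueField.map_residue]
  refine ⟨{ f0 with commutes' := hf0 }, ?_, ?_⟩
  · intro x
    obtain ⟨a, ha⟩ := residue_surjective (R := A) (e x)
    exact ⟨a, by change e.symm (residue A a) = x; rw [ha, RingEquiv.symm_apply_apply]⟩
  · intro a
    change e.symm (residue A a) = 0 ↔ _
    rw [map_eq_zero_iff _ e.symm.injective, residue_eq_zero_iff]

/-- Any `𝒪`-algebra hom from a finite test algebra to `k` kills exactly the maximal ideal. -/
theorem FinTest.algHom_resk_eq_zero_iff (hA : FinTest 𝒪 A) (f : A →ₐ[𝒪] ResidueField 𝒪) (a : A) :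
    f a = 0 ↔ a ∈ maximalIdeal A := by
  constructor
  · intro h
    by_contra hna
    have hu : IsUnit a := by
      by_contra hu
      exact hna hu
    have := hu.map f
    rw [h] at this
    exact not_isUnit_zero this
  · intro ha
    obtain ⟨n, hn⟩ := hA.isNilpotent_maximalIdeal
    have h1 : a ^ n ∈ maximalIdeal A ^ n := Ideal.pow_mem_pow ha n
    rw [hn] at h1
    have h2 : a ^ n = 0 := h1
    have h3 : f a ^ n = 0 := by rw [← map_pow, h2, map_zero]
    exact IsNilpotent.eq_zero ⟨n, h3⟩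

theorem FinTest.algHom_resk_surjective (f : A →ₐ[𝒪] ResidueField 𝒪) : Function.Surjective f := by
  intro x
  obtain ⟨c, rfl⟩ := IsLocalRing.residue_surjective (R := 𝒪) x
  exact ⟨algebraMap 𝒪 A c, f.commutes c⟩

theorem pullback_isUnit_iff (hA : FinTest 𝒪 A) (hB : FinTest 𝒪 B)
    (f : A →ₐ[𝒪] ResidueField 𝒪) (g : B →ₐ[𝒪] ResidueField 𝒪) (x : f.pullback g) :
    IsUnit x ↔ f (x : A × B).1 ≠ 0 := by
  have := hA.finite
  have := hB.finite
  have hx : f (x : A × B).1 = g (x : A × B).2 := x.2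
  rw [subalgebra_isUnit_iff, Prod.isUnit_iff]
  constructor
  · rintro ⟨h1, -⟩
    exact (h1.map f).ne_zero
  · intro h
    refine ⟨?_, ?_⟩
    · by_contra hu
      exact h ((hA.algHom_resk_eq_zero_iff f _).mpr hu)
    · by_contra hu
      exact h (hx ▸ (hB.algHom_resk_eq_zero_iff g _).mpr hu)

theorem pullback_isLocalRing (hA : FinTest 𝒪 A) (hB : FinTest 𝒪 B)
    (f : A →ₐ[𝒪] ResidueField 𝒪) (g : B →ₐ[𝒪] ResidueField 𝒪) : IsLocalRing (f.pullback g) := by
  haveI : Nontrivial (f.pullback g) := by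
    refine ⟨0, 1, fun h => ?_⟩
    have h1 : ((0 : f.pullback g) : A × B).1 = ((1 : f.pullback g) : A × B).1 := by rw [h]
    exact zero_ne_one h1
  refine IsLocalRing.of_nonunits_add fun {a b} ha hb => ?_
  rw [mem_nonunits_iff, pullback_isUnit_iff hA hB f g, not_not] at ha hb ⊢
  change f ((a : A × B).1 + (b : A × B).1) = 0
  rw [map_add, ha, hb, add_zero]

theorem pullback_mem_maximalIdeal_iff (hA : FinTest 𝒪 A) (hB : FinTest 𝒪 B)
    (f : A →ₐ[𝒪] ResidueField 𝒪) (g : B →ₐ[𝒪] ResidueField 𝒪) (x : f.pullback g) :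
    haveI := pullback_isLocalRing hA hB f g
    x ∈ maximalIdeal (f.pullback g) ↔ f (x : A × B).1 = 0 := by
  haveI := pullback_isLocalRing hA hB f g
  rw [mem_maximalIdeal, mem_nonunits_iff, pullback_isUnit_iff hA hB f g, not_not]

theorem pullback_finTest (hA : FinTest 𝒪 A) (hB : FinTest 𝒪 B)
    (f : A →ₐ[𝒪] ResidueField 𝒪) (g : B →ₐ[𝒪] ResidueField 𝒪) :
    haveI := pullback_isLocalRing hA hB f g
    FinTest 𝒪 (f.pullback g) := by
  haveI := pullback_isLocalRing hA hB f g
  have := hA.finite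
  have := hB.finite
  have := hA.isLocalHom
  refine ⟨inferInstance, ⟨fun c hc => ?_⟩, fun x => ?_⟩
  · rw [pullback_isUnit_iff hA hB f g] at hc
    have h1 : f (algebraMap 𝒪 A c) ≠ 0 := hc
    have h2 : IsUnit (algebraMap 𝒪 A c) := by
      by_contra hu
      exact h1 ((hA.algHom_resk_eq_zero_iff f _).mpr hu)
    exact isUnit_of_map_unit (algebraMap 𝒪 A) c h2
  · obtain ⟨s, rfl⟩ := residue_surjective (R := f.pullback g) x
    obtain ⟨c, hc⟩ := residue_surjective (R := 𝒪) (f (s : A × B).1)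
    refine ⟨c, ?_⟩
    simp only [Function.comp_apply]
    rw [← sub_eq_zero, ← map_sub, residue_eq_zero_iff, pullback_mem_maximalIdeal_iff hA hB f g]
    change f (algebraMap 𝒪 A c - (s : A × B).1) = 0
    rw [map_sub, f.commutes, sub_eq_zero]
    exact hc

/-- Ring hom to the dual numbers from a "derivation" `D` over the residue map. -/
def dualHom (resk : A →ₐ[𝒪] ResidueField 𝒪) (D : A →+ ResidueField 𝒪)
    (hmul : ∀ a b, D (a * b) = resk a * D b + resk b * D a)
    (hcomm : ∀ c : 𝒪, D (algebraMap 𝒪 A c) = 0) :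
    letI := dualNumberAlgebra 𝒪
    A →ₐ[𝒪] DualNumber (ResidueField 𝒪) :=
  letI := dualNumberAlgebra 𝒪
  { toFun := fun a => TrivSqZeroExt.inl (resk a) + TrivSqZeroExt.inr (D a)
    map_one' := by
      have h1 : D 1 = 0 := by simpa using hcomm 1
      ext <;> simp [h1]
    map_mul' := fun a b => by
      ext
      · simp
      · simp [hmul, mul_comm]
    map_zero' := by ext <;> simp
    map_add' := fun a b => by
      ext
      · simp
      · simp
    commutes' := fun c => by
      rw [dualNumberAlgebra_algebraMap_apply]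
      ext
      · simp
      · simp [hcomm] }

theorem dualHom_apply (resk : A →ₐ[𝒪] ResidueField 𝒪) (D : A →+ ResidueField 𝒪)
    (hmul : ∀ a b, D (a * b) = resk a * D b + resk b * D a)
    (hcomm : ∀ c : 𝒪, D (algebraMap 𝒪 A c) = 0) (a : A) :
    letI := dualNumberAlgebra 𝒪
    dualHom resk D hmul hcomm a = TrivSqZeroExt.inl (resk a) + TrivSqZeroExt.inr (D a) := rfl

/-- The `S`-submodule `𝔪_S • ⊤` of `A` is stable under multiplication by `A`. -/
theorem mul_mem_maximalIdeal_smul_top (S : Subalgebra 𝒪 A) [IsLocalRing S] (a : A) {x : A}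
    (hx : x ∈ (maximalIdeal S • ⊤ : Submodule S A)) :
    a * x ∈ (maximalIdeal S • ⊤ : Submodule S A) := by
  refine Submodule.smul_induction_on hx (fun r hr m _ => ?_) (fun x y hx hy => ?_)
  · have : a * r • m = r • (a * m) := by
      rw [Subalgebra.smul_def, Subalgebra.smul_def]; ring
    rw [this]
    exact Submodule.smul_mem_smul hr Submodule.mem_top
  · rw [mul_add]
    exact Submodule.add_mem _ hx hy

/-- A subalgebra of a finite test algebra that surjects onto the relative cotangent space is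
everything (Nakayama twice). -/
theorem subalgebra_eq_top_of_sup_eq_top (hA : FinTest 𝒪 A) (S : Subalgebra 𝒪 A)
    (h : Subalgebra.toSubmodule S ⊔ ((maximalIdeal A) ^ 2).restrictScalars 𝒪 ⊔
      ((maximalIdeal 𝒪).map (algebraMap 𝒪 A)).restrictScalars 𝒪 = ⊤) : S = ⊤ := by
  have := hA.finite
  haveI := hA.isLocalHom
  haveI := subalgebra_isLocalRing hA S
  have h𝔫 : (maximalIdeal 𝒪).map (algebraMap 𝒪 A) ≤ maximalIdeal A :=
    ((IsLocalRing.local_hom_TFAE (algebraMap 𝒪 A)).out 0 2).mp hA.isLocalHom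
  have hsq : (maximalIdeal A) ^ 2 ≤ maximalIdeal A := Ideal.pow_le_self two_ne_zero
  set J : Ideal A := Ideal.span {x | x ∈ S ∧ x ∈ maximalIdeal A} with hJ
  have h𝔫J : (maximalIdeal 𝒪).map (algebraMap 𝒪 A) ≤ J := by
    rw [Ideal.map, Ideal.span_le]
    rintro _ ⟨c, hc, rfl⟩
    exact Ideal.subset_span ⟨S.algebraMap_mem c, h𝔫 (Ideal.mem_map_of_mem _ hc)⟩
  -- first Nakayama: `𝔪 ≤ J`
  have hmJ : maximalIdeal A ≤ J := by
    refine Submodule.le_of_le_smul_of_le_jacobson_bot (IsNoetherian.noetherian _)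
      (I := maximalIdeal A) (IsLocalRing.jacobson_eq_maximalIdeal ⊥ bot_ne_top).ge ?_
    intro x hx
    have hx' : x ∈ (⊤ : Submodule 𝒪 A) := Submodule.mem_top
    rw [← h] at hx'
    obtain ⟨st, hst, n, hn, rfl⟩ := Submodule.mem_sup.mp hx'
    obtain ⟨s, hs, y, hy, rfl⟩ := Submodule.mem_sup.mp hst
    have hy' : y ∈ maximalIdeal A ^ 2 := hy
    have hn' : n ∈ (maximalIdeal 𝒪).map (algebraMap 𝒪 A) := hn
    have hs' : s ∈ S := hs
    have hsm : s ∈ maximalIdeal A := by
      have : s = s + y + n - y - n := by ring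
      rw [this]
      exact Ideal.sub_mem _ (Ideal.sub_mem _ hx (hsq hy')) (h𝔫 hn')
    refine Submodule.mem_sup.mpr ⟨s + n, ?_, y, ?_, by ring⟩
    · exact J.add_mem (Ideal.subset_span ⟨hs', hsm⟩) (h𝔫J hn')
    · rw [smul_eq_mul, ← pow_two]; exact hy'
  -- `J ⊆ 𝔪_S • ⊤`
  have hJP : ∀ x ∈ J, x ∈ (maximalIdeal S • ⊤ : Submodule S A) := by
    intro x hx
    refine Submodule.span_induction (p := fun x _ => x ∈ (maximalIdeal S • ⊤ : Submodule S A))
      ?_ ?_ ?_ ?_ hx
    · rintro g ⟨hgS, hgm⟩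
      have h1 : (⟨g, hgS⟩ : S) ∈ maximalIdeal S :=
        (subalgebra_mem_maximalIdeal_iff hA S _).mpr hgm
      have h2 : g = (⟨g, hgS⟩ : S) • (1 : A) := by rw [Subalgebra.smul_def]; simp
      rw [h2]
      exact Submodule.smul_mem_smul h1 Submodule.mem_top
    · exact Submodule.zero_mem _
    · intro x y _ _ hx hy
      exact Submodule.add_mem _ hx hy
    · intro a x _ hx
      exact mul_mem_maximalIdeal_smul_top S a hx
  -- second Nakayama, over `S`
  have htop : (⊤ : Submodule S A) ≤ LinearMap.range (Algebra.linearMap S A) := by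
    refine Submodule.le_of_le_smul_of_le_jacobson_bot (I := maximalIdeal S)
      (Module.Finite.fg_top) (IsLocalRing.jacobson_eq_maximalIdeal ⊥ bot_ne_top).ge ?_
    intro a _
    obtain ⟨c, hc⟩ := hA.residue_surjective (residue A a)
    simp only [Function.comp_apply] at hc
    have hx : a - algebraMap 𝒪 A c ∈ maximalIdeal A := by
      rw [← residue_eq_zero_iff, map_sub, hc, sub_self]
    refine Submodule.mem_sup.mpr ⟨algebraMap 𝒪 A c, ?_, a - algebraMap 𝒪 A c, ?_, by ring⟩
    · exact ⟨algebraMap 𝒪 S c, rfl⟩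
    · exact hJP _ (hmJ hx)
  rw [eq_top_iff]
  intro a _
  obtain ⟨s, hs⟩ := htop (Submodule.mem_top : a ∈ ⊤)
  rw [← hs]
  exact s.2

/-- F1: a proper subalgebra is not detected by maps to the dual numbers -/
theorem exists_algHom_dualNumber_ne (hA : FinTest 𝒪 A) (S : Subalgebra 𝒪 A) (hS : S ≠ ⊤) :
    letI := dualNumberAlgebra 𝒪
    ∃ u v : A →ₐ[𝒪] DualNumber (ResidueField 𝒪), u ≠ v ∧ ∀ s ∈ S, u s = v s := by
  letI := dualNumberAlgebra 𝒪
  have := hA.finite
  obtain ⟨resk, -, hker⟩ := exists_resk hA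
  set T : Submodule 𝒪 A := Subalgebra.toSubmodule S ⊔ ((maximalIdeal A) ^ 2).restrictScalars 𝒪 ⊔
      ((maximalIdeal 𝒪).map (algebraMap 𝒪 A)).restrictScalars 𝒪 with hT
  have hTne : T ≠ ⊤ := fun h => hS (subalgebra_eq_top_of_sup_eq_top hA S h)
  obtain ⟨T', hT'coatom, hTT'⟩ := (eq_top_or_exists_le_coatom T).resolve_left hTne
  have simple : IsSimpleModule 𝒪 (A ⧸ T') := isSimpleModule_iff_isCoatom.mpr hT'coatom
  obtain ⟨I, hI, ⟨e⟩⟩ := isSimpleModule_iff_quot_maximal.mp simple
  obtain rfl : I = maximalIdeal 𝒪 := IsLocalRing.eq_maximalIdeal hI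
  -- the functional
  let θ : A →ₗ[𝒪] (𝒪 ⧸ maximalIdeal 𝒪) := e.toLinearMap ∘ₗ T'.mkQ
  have hθT : ∀ x ∈ T, θ x = 0 := by
    intro x hx
    have : T'.mkQ x = 0 := (Submodule.Quotient.mk_eq_zero T').mpr (hTT' hx)
    change e (T'.mkQ x) = 0
    rw [this, map_zero]
  have hθsurj : Function.Surjective θ := e.surjective.comp T'.mkQ_surjective
  let D : A →+ ResidueField 𝒪 := θ.toAddMonoidHom
  have hD : ∀ a, D a = θ a := fun a => rfl
  have hDsmul : ∀ (c : 𝒪) (a : A), D (c • a) = residue 𝒪 c * D a := by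
    intro c a
    rw [hD, hD, map_smul, Algebra.smul_def]
    rfl
  have hDS : ∀ s ∈ S, D s = 0 := fun s hs =>
    hθT s (Submodule.mem_sup_left (Submodule.mem_sup_left hs))
  have hDsq : ∀ x y, x ∈ maximalIdeal A → y ∈ maximalIdeal A → D (x * y) = 0 := by
    intro x y hx hy
    refine hθT _ (Submodule.mem_sup_left (Submodule.mem_sup_right ?_))
    change x * y ∈ maximalIdeal A ^ 2
    rw [pow_two]
    exact Ideal.mul_mem_mul hx hy
  have hcomm : ∀ c : 𝒪, D (algebraMap 𝒪 A c) = 0 := fun c => hDS _ (S.algebraMap_mem c)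
  have hmul : ∀ a b, D (a * b) = resk a * D b + resk b * D a := by
    intro a b
    obtain ⟨ca, hca⟩ := residue_surjective (R := 𝒪) (resk a)
    obtain ⟨cb, hcb⟩ := residue_surjective (R := 𝒪) (resk b)
    have hxa : a - algebraMap 𝒪 A ca ∈ maximalIdeal A := by
      rw [← hker, map_sub, resk.commutes, sub_eq_zero]; exact hca.symm
    have hxb : b - algebraMap 𝒪 A cb ∈ maximalIdeal A := by
      rw [← hker, map_sub, resk.commutes, sub_eq_zero]; exact hcb.symm
    have ea : D a = D (a - algebraMap 𝒪 A ca) := by rw [map_sub, hcomm, sub_zero]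
    have eb : D b = D (b - algebraMap 𝒪 A cb) := by rw [map_sub, hcomm, sub_zero]
    have key : a * b = algebraMap 𝒪 A (ca * cb) + ca • (b - algebraMap 𝒪 A cb)
        + cb • (a - algebraMap 𝒪 A ca)
        + (a - algebraMap 𝒪 A ca) * (b - algebraMap 𝒪 A cb) := by
      rw [Algebra.smul_def, Algebra.smul_def, map_mul]; ring
    rw [key, map_add, map_add, map_add, hcomm, hDsmul, hDsmul, hDsq _ _ hxa hxb, ← ea, ← eb,
      hca, hcb]
    ring
  have hmul0 : ∀ a b, (0 : A →+ ResidueField 𝒪) (a * b)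
      = resk a * (0 : A →+ ResidueField 𝒪) b + resk b * (0 : A →+ ResidueField 𝒪) a := by
    intro a b; simp
  refine ⟨dualHom resk D hmul hcomm, dualHom resk 0 hmul0 (fun _ => rfl), ?_, ?_⟩
  · intro huv
    obtain ⟨a, ha⟩ := hθsurj 1
    have h1 := congrArg TrivSqZeroExt.snd (DFunLike.congr_fun huv a)
    rw [dualHom_apply, dualHom_apply] at h1
    simp only [TrivSqZeroExt.snd_add, TrivSqZeroExt.snd_inl, TrivSqZeroExt.snd_inr, zero_add,
      AddMonoidHom.zero_apply] at h1
    rw [hD, ha] at h1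
    exact (one_ne_zero : (1 : ResidueField 𝒪) ≠ 0) h1
  · intro s hs
    rw [dualHom_apply, dualHom_apply, hDS s hs]
    rfl

end T6

end Fermat.Agent.S53

end
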