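import Fermat.Agent.S53.Filter
import Fermat.Agent.S53.TestAlg

/-!
# S53: the filter `TT` is nonempty (the residual representation itself)
-/

set_option autoImplicit false
set_option linter.unusedSectionVars false
set_option linter.style.haveILetI false

noncomputable section

namespace Fermat.Agent.S53

open IsLocalRing MvPolynomial

variable {𝒪 : Type} [CommRing 𝒪] [IsLocalRing 𝒪] [Finite (ResidueField 𝒪)]
  {𝒟 : ∀ ⦃A : Type⦄ [CommRing A] [IsLocalRing A] [Algebra 𝒪 A], GaloisRepAdic A → Prop}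
  (h𝒟 : GaloisRep.IsDeformationCondition 𝒪 𝒟)
  (ρbar : ResidualGaloisRep (ResidueField 𝒪)) (sd : SliceData (resMat ρbar))

include h𝒟 in
/-- The residual representation is a normalised lift of itself. -/
theorem isNLift_resMat (hbar : 𝒟 (GaloisRepAdic.ofResidualGaloisRep ρbar)) :
    IsNLift sd 𝒟 (resMat ρbar) := by
  refine ⟨?_, ?_, ?_⟩
  · intro σ i j c hc
    have h : algebraMap 𝒪 (ResidueField 𝒪) c = residue 𝒪 c := rfl
    rw [h, hc, sub_self]
    exact Ideal.zero_mem _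
  · intro b
    have h : ∀ c : 𝒪, algebraMap 𝒪 (ResidueField 𝒪) c = residue 𝒪 c := fun _ => rfl
    simp only [nrm, h]
    exact (sd.hκ b).symm
  · refine ⟨matCont_resMat ρbar, ?_⟩
    exact h𝒟.of_isEquiv (finTest_residueField (𝒪 := 𝒪)).isArtinianTestAlgebra
      (ofResidual_isEquiv_ofMat ρbar (matCont_resMat ρbar)) hbar

include h𝒟 in
/-- `hT0`: the filter is nonempty. -/
theorem TT_nonempty (hbar : 𝒟 (GaloisRepAdic.ofResidualGaloisRep ρbar)) :
    (TT sd 𝒟).Nonempty :=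
  ⟨_, ker_evL_mem_TT h𝒟 (finTest_residueField (𝒪 := 𝒪)) (resMat ρbar)
    (isNLift_resMat h𝒟 ρbar sd hbar)⟩

/-- `hT1`. -/
theorem TT_finTest' (I : Ideal (Lam 𝒪)) (hI : I ∈ TT sd 𝒟) :
    ∃ _ : IsLocalRing (Lam 𝒪 ⧸ I), FinTest 𝒪 (Lam 𝒪 ⧸ I) :=
  ⟨TT_isLocalRing hI, TT_finTest hI⟩

end Fermat.Agent.S53

end
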