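import Fermat.Agent.S53.Filter
import Fermat.Agent.S53.TestAlg

/-!
# S53, task T9b: hypothesis `hT4` of `exists_proRep` for the filter `TT sd 𝒟`

The `𝒪`-algebra homs `f : Lam 𝒪 → k[ε]` with `ker f ∈ TT sd 𝒟` inject into the normalised lifts
of type `𝒟` to `k[ε]` (via `f ↦ (σ ↦ (f (X (σ,i,j)))_{i,j})`), which form a finite set by task T7.
-/

set_option autoImplicit false
set_option linter.unusedSectionVars false
set_option linter.style.haveILetI false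

noncomputable section

namespace Fermat.Agent.S53

open IsLocalRing MvPolynomial

section

variable {𝒪 : Type} [CommRing 𝒪] [IsLocalRing 𝒪] [Finite (ResidueField 𝒪)]
  {ρb : GQ →* M2 (ResidueField 𝒪)} {sd : SliceData ρb}
  {𝒟 : ∀ ⦃A : Type⦄ [CommRing A] [IsLocalRing A] [Algebra 𝒪 A], GaloisRepAdic A → Prop}

/-- The matrix representation over `B` attached to an algebra hom `f : Lam 𝒪 → B` whose kernel
lies in `TT`: `σ ↦ (f (X (σ,i,j)))_{i,j}`. -/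
def matOfHom {B : Type} [CommRing B] [Algebra 𝒪 B] (f : Lam 𝒪 →ₐ[𝒪] B)
    (hf : RingHom.ker f ∈ TT sd 𝒟) : GQ →* M2 B :=
  mapMat ((Ideal.kerLiftAlg f : (Lam 𝒪 ⧸ RingHom.ker f) →ₐ[𝒪] B) : (Lam 𝒪 ⧸ RingHom.ker f) →+* B)
    (univMat (RingHom.ker f) (TT_mulRel_mem hf) (TT_oneRel_mem hf))

theorem matOfHom_apply {B : Type} [CommRing B] [Algebra 𝒪 B] (f : Lam 𝒪 →ₐ[𝒪] B)
    (hf : RingHom.ker f ∈ TT sd 𝒟) (σ : GQ) (i j : Fin 2) :
    matOfHom f hf σ i j = f (X (σ, i, j)) := by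
  change Ideal.kerLiftAlg f (Ideal.Quotient.mk _ (X (σ, i, j))) = _
  exact Ideal.kerLiftAlg_mk f _

theorem matOfHom_injective {B : Type} [CommRing B] [Algebra 𝒪 B] (f g : Lam 𝒪 →ₐ[𝒪] B)
    (hf : RingHom.ker f ∈ TT sd 𝒟) (hg : RingHom.ker g ∈ TT sd 𝒟)
    (h : matOfHom f hf = matOfHom g hg) : f = g := by
  apply MvPolynomial.algHom_ext
  rintro ⟨σ, i, j⟩
  rw [← matOfHom_apply f hf, ← matOfHom_apply g hg, h]

theorem isNLift_matOfHom (h𝒟 : GaloisRep.IsDeformationCondition 𝒪 𝒟)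
    {B : Type} [CommRing B] [IsLocalRing B] [Algebra 𝒪 B] (hB : FinTest 𝒪 B)
    (f : Lam 𝒪 →ₐ[𝒪] B) (hf : RingHom.ker f ∈ TT sd 𝒟) : IsNLift sd 𝒟 (matOfHom f hf) := by
  haveI := TT_isLocalRing hf
  exact IsNLift.push sd h𝒟 (TT_isNLift hf) (TT_finTest hf) hB (Ideal.kerLiftAlg f)

/-- **T9b** (`hT4` for `TT sd 𝒟`). -/
theorem TT_finite_dualNumber (h𝒟 : GaloisRep.IsDeformationCondition 𝒪 𝒟)
    (hfin : letI := dualNumberAlgebra 𝒪
      Finite {M : GQ →* M2 (DualNumber (ResidueField 𝒪)) // IsNLift sd 𝒟 M}) :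
    letI := dualNumberAlgebra 𝒪
    Finite {f : Lam 𝒪 →ₐ[𝒪] DualNumber (ResidueField 𝒪) // RingHom.ker f ∈ TT sd 𝒟} := by
  letI := dualNumberAlgebra 𝒪
  haveI := hfin
  have hB : FinTest 𝒪 (DualNumber (ResidueField 𝒪)) := finTest_dualNumber
  let Ψ : {f : Lam 𝒪 →ₐ[𝒪] DualNumber (ResidueField 𝒪) // RingHom.ker f ∈ TT sd 𝒟} →
      {M : GQ →* M2 (DualNumber (ResidueField 𝒪)) // IsNLift sd 𝒟 M} :=
    fun f => ⟨matOfHom f.1 f.2, isNLift_matOfHom h𝒟 hB f.1 f.2⟩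
  refine Finite.of_injective Ψ ?_
  intro f g h
  exact Subtype.ext (matOfHom_injective f.1 g.1 f.2 g.2 (congrArg Subtype.val h))

end

end Fermat.Agent.S53

end
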