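/-
S53 helper: a Chevalley-type lemma for a decreasing chain of ideals `J n` in a complete ring
with `𝔫 ^ n ≤ J n` and `J n = J (n+1) ⊔ 𝔫 ^ n`, and the resulting description of the quotient
by `⨅ n, J n`.
-/
import Mathlib

set_option autoImplicit false

namespace Fermat.Agent.S53.ProRep

open IsLocalRing

section Chevalley

variable {S : Type*} [CommRing S] (𝔫 : Ideal S) (J : ℕ → Ideal S)

/-- telescoping: a sequence with `g (j+1) - g j ∈ 𝔫 ^ (n + j)` satisfies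
`g j' - g j ∈ 𝔫 ^ (n + j)` for `j ≤ j'`. -/
theorem sub_mem_pow_of_succ {n : ℕ} (g : ℕ → S) (hg : ∀ j, g (j + 1) - g j ∈ 𝔫 ^ (n + j))
    {j j' : ℕ} (hjj' : j ≤ j') : g j' - g j ∈ 𝔫 ^ (n + j) := by
  induction j', hjj' using Nat.le_induction with
  | base => simp
  | succ k hk ih =>
    have h1 : g (k + 1) - g j = (g (k + 1) - g k) + (g k - g j) := by ring
    rw [h1]
    exact add_mem (Ideal.pow_le_pow_right (by omega) (hg k)) ih

/-- **Chevalley-type lemma.** If `S` is `𝔫`-adically precomplete, `𝔫 ^ n ≤ J n` and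
`J n ≤ J (n+1) ⊔ 𝔫 ^ n` for all `n`, then `J n ≤ (⨅ i, J i) ⊔ 𝔫 ^ n`. -/
theorem le_iInf_sup_pow [IsPrecomplete 𝔫 S] (h1 : ∀ n, 𝔫 ^ n ≤ J n)
    (h2 : ∀ n, J n ≤ J (n + 1) ⊔ 𝔫 ^ n) (hanti : Antitone J) (n : ℕ) :
    J n ≤ (⨅ i, J i) ⊔ 𝔫 ^ n := by
  intro x hx
  -- build the sequence `g j ∈ J (n + j)`
  have step : ∀ m, ∀ z : J m, ∃ z' : J (m + 1), (z' : S) - z ∈ 𝔫 ^ m := by
    rintro m ⟨z, hz⟩
    obtain ⟨a, ha, b, hb, hab⟩ := Submodule.mem_sup.1 (h2 m hz)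
    refine ⟨⟨a, ha⟩, ?_⟩
    have : a - z = -b := by rw [← hab]; ring
    simp only [this]
    exact neg_mem hb
  choose nxt hnxt using step
  let G : ∀ j : ℕ, J (n + j) := fun j =>
    Nat.rec (motive := fun j => J (n + j)) ⟨x, hx⟩ (fun j z => nxt (n + j) z) j
  let g : ℕ → S := fun j => (G j : S)
  have hg0 : g 0 = x := rfl
  have hgmem : ∀ j, g j ∈ J (n + j) := fun j => (G j).2
  have hgsucc : ∀ j, g (j + 1) - g j ∈ 𝔫 ^ (n + j) := fun j => hnxt (n + j) (G j)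
  -- Cauchy sequence `f i = g (i - n)`
  have hcauchy : ∀ {a b : ℕ}, a ≤ b →
      g (a - n) ≡ g (b - n) [SMOD (𝔫 ^ a • ⊤ : Submodule S S)] := by
    intro a b hab
    simp only [smul_eq_mul, Ideal.mul_top]
    rw [SModEq.sub_mem]
    have h3 : g (a - n) - g (b - n) = -(g (b - n) - g (a - n)) := by ring
    rw [h3]
    refine neg_mem (Ideal.pow_le_pow_right (by omega)
      (sub_mem_pow_of_succ 𝔫 g hgsucc (n := n) (j := a - n) (j' := b - n) (by omega)))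
  obtain ⟨L, hL⟩ := IsPrecomplete.prec (I := 𝔫) (M := S) inferInstance hcauchy
  simp only [smul_eq_mul, Ideal.mul_top] at hL
  have hL' : ∀ i, g (i - n) - L ∈ 𝔫 ^ i := fun i => (SModEq.sub_mem).1 (hL i)
  -- `L ∈ J i` for all `i`
  have hLmem : ∀ j, L ∈ J (n + j) := by
    intro j
    have h4 := hL' (n + j)
    rw [Nat.add_sub_cancel_left] at h4
    have h5 : L = g j - (g j - L) := by ring
    rw [h5]
    exact sub_mem (hgmem j) (h1 _ h4)
  have hLinf : L ∈ ⨅ i, J i := by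
    rw [Ideal.mem_iInf]
    intro i
    exact hanti (Nat.le_add_left i n) (hLmem i)
  have h6 : x = L + (x - L) := by ring
  rw [h6]
  refine Submodule.add_mem_sup hLinf ?_
  have h7 := hL' n
  rw [Nat.sub_self, hg0] at h7
  exact h7

theorem eq_iInf_sup_pow [IsPrecomplete 𝔫 S] (h1 : ∀ n, 𝔫 ^ n ≤ J n)
    (h2 : ∀ n, J n ≤ J (n + 1) ⊔ 𝔫 ^ n) (hanti : Antitone J) (n : ℕ) :
    J n = (⨅ i, J i) ⊔ 𝔫 ^ n :=
  le_antisymm (le_iInf_sup_pow 𝔫 J h1 h2 hanti n) (sup_le (iInf_le _ _) (h1 n))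

end Chevalley

end Fermat.Agent.S53.ProRep
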