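import Fermat.Agent.S53.CotangentBound
import Fermat.Agent.S53.Chevalley
import Fermat.Agent.S53.PSComplete
import Fermat.Agent.S53.CompleteLocal
import Fermat.Prelude.Thm_IsLocalRing_isAdicComplete_of_module_finite

/-!
# S53, task T8 (backup version): pro-representability in ideal-filter form

`exists_proRep_main` : the Galois-free commutative algebra statement `exists_proRep` of the
blueprint.  The ring `R` is `𝒪⟦X_1,…,X_d⟧ ⧸ ⨅ n, ker (f n)` where `f n` is the evaluation map onto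
`Lam ⧸ Imin n`, and `u : Lam → R` is the limit of the maps `Lam → Lam ⧸ Imin n ≃ R ⧸ 𝔪_R ^ n`.
-/

set_option autoImplicit false
set_option linter.unusedSectionVars false
set_option linter.unusedVariables false
set_option linter.style.haveILetI false

noncomputable section

namespace Fermat.Agent.S53.ProRepB

open IsLocalRing

/-- The zero map to the zero ring, as an algebra homomorphism. -/
def zeroAlgHom (R A B : Type*) [CommSemiring R] [Semiring A] [Semiring B] [Algebra R A]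
    [Algebra R B] [Subsingleton B] : A →ₐ[R] B where
  toFun _ := 0
  map_one' := Subsingleton.elim _ _
  map_mul' _ _ := Subsingleton.elim _ _
  map_zero' := rfl
  map_add' _ _ := Subsingleton.elim _ _
  commutes' _ := Subsingleton.elim _ _

theorem map_maximalIdeal_of_surjective {S B : Type*} [CommRing S] [CommRing B] [IsLocalRing S]
    [IsLocalRing B] (f : S →+* B) (hf : Function.Surjective f) :
    (maximalIdeal S).map f = maximalIdeal B := by
  haveI : IsLocalHom f := IsLocalHom.of_surjective f hf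
  have h04 : IsLocalHom f ↔ (maximalIdeal B).comap f = maximalIdeal S :=
    (local_hom_TFAE f).out 0 4
  rw [← h04.mp this, Ideal.map_comap_of_surjective f hf]

section Quot

variable {𝒪 : Type} [CommRing 𝒪] [IsLocalRing 𝒪]
  {S : Type} [CommRing S] [IsLocalRing S] [IsNoetherianRing S]
  [IsAdicComplete (maximalIdeal S) S] [Algebra 𝒪 S] [IsLocalHom (algebraMap 𝒪 S)]

theorem quot_isAdicComplete (K : Ideal S) (hK : K ≠ ⊤) :
    haveI := isLocalRing_quotient K hK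
    IsAdicComplete (maximalIdeal (S ⧸ K)) (S ⧸ K) := by
  haveI := isLocalRing_quotient K hK
  haveI : IsLocalHom (algebraMap S (S ⧸ K)) := isLocalHom_quotient_mk K hK
  exact IsLocalRing.isAdicComplete_of_module_finite (𝒪 := S)

theorem quot_isLocalHom (K : Ideal S) (hK : K ≠ ⊤) :
    haveI := isLocalRing_quotient K hK
    IsLocalHom (algebraMap 𝒪 (S ⧸ K)) := by
  haveI := isLocalRing_quotient K hK
  haveI : IsLocalHom (Ideal.Quotient.mk K) := isLocalHom_quotient_mk K hK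
  have : algebraMap 𝒪 (S ⧸ K) = (Ideal.Quotient.mk K).comp (algebraMap 𝒪 S) := rfl
  rw [this]
  infer_instance

theorem quot_residue_surjective (K : Ideal S) (hK : K ≠ ⊤)
    (hres : Function.Surjective (residue S ∘ algebraMap 𝒪 S)) :
    haveI := isLocalRing_quotient K hK
    Function.Surjective (residue (S ⧸ K) ∘ algebraMap 𝒪 (S ⧸ K)) := by
  haveI := isLocalRing_quotient K hK
  intro x
  obtain ⟨y, rfl⟩ := residue_surjective x
  obtain ⟨s, rfl⟩ := Ideal.Quotient.mk_surjective y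
  obtain ⟨c, hc⟩ := hres (residue S s)
  refine ⟨c, ?_⟩
  rw [Function.comp_apply] at hc ⊢
  rw [← sub_eq_zero, ← map_sub, residue_eq_zero_iff] at hc ⊢
  have : algebraMap 𝒪 (S ⧸ K) c = Ideal.Quotient.mk K (algebraMap 𝒪 S c) := rfl
  rw [this, ← map_sub]
  exact (mk_mem_maximalIdeal_quotient_iff K hK _).mpr hc

end Quot


section Core

variable {𝒪 : Type} [CommRing 𝒪] [IsLocalRing 𝒪]
  {S : Type} [CommRing S] [IsLocalRing S] [IsNoetherianRing S]
  [IsAdicComplete (maximalIdeal S) S] [Algebra 𝒪 S] [IsLocalHom (algebraMap 𝒪 S)]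
  {Lam : Type} [CommRing Lam] [Algebra 𝒪 Lam]
  (𝔐 : Ideal Lam) (Imin : ℕ → Ideal Lam)
  (f : ∀ n, 1 ≤ n → S →ₐ[𝒪] Lam ⧸ Imin n)

/-- The chain of kernels `J n = ker (f n)`, with `J 0 = ⊤`. -/
def JJ (n : ℕ) : Ideal S :=
  if h : 1 ≤ n then RingHom.ker (f n h) else ⊤

theorem JJ_pos {n : ℕ} (h : 1 ≤ n) : JJ Imin f n = RingHom.ker (f n h) := dif_pos h

theorem JJ_zero : JJ Imin f 0 = ⊤ := dif_neg (by omega)

theorem pow_le_JJ (hfker : ∀ n h, maximalIdeal S ^ n ≤ RingHom.ker (f n h)) (n : ℕ) :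
    maximalIdeal S ^ n ≤ JJ Imin f n := by
  by_cases h : 1 ≤ n
  · rw [JJ_pos Imin f h]; exact hfker n h
  · have : n = 0 := by omega
    subst this
    rw [JJ_zero]; exact le_top

theorem JJ_antitone (hmono : ∀ m n, 1 ≤ m → m ≤ n → Imin n ≤ Imin m)
    (hfcompat : ∀ m n (hm : 1 ≤ m) (hmn : m ≤ n) (s : S),
      Ideal.Quotient.factor (hmono m n hm hmn) (f n (hm.trans hmn) s) = f m hm s) :
    Antitone (JJ Imin f) := by
  refine antitone_nat_of_succ_le fun n => ?_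
  by_cases h : 1 ≤ n
  · rw [JJ_pos Imin f h, JJ_pos Imin f (Nat.le_add_left 1 n)]
    intro s hs
    rw [RingHom.mem_ker] at hs ⊢
    rw [← hfcompat n (n + 1) h (Nat.le_succ n) s, hs, map_zero]
  · have : n = 0 := by omega
    subst this
    rw [JJ_zero]; exact le_top

theorem JJ_le_succ_sup (hmono : ∀ m n, 1 ≤ m → m ≤ n → Imin n ≤ Imin m)
    (hfcompat : ∀ m n (hm : 1 ≤ m) (hmn : m ≤ n) (s : S),
      Ideal.Quotient.factor (hmono m n hm hmn) (f n (hm.trans hmn) s) = f m hm s)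
    (hfsurj : ∀ n h, Function.Surjective (f n h))
    (hfmap : ∀ n h, (maximalIdeal S).map (f n h : S →+* Lam ⧸ Imin n) =
      𝔐.map (Ideal.Quotient.mk (Imin n)))
    (hImin : ∀ n, 1 ≤ n → Imin n = Imin (n + 1) ⊔ 𝔐 ^ n) (n : ℕ) :
    JJ Imin f n ≤ JJ Imin f (n + 1) ⊔ maximalIdeal S ^ n := by
  by_cases h : 1 ≤ n
  · rw [JJ_pos Imin f h, JJ_pos Imin f (Nat.le_add_left 1 n)]
    intro s hs
    rw [RingHom.mem_ker] at hs
    obtain ⟨lam, hlam⟩ := Ideal.Quotient.mk_surjective (f (n + 1) (Nat.le_add_left 1 n) s)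
    have h1 : Ideal.Quotient.mk (Imin n) lam = 0 := by
      have := hfcompat n (n + 1) h (Nat.le_succ n) s
      rw [hs, ← hlam, Ideal.Quotient.factor_mk] at this
      exact this
    rw [Ideal.Quotient.eq_zero_iff_mem, hImin n h] at h1
    obtain ⟨i, hi, m, hm, rfl⟩ := Submodule.mem_sup.mp h1
    have h2 : f (n + 1) (Nat.le_add_left 1 n) s = Ideal.Quotient.mk (Imin (n + 1)) m := by
      rw [← hlam, map_add, Ideal.Quotient.eq_zero_iff_mem.mpr hi, zero_add]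
    have h3 : Ideal.Quotient.mk (Imin (n + 1)) m ∈
        (maximalIdeal S ^ n).map (f (n + 1) (Nat.le_add_left 1 n) : S →+* Lam ⧸ Imin (n + 1)) := by
      rw [Ideal.map_pow, hfmap, ← Ideal.map_pow]
      exact Ideal.mem_map_of_mem _ hm
    obtain ⟨t, ht, htm⟩ := (Ideal.mem_map_iff_of_surjective _ (hfsurj (n + 1) _)).mp h3
    have h4 : s = (s - t) + t := by ring
    rw [h4]
    refine Submodule.add_mem_sup ?_ ht
    rw [RingHom.mem_ker, map_sub, h2, sub_eq_zero]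
    exact htm.symm
  · have : n = 0 := by omega
    subst this
    rw [pow_zero, Ideal.one_eq_top, sup_top_eq]; exact le_top

end Core


section Core2

variable {𝒪 : Type} [CommRing 𝒪] [IsLocalRing 𝒪]
  {S : Type} [CommRing S] [IsLocalRing S] [IsNoetherianRing S]
  [IsAdicComplete (maximalIdeal S) S] [Algebra 𝒪 S] [IsLocalHom (algebraMap 𝒪 S)]
  {Lam : Type} [CommRing Lam] [Algebra 𝒪 Lam]

/-- Abstract core of `exists_proRep`: from a compatible system of surjections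
`f n : S → Lam ⧸ Imin n` out of a complete Noetherian local ring with `Imin n = Imin (n+1) ⊔ 𝔐 ^ n`,
construct the quotient `R` of `S` and `u : Lam → R` with `u ⁻¹ (𝔪_R ^ n) = Imin n`. -/
theorem exists_core (𝔐 : Ideal Lam) (Imin : ℕ → Ideal Lam)
    (f : ∀ n, 1 ≤ n → S →ₐ[𝒪] Lam ⧸ Imin n)
    (hresS : Function.Surjective (residue S ∘ algebraMap 𝒪 S))
    (hne : Imin 1 ≠ ⊤)
    (hmono : ∀ m n, 1 ≤ m → m ≤ n → Imin n ≤ Imin m)
    (hfcompat : ∀ m n (hm : 1 ≤ m) (hmn : m ≤ n) (s : S),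
      Ideal.Quotient.factor (hmono m n hm hmn) (f n (hm.trans hmn) s) = f m hm s)
    (hfsurj : ∀ n h, Function.Surjective (f n h))
    (hfker : ∀ n h, maximalIdeal S ^ n ≤ RingHom.ker (f n h))
    (hfmap : ∀ n h, (maximalIdeal S).map (f n h : S →+* Lam ⧸ Imin n) =
      𝔐.map (Ideal.Quotient.mk (Imin n)))
    (hImin : ∀ n, 1 ≤ n → Imin n = Imin (n + 1) ⊔ 𝔐 ^ n) :
    ∃ (R : Type) (_ : CommRing R) (_ : IsLocalRing R) (_ : IsNoetherianRing R)
      (_ : IsAdicComplete (maximalIdeal R) R) (_ : Algebra 𝒪 R)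
      (_ : IsLocalHom (algebraMap 𝒪 R)) (u : Lam →ₐ[𝒪] R),
      Function.Surjective (residue R ∘ algebraMap 𝒪 R) ∧
      (∀ n : ℕ, 1 ≤ n → ∀ x : R, ∃ l : Lam, x - u l ∈ maximalIdeal R ^ n) ∧
      (∀ n : ℕ, 1 ≤ n → Ideal.comap u (maximalIdeal R ^ n) = Imin n) := by
  -- the chain of kernels and its intersection
  have hJ1 := pow_le_JJ Imin f hfker
  have hJanti := JJ_antitone Imin f hmono hfcompat
  have hJ2 := JJ_le_succ_sup 𝔐 Imin f hmono hfcompat hfsurj hfmap hImin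
  have hJeq : ∀ n, JJ Imin f n = (⨅ i, JJ Imin f i) ⊔ maximalIdeal S ^ n :=
    ProRep.eq_iInf_sup_pow (maximalIdeal S) (JJ Imin f) hJ1 hJ2 hJanti
  obtain ⟨K, hKdef⟩ : ∃ K : Ideal S, K = ⨅ i, JJ Imin f i := ⟨_, rfl⟩
  rw [← hKdef] at hJeq
  have hK : K ≠ ⊤ := by
    intro hK
    have h1 : (1 : S) ∈ JJ Imin f 1 := by
      rw [hJeq 1, hK, top_sup_eq]; trivial
    rw [JJ_pos Imin f le_rfl, RingHom.mem_ker, map_one] at h1
    have : Nontrivial (Lam ⧸ Imin 1) := Ideal.Quotient.nontrivial_iff.mpr hne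
    exact one_ne_zero h1
  -- the ring R
  haveI hloc : IsLocalRing (S ⧸ K) := isLocalRing_quotient K hK
  haveI hcompl : IsAdicComplete (maximalIdeal (S ⧸ K)) (S ⧸ K) := quot_isAdicComplete K hK
  haveI hlochom : IsLocalHom (algebraMap 𝒪 (S ⧸ K)) := quot_isLocalHom K hK
  have hmax : ∀ n : ℕ, maximalIdeal (S ⧸ K) ^ n = (maximalIdeal S ^ n).map (Ideal.Quotient.mk K) := by
    intro n
    rw [Ideal.map_pow, map_mk_maximalIdeal K hK]
  -- key fact (K1)
  have hK1 : ∀ n (h : 1 ≤ n) (s : S),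
      Ideal.Quotient.mk K s ∈ maximalIdeal (S ⧸ K) ^ n ↔ f n h s = 0 := by
    intro n h s
    rw [← RingHom.mem_ker, ← JJ_pos Imin f h, hJeq n, hmax n, ← Ideal.mem_comap,
      Ideal.comap_map_of_surjective _ Ideal.Quotient.mk_surjective, ← RingHom.ker_eq_comap_bot,
      Ideal.mk_ker, sup_comm]
  -- the maps q n : S → R / m^n
  let q : ∀ n : ℕ, S →ₐ[𝒪] (S ⧸ K) ⧸ maximalIdeal (S ⧸ K) ^ n := fun n =>
    (Ideal.Quotient.mkₐ 𝒪 (maximalIdeal (S ⧸ K) ^ n)).comp (Ideal.Quotient.mkₐ 𝒪 K)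
  have hq : ∀ n (s : S), q n s =
      Ideal.Quotient.mk (maximalIdeal (S ⧸ K) ^ n) (Ideal.Quotient.mk K s) := fun n s => rfl
  have hH : ∀ n (h : 1 ≤ n), RingHom.ker (f n h).toRingHom ≤ RingHom.ker (q n).toRingHom := by
    intro n h s hs
    rw [RingHom.mem_ker] at hs ⊢
    change q n s = 0
    rw [hq, Ideal.Quotient.eq_zero_iff_mem, hK1 n h]
    exact hs
  let ψ : ∀ n (h : 1 ≤ n), Lam ⧸ Imin n →ₐ[𝒪] (S ⧸ K) ⧸ maximalIdeal (S ⧸ K) ^ n := fun n h =>
    AlgHom.liftOfSurjective (f n h) (hfsurj n h) (q n) (hH n h)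
  have hsub : ∀ n, ¬ 1 ≤ n → Subsingleton ((S ⧸ K) ⧸ maximalIdeal (S ⧸ K) ^ n) := by
    intro n hn
    have : n = 0 := by omega
    subst this
    rw [Ideal.Quotient.subsingleton_iff, pow_zero, Ideal.one_eq_top]
  let g : ∀ n : ℕ, Lam →ₐ[𝒪] (S ⧸ K) ⧸ maximalIdeal (S ⧸ K) ^ n := fun n =>
    if h : 1 ≤ n then (ψ n h).comp (Ideal.Quotient.mkₐ 𝒪 (Imin n))
    else haveI := hsub n h; zeroAlgHom 𝒪 Lam _
  have hg : ∀ n (h : 1 ≤ n) (s : S) (lam : Lam), f n h s = Ideal.Quotient.mk (Imin n) lam →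
      g n lam = Ideal.Quotient.mk (maximalIdeal (S ⧸ K) ^ n) (Ideal.Quotient.mk K s) := by
    intro n h s lam hs
    have h1 : g n = (ψ n h).comp (Ideal.Quotient.mkₐ 𝒪 (Imin n)) := dif_pos h
    rw [h1, AlgHom.comp_apply, Ideal.Quotient.mkₐ_eq_mk, ← hs]
    exact AlgHom.liftOfSurjective_apply (f n h) (hfsurj n h) (q n) (hH n h) s
  have hgcompat : ∀ {m n : ℕ} (hle : m ≤ n),
      (Ideal.Quotient.factorₐ 𝒪 (Ideal.pow_le_pow_right hle)).comp (g n) = g m := by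
    intro m n hle
    by_cases hm : 1 ≤ m
    · ext lam
      obtain ⟨s, hs⟩ := hfsurj n (hm.trans hle) (Ideal.Quotient.mk (Imin n) lam)
      have hs' : f m hm s = Ideal.Quotient.mk (Imin m) lam := by
        rw [← hfcompat m n hm hle s, hs, Ideal.Quotient.factor_mk]
      rw [AlgHom.comp_apply, hg n (hm.trans hle) s lam hs, hg m hm s lam hs']
      rfl
    · haveI := hsub m hm
      ext lam
      exact Subsingleton.elim _ _
  let u : Lam →ₐ[𝒪] S ⧸ K := IsAdicComplete.liftAlgHom (maximalIdeal (S ⧸ K)) g hgcompat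
  have hu : ∀ n (h : 1 ≤ n) (s : S) (lam : Lam), f n h s = Ideal.Quotient.mk (Imin n) lam →
      u lam - Ideal.Quotient.mk K s ∈ maximalIdeal (S ⧸ K) ^ n := by
    intro n h s lam hs
    rw [← Ideal.Quotient.eq, ← hg n h s lam hs]
    exact IsAdicComplete.mk_liftAlgHom (maximalIdeal (S ⧸ K)) g hgcompat n lam
  refine ⟨S ⧸ K, inferInstance, hloc, inferInstance, hcompl, inferInstance, hlochom, u,
    quot_residue_surjective K hK hresS, ?_, ?_⟩
  · intro n hn x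
    obtain ⟨s, rfl⟩ := Ideal.Quotient.mk_surjective x
    obtain ⟨lam, hlam⟩ := Ideal.Quotient.mk_surjective (f n hn s)
    refine ⟨lam, ?_⟩
    have := hu n hn s lam hlam.symm
    rw [← neg_sub]
    exact neg_mem this
  · intro n hn
    ext lam
    rw [Ideal.mem_comap]
    obtain ⟨s, hs⟩ := hfsurj n hn (Ideal.Quotient.mk (Imin n) lam)
    have h1 := hu n hn s lam hs
    have h2 : (u lam ∈ maximalIdeal (S ⧸ K) ^ n) ↔
        Ideal.Quotient.mk K s ∈ maximalIdeal (S ⧸ K) ^ n := by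
      constructor
      · intro h
        have := sub_mem h h1
        rwa [sub_sub_cancel] at this
      · intro h
        have := add_mem h1 h
        rwa [sub_add_cancel] at this
    rw [h2, hK1 n hn s, hs, Ideal.Quotient.eq_zero_iff_mem]

end Core2


section Main

open LevelMin

variable (𝒪 : Type) [CommRing 𝒪] [IsDomain 𝒪] [IsDiscreteValuationRing 𝒪]
  [IsAdicComplete (maximalIdeal 𝒪) 𝒪] [Finite (ResidueField 𝒪)]
  (Lam : Type) [CommRing Lam] [Algebra 𝒪 Lam] (TT : Set (Ideal Lam))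

/-- **Pro-representability, ideal-filter form** (blueprint statement T8 `exists_proRep`). -/
theorem exists_proRep_main
    (hT0 : TT.Nonempty)
    (hT1 : ∀ I ∈ TT, ∃ _ : IsLocalRing (Lam ⧸ I), FinTest 𝒪 (Lam ⧸ I))
    (hT2 : ∀ I ∈ TT, ∀ J ∈ TT, I ⊓ J ∈ TT)
    (hT3 : ∀ I ∈ TT, ∀ J : Ideal Lam, I ≤ J → J ≠ ⊤ → J ∈ TT)
    (hT4 : letI := dualNumberAlgebra 𝒪
      Finite {f : Lam →ₐ[𝒪] DualNumber (ResidueField 𝒪) // RingHom.ker f ∈ TT}) :
    ∃ (R : Type) (_ : CommRing R) (_ : IsLocalRing R) (_ : IsNoetherianRing R)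
      (_ : IsAdicComplete (maximalIdeal R) R) (_ : Algebra 𝒪 R)
      (_ : IsLocalHom (algebraMap 𝒪 R)) (u : Lam →ₐ[𝒪] R),
      Function.Surjective (residue R ∘ algebraMap 𝒪 R) ∧
      (∀ n : ℕ, 1 ≤ n → ∀ x : R, ∃ l : Lam, x - u l ∈ maximalIdeal R ^ n) ∧
      (∀ n : ℕ, 1 ≤ n → Ideal.comap u (maximalIdeal R ^ n) ∈ TT) ∧
      (∀ I ∈ TT, ∃ n : ℕ, 1 ≤ n ∧ Ideal.comap u (maximalIdeal R ^ n) ≤ I) := by
  have hTF : IsTestFilter (𝒪 := 𝒪) TT := ⟨hT0, hT1, hT2, hT3⟩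
  obtain ⟨𝔐, d, l, Imin, h𝔐, hle, hpow, hcomap, hl, hgen, hImin⟩ := exists_levelData hTF hT4
  -- the power series ring
  haveI hScompl : IsAdicComplete (maximalIdeal (MvPowerSeries (Fin d) 𝒪))
      (MvPowerSeries (Fin d) 𝒪) := isAdicComplete_mvPowerSeries 𝒪 d
  haveI hSloc : IsLocalHom (algebraMap 𝒪 (MvPowerSeries (Fin d) 𝒪)) :=
    PSC.isLocalHom_C (σ := Fin d) (R := 𝒪)
  have hresS : Function.Surjective (residue (MvPowerSeries (Fin d) 𝒪) ∘
      algebraMap 𝒪 (MvPowerSeries (Fin d) 𝒪)) :=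
    PSC.residue_comp_C_surjective (σ := Fin d) (R := 𝒪)
  -- the evaluation maps
  have hex : ∀ n (hn : 1 ≤ n), ∃ f : MvPowerSeries (Fin d) 𝒪 →ₐ[𝒪] Lam ⧸ Imin n,
      (∀ a, f (MvPowerSeries.X a) = Ideal.Quotient.mk (Imin n) (l a)) ∧ Function.Surjective f ∧
      ∀ k : ℕ, 𝔐 ^ k ≤ Imin n →
        maximalIdeal (MvPowerSeries (Fin d) 𝒪) ^ k ≤
          RingHom.ker (f : MvPowerSeries (Fin d) 𝒪 →+* Lam ⧸ Imin n) := fun n hn =>
    exists_surjective_evS_of_generators hTF 𝔐 h𝔐 hle l hl (hImin n hn).1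
      (hgen _ (hImin n hn).1)
  choose f hfX hfsurj hfker using hex
  have hmono : ∀ m n, 1 ≤ m → m ≤ n → Imin n ≤ Imin m := by
    intro m n hm hmn
    exact (hImin n (hm.trans hmn)).2.2.1 (Imin m) (hImin m hm).1
      ((Ideal.pow_le_pow_right hmn).trans (hImin m hm).2.1)
  have hne : Imin 1 ≠ ⊤ := by
    obtain ⟨hloc, -⟩ := hT1 _ (hImin 1 le_rfl).1
    exact Ideal.Quotient.nontrivial_iff.mp inferInstance
  have hfcompat : ∀ m n (hm : 1 ≤ m) (hmn : m ≤ n) (s : MvPowerSeries (Fin d) 𝒪),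
      Ideal.Quotient.factor (hmono m n hm hmn) (f n (hm.trans hmn) s) = f m hm s := by
    intro m n hm hmn s
    obtain ⟨hloc, hft⟩ := hT1 _ (hImin m hm).1
    have := evS_ext hft ((Ideal.Quotient.factorₐ 𝒪 (hmono m n hm hmn)).comp (f n (hm.trans hmn)))
      (f m hm) (fun a => by
        rw [AlgHom.comp_apply, hfX, hfX]
        rfl)
    exact congrArg (fun φ => φ s) this
  have hfmap : ∀ n h, (maximalIdeal (MvPowerSeries (Fin d) 𝒪)).map
      (f n h : MvPowerSeries (Fin d) 𝒪 →+* Lam ⧸ Imin n) =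
      𝔐.map (Ideal.Quotient.mk (Imin n)) := by
    intro n h
    obtain ⟨hloc, hft⟩ := hT1 _ (hImin n h).1
    rw [map_maximalIdeal_of_surjective (f n h : MvPowerSeries (Fin d) 𝒪 →+* Lam ⧸ Imin n)
      (hfsurj n h)]
    conv_rhs => rw [hcomap _ (hImin n h).1 hloc]
    rw [Ideal.map_comap_of_surjective _ Ideal.Quotient.mk_surjective]
  obtain ⟨R, i1, i2, i3, i4, i5, i6, u, hres, hO1a, hO1b⟩ :=
    exists_core 𝔐 Imin f hresS hne hmono hfcompat hfsurj
      (fun n h => hfker n h n (hImin n h).2.1) hfmap (fun n h => (hImin n h).2.2.2.2)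
  refine ⟨R, i1, i2, i3, i4, i5, i6, u, hres, hO1a, ?_, ?_⟩
  · intro n hn
    rw [hO1b n hn]
    exact (hImin n hn).1
  · intro I hI
    obtain ⟨n, hn, hnI⟩ := hpow I hI
    refine ⟨n, hn, ?_⟩
    rw [hO1b n hn]
    exact (hImin n hn).2.2.1 I hI hnI

end Main

end Fermat.Agent.S53.ProRepB

end
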