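import Fermat.Statements.S53

/-!
# S53 shared definitions (blueprint: see board / table `s53_tasks`)

Everything lives in `namespace Fermat.Agent.S53`.  Conventions:

* `GQ` is the absolute Galois group of `ℚ`, `M2 A` is `Matrix (Fin 2) (Fin 2) A`.
* representations are monoid homs `M : GQ →* M2 A`.
* `ofMat M hM : GaloisRepAdic A` is the representation on `Fin 2 → A` given by `M`.
-/

set_option autoImplicit false
set_option linter.unusedSectionVars false

noncomputable section

namespace Fermat.Agent.S53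

open IsLocalRing

/-- The absolute Galois group of `ℚ`. -/
abbrev GQ : Type := AlgebraicClosure ℚ ≃ₐ[ℚ] AlgebraicClosure ℚ

/-- `2 × 2` matrices. -/
abbrev M2 (A : Type) : Type := Matrix (Fin 2) (Fin 2) A

section MatRep

variable {A : Type} [CommRing A] [IsLocalRing A]

/-- Adic continuity of a matrix valued representation. -/
def MatCont (M : GQ →* M2 A) : Prop :=
  ∀ n : ℕ, ∃ L : IntermediateField ℚ (AlgebraicClosure ℚ), FiniteDimensional ℚ L ∧
    ∀ σ : GQ, (∀ x ∈ L, σ x = x) → ∀ i j, (M σ - 1) i j ∈ maximalIdeal A ^ n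

/-- A vector all of whose coordinates lie in an ideal `I` lies in `I • ⊤`. -/
theorem mem_smul_top_of_forall_mem {I : Ideal A} {v : Fin 2 → A} (hv : ∀ i, v i ∈ I) :
    v ∈ I • (⊤ : Submodule A (Fin 2 → A)) := by
  have : v = ∑ i, v i • (Pi.single i (1 : A) : Fin 2 → A) := by
    ext j
    simp [Finset.sum_apply, Pi.single_apply]
  rw [this]
  exact Submodule.sum_mem _ fun i _ => Submodule.smul_mem_smul (hv i) Submodule.mem_top

/-- The `GaloisRepAdic` on `Fin 2 → A` attached to a continuous matrix representation. -/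
noncomputable def ofMat (M : GQ →* M2 A) (hM : MatCont M) : GaloisRepAdic A where
  V := Fin 2 → A
  finrank_eq := by simp
  ρ := (Matrix.toLinAlgEquiv' (R := A) (n := Fin 2) : M2 A →* Module.End A (Fin 2 → A)).comp M
  isAdicContinuous := by
    intro n
    obtain ⟨L, hL, h⟩ := hM n
    refine ⟨L, hL, fun σ hσ v => ?_⟩
    apply mem_smul_top_of_forall_mem
    intro i
    have h1 : (((Matrix.toLinAlgEquiv' (R := A) (n := Fin 2) :
        M2 A →* Module.End A (Fin 2 → A)).comp M) σ v - v) i = ((M σ - 1).mulVec v) i := by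
      simp [Matrix.sub_mulVec]
    rw [h1, Matrix.mulVec, dotProduct]
    exact Ideal.sum_mem _ fun j _ => Ideal.mul_mem_right _ _ (h σ hσ i j)

@[simp] theorem ofMat_V (M : GQ →* M2 A) (hM : MatCont M) : (ofMat M hM).V = (Fin 2 → A) := rfl

theorem ofMat_ρ_apply (M : GQ →* M2 A) (hM : MatCont M) (σ : GQ) (v : Fin 2 → A) :
    (ofMat M hM).ρ σ v = (M σ).mulVec v := rfl

/-- Push a matrix representation forward along a ring hom. -/
def mapMat {B : Type} [CommRing B] (φ : A →+* B) (M : GQ →* M2 A) : GQ →* M2 B :=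
  ((φ.mapMatrix : M2 A →+* M2 B) : M2 A →* M2 B).comp M

@[simp] theorem mapMat_apply {B : Type} [CommRing B] (φ : A →+* B) (M : GQ →* M2 A) (σ : GQ)
    (i j : Fin 2) : mapMat φ M σ i j = φ (M σ i j) := rfl

end MatRep

section TestAlgebras

variable (𝒪 : Type) [CommRing 𝒪] [IsLocalRing 𝒪]

/-- Finite test algebras: finite local `𝒪`-algebras with local structure map and residue
field generated by `𝒪`. -/
structure FinTest (A : Type) [CommRing A] [IsLocalRing A] [Algebra 𝒪 A] : Prop where
  finite : Finite A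
  isLocalHom : IsLocalHom (algebraMap 𝒪 A)
  residue_surjective : Function.Surjective (IsLocalRing.residue A ∘ algebraMap 𝒪 A)

theorem FinTest.isArtinianTestAlgebra {A : Type} [CommRing A] [IsLocalRing A] [Algebra 𝒪 A]
    (h : FinTest 𝒪 A) : GaloisRep.IsArtinianTestAlgebra 𝒪 A :=
  haveI := h.finite
  ⟨h.isLocalHom, h.residue_surjective, inferInstance⟩

end TestAlgebras

section Lifts

variable {𝒪 : Type} [CommRing 𝒪] [IsLocalRing 𝒪]
variable (ρb : GQ →* M2 (ResidueField 𝒪))

/-- `M` is a strict lift of the residual matrix representation `ρb`: every entry of `M σ` is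
congruent modulo the maximal ideal to (the image of) any lift to `𝒪` of the corresponding entry
of `ρb σ`. -/
def Strict {A : Type} [CommRing A] [IsLocalRing A] [Algebra 𝒪 A] (M : GQ →* M2 A) : Prop :=
  ∀ (σ : GQ) (i j : Fin 2) (c : 𝒪), residue 𝒪 c = ρb σ i j →
    M σ i j - algebraMap 𝒪 A c ∈ maximalIdeal A

/-- The three "slice" coordinates: the matrix `!![0, x 0; x 1, x 2]`. -/
def Wmat {A : Type} [CommRing A] (x : Fin 3 → A) : M2 A := !![0, x 0; x 1, x 2]

/-- Slice data for `ρb`: finitely many group elements `g a`, three `𝒪`-linear functionals `ℓ b`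
on tuples of matrices and three constants `κ b`, such that `ρb` is normalised and the derivative
`x ↦ ℓ ([Wmat x, ρb (g a)])_a` of the conjugation action is the identity of `k³`. -/
structure SliceData where
  m : ℕ
  g : Fin m → GQ
  ℓ : Fin 3 → Fin m → Fin 2 → Fin 2 → 𝒪
  κ : Fin 3 → 𝒪
  hκ : ∀ b, residue 𝒪 (κ b) = ∑ a, ∑ i, ∑ j, residue 𝒪 (ℓ b a i j) * ρb (g a) i j
  hD : ∀ (b : Fin 3) (x : Fin 3 → ResidueField 𝒪),
    ∑ a, ∑ i, ∑ j, residue 𝒪 (ℓ b a i j) * (Wmat x * ρb (g a) - ρb (g a) * Wmat x) i j = x b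

variable {ρb}

/-- The normalisation functional. -/
def nrm (sd : SliceData ρb) {A : Type} [CommRing A] [Algebra 𝒪 A] (M : GQ → M2 A) (b : Fin 3) : A :=
  ∑ a, ∑ i, ∑ j, algebraMap 𝒪 A (sd.ℓ b a i j) * M (sd.g a) i j

/-- `M` is normalised with respect to the slice data. -/
def Normalized (sd : SliceData ρb) {A : Type} [CommRing A] [Algebra 𝒪 A] (M : GQ → M2 A) : Prop :=
  ∀ b, nrm sd M b = algebraMap 𝒪 A (sd.κ b)

/-- `M` is a normalised strict lift of type `𝒟`. -/
structure IsNLift (sd : SliceData ρb)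
    (𝒟 : ∀ ⦃A : Type⦄ [CommRing A] [IsLocalRing A] [Algebra 𝒪 A], GaloisRepAdic A → Prop)
    {A : Type} [CommRing A] [IsLocalRing A] [Algebra 𝒪 A] (M : GQ →* M2 A) : Prop where
  strict : Strict ρb M
  normalized : Normalized sd M
  isType : ∃ h : MatCont M, 𝒟 (ofMat M h)

end Lifts

section Residual

/-- Matrix form of a residual representation with respect to the basis
`Module.finBasisOfFinrankEq k ρbar.V ρbar.finrank_eq`. -/
def resMat {k : Type} [Field k] (ρbar : ResidualGaloisRep k) : GQ →* M2 k :=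
  ((LinearMap.toMatrixAlgEquiv (Module.finBasisOfFinrankEq k ρbar.V ρbar.finrank_eq) :
    Module.End k ρbar.V ≃ₐ[k] M2 k) : Module.End k ρbar.V →* M2 k).comp ρbar.ρ

/-- The `𝒪`-algebra structure on `k[ε]` used in `GaloisRep.TangentFinite` (NOT the one coming
from `TrivSqZeroExt.algebra'`; always introduce it with `letI := dualNumberAlgebra 𝒪`). -/
@[reducible] def dualNumberAlgebra (𝒪 : Type) [CommRing 𝒪] [IsLocalRing 𝒪] :
    Algebra 𝒪 (DualNumber (ResidueField 𝒪)) :=
  ((algebraMap (ResidueField 𝒪) (DualNumber (ResidueField 𝒪))).comp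
    (algebraMap 𝒪 (ResidueField 𝒪))).toAlgebra

end Residual

end Fermat.Agent.S53

end
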