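/-
S53, task T4 (slice lemma), abstract part: a multivariable Hensel lemma for maps of the form
`Φ x = e + L x + B x x` on `ι → A` with `e ≡ 0`, `L ≡ id` modulo an ideal `I` (`A` being
`I`-adically complete / separated).
-/
import Mathlib

set_option autoImplicit false

namespace Fermat.Agent.S53.Slice

variable {A : Type*} [CommRing A] {ι : Type*}

/-- A self-map `Φ` of `ι → A` which is "the identity modulo `I`" on vectors with entries in `I`:
`Φ 0 ≡ 0 mod I` and `Φ x - Φ y ≡ x - y mod I * K` whenever `x ≡ y mod K`. -/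
structure IsContractive (I : Ideal A) (Φ : (ι → A) → (ι → A)) : Prop where
  zero_mem : ∀ b, Φ 0 b ∈ I
  diff : ∀ (K : Ideal A) (x y : ι → A), (∀ b, x b ∈ I) → (∀ b, y b ∈ I) →
    (∀ b, x b - y b ∈ K) → ∀ b, Φ x b - Φ y b - (x b - y b) ∈ I * K

theorem IsContractive.unique {I : Ideal A} [IsHausdorff I A] {Φ : (ι → A) → (ι → A)}
    (h : IsContractive I Φ) {x y : ι → A} (hx : ∀ b, x b ∈ I) (hy : ∀ b, y b ∈ I)
    (hxy : Φ x = Φ y) : x = y := by
  have key : ∀ n : ℕ, ∀ b, x b - y b ∈ I ^ n := by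
    intro n
    induction n with
    | zero => intro b; simp
    | succ n ih =>
      intro b
      have h1 := h.diff (I ^ n) x y hx hy ih b
      rw [hxy, sub_self, zero_sub, neg_mem_iff, ← pow_succ'] at h1
      exact h1
  funext b
  have h0 : x b - y b = 0 := by
    apply IsHausdorff.haus (I := I) inferInstance
    intro n
    rw [SModEq.sub_mem, sub_zero]
    simpa using key n b
  exact sub_eq_zero.mp h0

/-- The Newton sequence `x₀ = 0`, `x_{n+1} = x_n - Φ x_n`. -/
def newtonSeq (Φ : (ι → A) → (ι → A)) : ℕ → (ι → A)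
  | 0 => 0
  | n + 1 => newtonSeq Φ n - Φ (newtonSeq Φ n)

theorem IsContractive.newtonSeq_spec {I : Ideal A} {Φ : (ι → A) → (ι → A)}
    (h : IsContractive I Φ) (n : ℕ) :
    (∀ b, newtonSeq Φ n b ∈ I) ∧ (∀ b, Φ (newtonSeq Φ n) b ∈ I ^ (n + 1)) := by
  induction n with
  | zero =>
    refine ⟨fun b => by simp [newtonSeq], fun b => ?_⟩
    simpa [newtonSeq] using h.zero_mem b
  | succ n ih =>
    obtain ⟨ih1, ih2⟩ := ih
    have hle : I ^ (n + 1) ≤ I := by
      calc I ^ (n + 1) ≤ I ^ 1 := Ideal.pow_le_pow_right (by omega)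
        _ = I := pow_one I
    have hmem : ∀ b, newtonSeq Φ (n + 1) b ∈ I := by
      intro b
      simp only [newtonSeq, Pi.sub_apply]
      exact I.sub_mem (ih1 b) (hle (ih2 b))
    refine ⟨hmem, fun b => ?_⟩
    have hdiff : ∀ b, newtonSeq Φ n b - newtonSeq Φ (n + 1) b ∈ I ^ (n + 1) := by
      intro b
      simp only [newtonSeq, Pi.sub_apply, sub_sub_cancel]
      exact ih2 b
    have h1 := h.diff (I ^ (n + 1)) (newtonSeq Φ n) (newtonSeq Φ (n + 1)) ih1 hmem hdiff b
    have h2 : newtonSeq Φ n b - newtonSeq Φ (n + 1) b = Φ (newtonSeq Φ n) b := by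
      simp only [newtonSeq, Pi.sub_apply, sub_sub_cancel]
    rw [h2, sub_sub_cancel_left, neg_mem_iff, ← pow_succ'] at h1
    exact h1

theorem IsContractive.newtonSeq_cauchy {I : Ideal A} {Φ : (ι → A) → (ι → A)}
    (h : IsContractive I Φ) {m n : ℕ} (hmn : m ≤ n) (b : ι) :
    newtonSeq Φ m b - newtonSeq Φ n b ∈ I ^ m := by
  induction n, hmn using Nat.le_induction with
  | base => simp
  | succ n hmn ih =>
    have h2 : newtonSeq Φ n b - newtonSeq Φ (n + 1) b = Φ (newtonSeq Φ n) b := by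
      simp only [newtonSeq, Pi.sub_apply, sub_sub_cancel]
    have h3 : newtonSeq Φ n b - newtonSeq Φ (n + 1) b ∈ I ^ m := by
      rw [h2]
      exact Ideal.pow_le_pow_right (by omega) ((h.newtonSeq_spec n).2 b)
    have := (I ^ m).add_mem ih h3
    simpa using this

theorem IsContractive.exists_zero {I : Ideal A} [IsPrecomplete I A] [IsHausdorff I A]
    {Φ : (ι → A) → (ι → A)} (h : IsContractive I Φ) :
    ∃ x : ι → A, (∀ b, x b ∈ I) ∧ Φ x = 0 := by
  have hlim : ∀ b, ∃ L : A, ∀ n, newtonSeq Φ n b - L ∈ I ^ n := by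
    intro b
    obtain ⟨L, hL⟩ := IsPrecomplete.prec (I := I) (M := A) inferInstance
      (f := fun n => newtonSeq Φ n b) (by
        intro m n hmn
        rw [SModEq.sub_mem]
        simpa using h.newtonSeq_cauchy hmn b)
    refine ⟨L, fun n => ?_⟩
    have := hL n
    rw [SModEq.sub_mem] at this
    simpa using this
  choose x hx using hlim
  have hxI : ∀ b, x b ∈ I := by
    intro b
    have h1 := hx b 1
    rw [pow_one] at h1
    have h2 := (h.newtonSeq_spec 1).1 b
    have := I.sub_mem h2 h1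
    simpa using this
  refine ⟨x, hxI, ?_⟩
  funext b
  apply IsHausdorff.haus (I := I) inferInstance
  intro n
  rw [SModEq.sub_mem, sub_zero]
  suffices hmem : Φ x b ∈ I ^ n by simpa using hmem
  have hdiff : ∀ b, x b - newtonSeq Φ n b ∈ I ^ n := by
    intro b
    have := (I ^ n).neg_mem (hx b n)
    simpa using this
  have h1 := h.diff (I ^ n) x (newtonSeq Φ n) hxI (h.newtonSeq_spec n).1 hdiff b
  have h2 : I * I ^ n ≤ I ^ n := Ideal.mul_le_right
  have h3 : Φ (newtonSeq Φ n) b ∈ I ^ n :=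
    Ideal.pow_le_pow_right (by omega) ((h.newtonSeq_spec n).2 b)
  have h4 := (I ^ n).add_mem ((I ^ n).add_mem (h2 h1) h3) (hdiff b)
  have h5 : Φ x b - Φ (newtonSeq Φ n) b - (x b - newtonSeq Φ n b) + Φ (newtonSeq Φ n) b +
      (x b - newtonSeq Φ n b) = Φ x b := by ring
  rwa [h5] at h4

section Bilin

variable [Fintype ι] [DecidableEq ι]

omit [Fintype ι] in
private lemma single_eq (c : ι) :
    (fun j => if c = j then (1 : A) else 0) = Pi.single c 1 := by
  funext j
  by_cases hcj : c = j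
  · subst hcj; simp
  · simp [hcj]

theorem linear_apply_mem (T : (ι → A) →ₗ[A] (ι → A)) (I' K : Ideal A)
    (hT : ∀ c b, T (Pi.single c 1) b ∈ I') (v : ι → A) (hv : ∀ c, v c ∈ K) (b : ι) :
    T v b ∈ I' * K := by
  rw [LinearMap.pi_apply_eq_sum_univ T v, Finset.sum_apply]
  refine Ideal.sum_mem _ fun c _ => ?_
  rw [single_eq, Pi.smul_apply, smul_eq_mul, mul_comm I' K]
  exact Ideal.mul_mem_mul (hv c) (hT c b)

theorem bilin_apply_mem (B : (ι → A) →ₗ[A] (ι → A) →ₗ[A] (ι → A)) (K₁ K₂ : Ideal A)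
    (u v : ι → A) (hu : ∀ c, u c ∈ K₁) (hv : ∀ c, v c ∈ K₂) (b : ι) :
    B u v b ∈ K₁ * K₂ := by
  have h1 : ∀ c b, B (Pi.single c 1) v b ∈ K₂ := by
    intro c b
    have := linear_apply_mem (B (Pi.single c 1)) ⊤ K₂ (fun _ _ => Submodule.mem_top) v hv b
    simpa using this
  have h2 := linear_apply_mem (B.flip v) K₂ K₁ (fun c b => by simpa using h1 c b) u hu b
  rw [mul_comm] at h2
  simpa using h2

/-- Maps of the form `x ↦ e + L x + B x x` with `e ≡ 0` and `L ≡ id` modulo `I` are
contractive. -/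
theorem isContractive_of_bilin (I : Ideal A) (e : ι → A) (L : (ι → A) →ₗ[A] (ι → A))
    (B : (ι → A) →ₗ[A] (ι → A) →ₗ[A] (ι → A)) (he : ∀ b, e b ∈ I)
    (hL : ∀ c b, L (Pi.single c 1) b - (Pi.single c 1 : ι → A) b ∈ I) :
    IsContractive I (fun x => e + L x + B x x) where
  zero_mem b := by simpa using he b
  diff K x y hx hy hxy b := by
    let T : (ι → A) →ₗ[A] (ι → A) := L - LinearMap.id
    have hT : ∀ c b, T (Pi.single c 1) b ∈ I := by
      intro c b
      simpa [T] using hL c b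
    have h1 := linear_apply_mem T I K hT (x - y) hxy b
    have h2 := bilin_apply_mem B I K x (x - y) hx hxy b
    have h3 := bilin_apply_mem B K I (x - y) y hxy hy b
    rw [mul_comm] at h3
    have h4 := (I * K).add_mem ((I * K).add_mem h1 h2) h3
    have h5 : T (x - y) b + B x (x - y) b + B (x - y) y b =
        (e + L x + B x x) b - (e + L y + B y y) b - (x b - y b) := by
      simp only [T, LinearMap.sub_apply, LinearMap.id_apply, map_sub, Pi.sub_apply, Pi.add_apply]
      ring
    rwa [h5] at h4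

end Bilin

end Fermat.Agent.S53.Slice
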