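/-
S53, task T4: the slice lemma (`slice_exists`, `slice_unique`).
-/
import Fermat.Agent.S53.Defs
import Fermat.Agent.S53.SliceHensel

set_option autoImplicit false

noncomputable section

namespace Fermat.Agent.S53

open IsLocalRing

namespace Slice

/-! ### `Wmat` -/

section WmatLemmas

variable {A : Type} [CommRing A]

@[simp] lemma Wmat_zero_zero (x : Fin 3 → A) : Wmat x 0 0 = 0 := rfl
@[simp] lemma Wmat_zero_one (x : Fin 3 → A) : Wmat x 0 1 = x 0 := rfl
@[simp] lemma Wmat_one_zero (x : Fin 3 → A) : Wmat x 1 0 = x 1 := rfl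
@[simp] lemma Wmat_one_one (x : Fin 3 → A) : Wmat x 1 1 = x 2 := rfl

lemma Wmat_add (x y : Fin 3 → A) : Wmat (x + y) = Wmat x + Wmat y := by
  ext i j; fin_cases i <;> fin_cases j <;> simp

lemma Wmat_smul (c : A) (x : Fin 3 → A) : Wmat (c • x) = c • Wmat x := by
  ext i j; fin_cases i <;> fin_cases j <;> simp

lemma Wmat_zero : Wmat (0 : Fin 3 → A) = 0 := by
  ext i j; fin_cases i <;> fin_cases j <;> simp

lemma map_Wmat {B : Type} [CommRing B] (f : A →+* B) (x : Fin 3 → A) :
    f.mapMatrix (Wmat x) = Wmat (fun c => f (x c)) := by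
  ext i j; fin_cases i <;> fin_cases j <;> simp

lemma det_one_add_Wmat (x : Fin 3 → A) : (1 + Wmat x).det = 1 + x 2 - x 0 * x 1 := by
  rw [Matrix.det_fin_two]; simp

lemma adjugate_one_add_Wmat (x : Fin 3 → A) :
    (1 + Wmat x).adjugate = (1 + x 2) • (1 : M2 A) - Wmat x := by
  rw [Matrix.adjugate_fin_two]
  ext i j; fin_cases i <;> fin_cases j <;> simp

end WmatLemmas

/-! ### linearity of `nrm` -/

section Nrm

variable {𝒪 : Type} [CommRing 𝒪] [IsLocalRing 𝒪] {ρb : GQ →* M2 (ResidueField 𝒪)}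
  (sd : SliceData ρb) {A : Type} [CommRing A] [Algebra 𝒪 A]

lemma nrm_add (Y Y' : GQ → M2 A) (b : Fin 3) :
    nrm sd (fun σ => Y σ + Y' σ) b = nrm sd Y b + nrm sd Y' b := by
  simp only [nrm, Matrix.add_apply, mul_add, Finset.sum_add_distrib]

lemma nrm_sub (Y Y' : GQ → M2 A) (b : Fin 3) :
    nrm sd (fun σ => Y σ - Y' σ) b = nrm sd Y b - nrm sd Y' b := by
  simp only [nrm, Matrix.sub_apply, mul_sub, Finset.sum_sub_distrib]

lemma nrm_smul (c : A) (Y : GQ → M2 A) (b : Fin 3) :
    nrm sd (fun σ => c • Y σ) b = c * nrm sd Y b := by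
  simp only [nrm, Matrix.smul_apply, smul_eq_mul, Finset.mul_sum]
  refine Finset.sum_congr rfl fun a _ => Finset.sum_congr rfl fun i _ =>
    Finset.sum_congr rfl fun j _ => ?_
  ring

lemma nrm_zero (b : Fin 3) : nrm sd (fun _ => (0 : M2 A)) b = 0 := by
  simp [nrm]

end Nrm

/-! ### the quadratic map -/

section Quadratic

variable {𝒪 : Type} [CommRing 𝒪] [IsLocalRing 𝒪] {ρb : GQ →* M2 (ResidueField 𝒪)}
  (sd : SliceData ρb) {A : Type} [CommRing A] [Algebra 𝒪 A] (M : GQ → M2 A)

/-- The normalisation defect of `M`. -/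
def errv (b : Fin 3) : A := nrm sd M b - algebraMap 𝒪 A (sd.κ b)

/-- The map whose zeros `x` are the `1 + Wmat x` conjugating `M` to a normalised tuple
(denominators cleared). -/
def Gmap (x : Fin 3 → A) (b : Fin 3) : A :=
  nrm sd (fun σ => (1 + Wmat x) * M σ * (1 + Wmat x).adjugate) b
    - (1 + Wmat x).det * algebraMap 𝒪 A (sd.κ b)

/-- The linear part of `Gmap`. -/
def Lmap : (Fin 3 → A) →ₗ[A] (Fin 3 → A) where
  toFun x := fun b => x 2 * errv sd M b + nrm sd (fun σ => Wmat x * M σ - M σ * Wmat x) b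
  map_add' x y := by
    funext b
    have h : (fun σ => Wmat (x + y) * M σ - M σ * Wmat (x + y)) =
        fun σ => (Wmat x * M σ - M σ * Wmat x) + (Wmat y * M σ - M σ * Wmat y) := by
      funext σ; rw [Wmat_add]; noncomm_ring
    simp only [h, nrm_add, Pi.add_apply]
    ring
  map_smul' c x := by
    funext b
    have h : (fun σ => Wmat (c • x) * M σ - M σ * Wmat (c • x)) =
        fun σ => c • (Wmat x * M σ - M σ * Wmat x) := by
      funext σ; rw [Wmat_smul]; simp [smul_sub]
    simp only [h, nrm_smul, Pi.smul_apply, smul_eq_mul, RingHom.id_apply]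
    ring

lemma Lmap_apply (x : Fin 3 → A) (b : Fin 3) :
    Lmap sd M x b = x 2 * errv sd M b + nrm sd (fun σ => Wmat x * M σ - M σ * Wmat x) b := rfl

/-- The quadratic part of `Gmap`, as a bilinear map. -/
def Bmap : (Fin 3 → A) →ₗ[A] (Fin 3 → A) →ₗ[A] (Fin 3 → A) :=
  LinearMap.mk₂ A
    (fun x y => fun b => x 2 * nrm sd (fun σ => Wmat y * M σ) b
      - nrm sd (fun σ => Wmat x * M σ * Wmat y) b + x 0 * y 1 * algebraMap 𝒪 A (sd.κ b))
    (by
      intro x x' y; funext b
      have h : (fun σ => Wmat (x + x') * M σ * Wmat y) =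
          fun σ => Wmat x * M σ * Wmat y + Wmat x' * M σ * Wmat y := by
        funext σ; rw [Wmat_add]; noncomm_ring
      simp only [h, nrm_add, Pi.add_apply]
      ring)
    (by
      intro c x y; funext b
      have h : (fun σ => Wmat (c • x) * M σ * Wmat y) =
          fun σ => c • (Wmat x * M σ * Wmat y) := by
        funext σ; rw [Wmat_smul]; simp
      simp only [h, nrm_smul, Pi.smul_apply, smul_eq_mul]
      ring)
    (by
      intro x y y'; funext b
      have h : (fun σ => Wmat x * M σ * Wmat (y + y')) =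
          fun σ => Wmat x * M σ * Wmat y + Wmat x * M σ * Wmat y' := by
        funext σ; rw [Wmat_add]; noncomm_ring
      have h' : (fun σ => Wmat (y + y') * M σ) =
          fun σ => Wmat y * M σ + Wmat y' * M σ := by
        funext σ; rw [Wmat_add]; noncomm_ring
      simp only [h, h', nrm_add, Pi.add_apply]
      ring)
    (by
      intro c x y; funext b
      have h : (fun σ => Wmat x * M σ * Wmat (c • y)) =
          fun σ => c • (Wmat x * M σ * Wmat y) := by
        funext σ; rw [Wmat_smul]; simp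
      have h' : (fun σ => Wmat (c • y) * M σ) = fun σ => c • (Wmat y * M σ) := by
        funext σ; rw [Wmat_smul]; simp
      simp only [h, h', nrm_smul, Pi.smul_apply, smul_eq_mul]
      ring)

lemma Bmap_apply (x y : Fin 3 → A) (b : Fin 3) :
    Bmap sd M x y b = x 2 * nrm sd (fun σ => Wmat y * M σ) b
      - nrm sd (fun σ => Wmat x * M σ * Wmat y) b + x 0 * y 1 * algebraMap 𝒪 A (sd.κ b) := rfl

lemma Gmap_eq (x : Fin 3 → A) :
    Gmap sd M x = errv sd M + Lmap sd M x + Bmap sd M x x := by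
  funext b
  have h : (fun σ => (1 + Wmat x) * M σ * (1 + Wmat x).adjugate) =
      fun σ => (((1 + x 2) • M σ + (1 + x 2) • (Wmat x * M σ)) - M σ * Wmat x)
        - Wmat x * M σ * Wmat x := by
    funext σ
    rw [adjugate_one_add_Wmat]
    simp only [mul_sub, add_mul, one_mul, Matrix.mul_smul, mul_one]
    abel
  simp only [Gmap, h, nrm_sub, nrm_add, nrm_smul, det_one_add_Wmat, Pi.add_apply, Lmap_apply,
    Bmap_apply, errv]
  ring

lemma Gmap_zero (b : Fin 3) : Gmap sd M 0 b = errv sd M b := by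
  simp [Gmap, errv, Wmat_zero]

end Quadratic

/-! ### residue computations -/

section Residue

variable {𝒪 : Type} [CommRing 𝒪] [IsLocalRing 𝒪] {ρb : GQ →* M2 (ResidueField 𝒪)}
  (sd : SliceData ρb)

/-- `hD` of the slice data, transported along a ring hom `ψ` out of the residue field and
extended by linearity to arbitrary vectors. -/
lemma hD_map {B : Type} [CommRing B] (ψ : ResidueField 𝒪 →+* B) (b : Fin 3) (x : Fin 3 → B) :
    ∑ a, ∑ i, ∑ j, ψ (residue 𝒪 (sd.ℓ b a i j)) *
      (Wmat x * ψ.mapMatrix (ρb (sd.g a)) - ψ.mapMatrix (ρb (sd.g a)) * Wmat x) i j = x b := by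
  -- the left hand side is linear in `x`
  have hlin : ∀ y : Fin 3 → B, (∑ a, ∑ i, ∑ j, ψ (residue 𝒪 (sd.ℓ b a i j)) *
      (Wmat y * ψ.mapMatrix (ρb (sd.g a)) - ψ.mapMatrix (ρb (sd.g a)) * Wmat y) i j) =
      ∑ c, y c * (∑ a, ∑ i, ∑ j, ψ (residue 𝒪 (sd.ℓ b a i j)) *
        (Wmat (Pi.single c (1 : B)) * ψ.mapMatrix (ρb (sd.g a))
          - ψ.mapMatrix (ρb (sd.g a)) * Wmat (Pi.single c (1 : B))) i j) := by
    intro y
    simp only [Fin.sum_univ_three, Finset.mul_sum, ← Finset.sum_add_distrib]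
    refine Finset.sum_congr rfl fun a _ => ?_
    simp only [Fin.sum_univ_two, Matrix.sub_apply, Matrix.mul_apply, Wmat_zero_zero,
      Wmat_zero_one, Wmat_one_zero, Wmat_one_one]
    simp
    ring
  -- on basis vectors use `sd.hD`
  have hbasis : ∀ c : Fin 3, (∑ a, ∑ i, ∑ j, ψ (residue 𝒪 (sd.ℓ b a i j)) *
      (Wmat (Pi.single c (1 : B)) * ψ.mapMatrix (ρb (sd.g a))
        - ψ.mapMatrix (ρb (sd.g a)) * Wmat (Pi.single c (1 : B))) i j) =
      (Pi.single c 1 : Fin 3 → B) b := by
    intro c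
    have h := congrArg ψ (sd.hD b (Pi.single c 1))
    simp only [map_sum, map_mul] at h
    have hW : Wmat (Pi.single c (1 : B)) = ψ.mapMatrix (Wmat (Pi.single c 1)) := by
      rw [map_Wmat]
      congr 1
      funext d
      by_cases hd : d = c
      · subst hd; simp
      · simp [Pi.single_eq_of_ne hd]
    have hrhs : ψ ((Pi.single c 1 : Fin 3 → ResidueField 𝒪) b) = (Pi.single c 1 : Fin 3 → B) b := by
      by_cases hb : b = c
      · subst hb; simp
      · simp [Pi.single_eq_of_ne hb]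
    rw [hrhs] at h
    rw [← h, hW]
    refine Finset.sum_congr rfl fun a _ => Finset.sum_congr rfl fun i _ =>
      Finset.sum_congr rfl fun j _ => ?_
    rw [← map_mul, ← map_mul, ← map_sub]
    rfl
  rw [hlin x]
  simp only [hbasis]
  simp [Pi.single_apply]

variable {A : Type} [CommRing A] [IsLocalRing A] [Algebra 𝒪 A] [IsLocalHom (algebraMap 𝒪 A)]

/-- The map `k → k_A` on residue fields. -/
abbrev resMap : ResidueField 𝒪 →+* ResidueField A := ResidueField.map (algebraMap 𝒪 A)

lemma residue_algebraMap (c : 𝒪) :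
    residue A (algebraMap 𝒪 A c) = resMap (A := A) (residue 𝒪 c) :=
  (ResidueField.map_residue (algebraMap 𝒪 A) c).symm

omit [IsLocalHom (algebraMap 𝒪 A)] in
lemma residue_nrm (Y : GQ → M2 A) (b : Fin 3) :
    residue A (nrm sd Y b) = ∑ a, ∑ i, ∑ j,
      residue A (algebraMap 𝒪 A (sd.ℓ b a i j)) * (residue A).mapMatrix (Y (sd.g a)) i j := by
  simp only [nrm, map_sum, map_mul]
  rfl

lemma strict_iff (M : GQ → M2 A) :
    (∀ (σ : GQ) (i j : Fin 2) (c : 𝒪), residue 𝒪 c = ρb σ i j →
      M σ i j - algebraMap 𝒪 A c ∈ maximalIdeal A) ↔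
    ∀ σ, (residue A).mapMatrix (M σ) = (resMap (A := A)).mapMatrix (ρb σ) := by
  constructor
  · intro h σ
    ext i j
    obtain ⟨c, hc⟩ := residue_surjective (ρb σ i j)
    have h1 := h σ i j c hc
    rw [← residue_eq_zero_iff, map_sub, sub_eq_zero, residue_algebraMap, hc] at h1
    exact h1
  · intro h σ i j c hc
    have h1 := congrFun (congrFun (h σ) i) j
    simp only [RingHom.mapMatrix_apply, Matrix.map_apply] at h1
    rw [← residue_eq_zero_iff, map_sub, sub_eq_zero, residue_algebraMap, hc]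
    exact h1

lemma errv_mem (M : GQ → M2 A)
    (hs : ∀ σ, (residue A).mapMatrix (M σ) = (resMap (A := A)).mapMatrix (ρb σ)) (b : Fin 3) :
    errv sd M b ∈ maximalIdeal A := by
  rw [← residue_eq_zero_iff, errv, map_sub, sub_eq_zero, residue_nrm, residue_algebraMap,
    sd.hκ b]
  simp only [map_sum, map_mul, hs, residue_algebraMap]
  rfl

lemma nrm_comm_sub_mem (M : GQ → M2 A)
    (hs : ∀ σ, (residue A).mapMatrix (M σ) = (resMap (A := A)).mapMatrix (ρb σ))
    (y : Fin 3 → A) (b : Fin 3) :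
    nrm sd (fun σ => Wmat y * M σ - M σ * Wmat y) b - y b ∈ maximalIdeal A := by
  rw [← residue_eq_zero_iff, map_sub, sub_eq_zero, residue_nrm]
  simp only [map_sub, map_mul, hs, map_Wmat, residue_algebraMap]
  exact hD_map sd (resMap (A := A)) b (fun c => residue A (y c))

lemma Lmap_single_sub_mem (M : GQ → M2 A)
    (hs : ∀ σ, (residue A).mapMatrix (M σ) = (resMap (A := A)).mapMatrix (ρb σ))
    (c b : Fin 3) :
    Lmap sd M (Pi.single c 1) b - (Pi.single c 1 : Fin 3 → A) b ∈ maximalIdeal A := by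
  rw [Lmap_apply, add_sub_assoc]
  exact Ideal.add_mem _ (Ideal.mul_mem_left _ _ (errv_mem sd M hs b))
    (nrm_comm_sub_mem sd M hs _ b)

/-- `Gmap` is contractive for the maximal ideal. -/
lemma isContractive_Gmap (M : GQ → M2 A)
    (hs : ∀ σ, (residue A).mapMatrix (M σ) = (resMap (A := A)).mapMatrix (ρb σ)) :
    IsContractive (maximalIdeal A) (Gmap sd M) := by
  have h := isContractive_of_bilin (maximalIdeal A) (errv sd M) (Lmap sd M) (Bmap sd M)
    (errv_mem sd M hs) (Lmap_single_sub_mem sd M hs)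
  have heq : (fun x => errv sd M + Lmap sd M x + Bmap sd M x x) = Gmap sd M := by
    funext x; exact (Gmap_eq sd M x).symm
  rwa [heq] at h

end Residue

end Slice

/-! ### the slice lemma -/

section Main

open Slice

variable {𝒪 : Type} [CommRing 𝒪] [IsLocalRing 𝒪] {ρb : GQ →* M2 (ResidueField 𝒪)}
  (sd : SliceData ρb)
variable {A : Type} [CommRing A] [IsLocalRing A] [Algebra 𝒪 A] [IsLocalHom (algebraMap 𝒪 A)]

namespace Slice

lemma isUnit_det_one_add_Wmat {x : Fin 3 → A} (hx : ∀ c, x c ∈ maximalIdeal A) :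
    IsUnit (1 + Wmat x).det := by
  rw [det_one_add_Wmat]
  by_contra h
  have h1 : 1 + x 2 - x 0 * x 1 ∈ maximalIdeal A := (mem_maximalIdeal _).mpr h
  have h2 : (1 : A) ∈ maximalIdeal A := by
    have := Ideal.add_mem _ (Ideal.sub_mem _ h1 (hx 2)) (Ideal.mul_mem_left _ (x 0) (hx 1))
    have e : 1 + x 2 - x 0 * x 1 - x 2 + x 0 * x 1 = 1 := by ring
    rwa [e] at this
  exact (Ideal.ne_top_iff_one _).mp (IsLocalRing.maximalIdeal.isMaximal A).ne_top h2

lemma residue_one_add_Wmat {x : Fin 3 → A} (hx : ∀ c, x c ∈ maximalIdeal A) :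
    (residue A).mapMatrix (1 + Wmat x) = 1 := by
  rw [map_add, map_one, map_Wmat]
  have : (fun c => residue A (x c)) = 0 := by
    funext c; exact (residue_eq_zero_iff _).mpr (hx c)
  rw [this, Wmat_zero, add_zero]

omit [IsLocalRing A] [IsLocalHom (algebraMap 𝒪 A)] in
/-- If `Q = 1 + Wmat x` intertwines `M` and `M'`, then `Gmap sd M x = det Q • errv sd M'`. -/
lemma Gmap_of_intertwine (M M' : GQ → M2 A) (x : Fin 3 → A)
    (h : ∀ σ, (1 + Wmat x) * M σ = M' σ * (1 + Wmat x)) (b : Fin 3) :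
    Gmap sd M x b = (1 + Wmat x).det * errv sd M' b := by
  have h1 : (fun σ => (1 + Wmat x) * M σ * (1 + Wmat x).adjugate) =
      fun σ => (1 + Wmat x).det • M' σ := by
    funext σ
    rw [h σ, mul_assoc, Matrix.mul_adjugate, Matrix.mul_smul, mul_one]
  rw [Gmap, h1, nrm_smul, errv]
  ring

end Slice

theorem slice_exists [IsAdicComplete (maximalIdeal A) A] (M : GQ →* M2 A) (hs : Strict ρb M) :
    ∃ (P : (M2 A)ˣ) (M' : GQ →* M2 A), (∀ σ, (P : M2 A) * M σ = M' σ * P) ∧
      Strict ρb M' ∧ Normalized sd M' := by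
  have hs' := (strict_iff (ρb := ρb) (fun σ => M σ)).mp hs
  obtain ⟨x, hx, hGx⟩ := (isContractive_Gmap sd (fun σ => M σ) hs').exists_zero
  have hdet := isUnit_det_one_add_Wmat hx
  have hPu : IsUnit (1 + Wmat x) := (Matrix.isUnit_iff_isUnit_det _).mpr hdet
  let P : (M2 A)ˣ := hPu.unit
  have hPval : (P : M2 A) = 1 + Wmat x := rfl
  let M' : GQ →* M2 A :=
    { toFun := fun σ => (P : M2 A) * M σ * ((P⁻¹ : (M2 A)ˣ) : M2 A)
      map_one' := by simp
      map_mul' := fun a b => by
        simp only [map_mul]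
        calc (P : M2 A) * (M a * M b) * ((P⁻¹ : (M2 A)ˣ) : M2 A)
            = (P : M2 A) * M a * (((P⁻¹ : (M2 A)ˣ) : M2 A) * (P : M2 A)) * M b *
                ((P⁻¹ : (M2 A)ˣ) : M2 A) := by
              rw [Units.inv_mul, mul_one]; simp only [mul_assoc]
          _ = _ := by simp only [mul_assoc] }
  have hint : ∀ σ, (P : M2 A) * M σ = M' σ * P := by
    intro σ
    show (P : M2 A) * M σ = (P : M2 A) * M σ * ((P⁻¹ : (M2 A)ˣ) : M2 A) * (P : M2 A)
    rw [mul_assoc ((P : M2 A) * M σ), Units.inv_mul, mul_one]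
  refine ⟨P, M', hint, ?_, ?_⟩
  · -- strictness
    apply (strict_iff (ρb := ρb) (fun σ => M' σ)).mpr
    intro σ
    have h1 := congrArg (residue A).mapMatrix (hint σ)
    rw [map_mul, map_mul, hPval, residue_one_add_Wmat hx, one_mul, mul_one] at h1
    rw [← h1]
    exact hs' σ
  · -- normalisation
    intro b
    have h1 := Gmap_of_intertwine sd (fun σ => M σ) (fun σ => M' σ) x
      (fun σ => by rw [← hPval]; exact hint σ) b
    rw [hGx, Pi.zero_apply] at h1
    have h2 : errv sd (fun σ => M' σ) b = 0 := hdet.mul_right_eq_zero.mp h1.symm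
    exact sub_eq_zero.mp h2

/-- Alternative proof of the uniqueness half (the official `slice_unique` is in
`SliceUnique.lean`); kept under a different name to avoid a clash. -/
theorem Slice.slice_unique_alt [IsHausdorff (maximalIdeal A) A] (M M' : GQ →* M2 A)
    (hs : Strict ρb M) (hs' : Strict ρb M') (hn : Normalized sd M) (hn' : Normalized sd M')
    (P : (M2 A)ˣ) (hP : ∀ σ, (P : M2 A) * M σ = M' σ * P) : M = M' := by
  have hsM := (strict_iff (ρb := ρb) (fun σ => M σ)).mp hs
  have hsM' := (strict_iff (ρb := ρb) (fun σ => M' σ)).mp hs'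
  -- the residue of `P` commutes with the residual representation
  set Pb : M2 (ResidueField A) := (residue A).mapMatrix (P : M2 A) with hPb
  have hcomm : ∀ σ, Pb * (resMap (A := A)).mapMatrix (ρb σ) =
      (resMap (A := A)).mapMatrix (ρb σ) * Pb := by
    intro σ
    have h1 := congrArg (residue A).mapMatrix (hP σ)
    rw [map_mul, map_mul, hsM σ, hsM' σ] at h1
    exact h1
  -- hence it is scalar (Schur, encoded in the slice data)
  let xb : Fin 3 → ResidueField A := ![Pb 0 1, Pb 1 0, Pb 1 1 - Pb 0 0]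
  have hPb_eq : Pb = Pb 0 0 • (1 : M2 (ResidueField A)) + Wmat xb := by
    ext i j; fin_cases i <;> fin_cases j <;> simp [xb]
  have hW : ∀ σ, Wmat xb * (resMap (A := A)).mapMatrix (ρb σ)
      - (resMap (A := A)).mapMatrix (ρb σ) * Wmat xb = 0 := by
    intro σ
    have h1 := hcomm σ
    rw [hPb_eq] at h1
    simp only [add_mul, mul_add, Matrix.smul_mul, Matrix.mul_smul, one_mul, mul_one] at h1
    rw [sub_eq_zero]
    exact add_left_cancel h1
  have hxb : xb = 0 := by
    funext b
    have h := hD_map sd (resMap (A := A)) b xb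
    rw [Pi.zero_apply, ← h]
    refine Finset.sum_eq_zero fun a _ => Finset.sum_eq_zero fun i _ =>
      Finset.sum_eq_zero fun j _ => ?_
    rw [hW (sd.g a)]
    simp
  have h01 : Pb 0 1 = 0 := by simpa [xb] using congrFun hxb 0
  have h10 : Pb 1 0 = 0 := by simpa [xb] using congrFun hxb 1
  have h11 : Pb 1 1 = Pb 0 0 := by
    have := congrFun hxb 2
    simp only [xb, Matrix.cons_val_two, Matrix.tail_cons, Matrix.head_cons, Pi.zero_apply] at this
    exact sub_eq_zero.mp this
  -- `P 0 0` is a unit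
  have hu : IsUnit ((P : M2 A) 0 0) := by
    by_contra hnu
    have h00 : Pb 0 0 = 0 := by
      show residue A ((P : M2 A) 0 0) = 0
      exact (residue_eq_zero_iff _).mpr ((mem_maximalIdeal _).mpr hnu)
    have hPb0 : Pb = 0 := by
      rw [hPb_eq, hxb, Wmat_zero, h00, zero_smul, add_zero]
    have h1 : Pb * (residue A).mapMatrix ((P⁻¹ : (M2 A)ˣ) : M2 A) = 1 := by
      rw [hPb, ← map_mul, Units.mul_inv, map_one]
    rw [hPb0, zero_mul] at h1
    have := congrFun (congrFun h1 0) 0
    simp at this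
  obtain ⟨u, hu'⟩ := hu
  -- normalise `P` to `Q = 1 + Wmat x`
  let x : Fin 3 → A := ![(u⁻¹ : Aˣ) * (P : M2 A) 0 1, (u⁻¹ : Aˣ) * (P : M2 A) 1 0,
    (u⁻¹ : Aˣ) * (P : M2 A) 1 1 - 1]
  have hPQ : (P : M2 A) = (u : A) • (1 + Wmat x) := by
    ext i j
    fin_cases i <;> fin_cases j <;> simp [x, ← hu']
  have hx : ∀ c, x c ∈ maximalIdeal A := by
    intro c
    rw [← residue_eq_zero_iff]
    have e01 : residue A ((P : M2 A) 0 1) = 0 := h01
    have e10 : residue A ((P : M2 A) 1 0) = 0 := h10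
    have e11 : residue A ((P : M2 A) 1 1) = residue A ((P : M2 A) 0 0) := h11
    fin_cases c
    · simp [x, e01]
    · simp [x, e10]
    · show residue A (((u⁻¹ : Aˣ) : A) * (P : M2 A) 1 1 - 1) = 0
      rw [map_sub, map_mul, e11, ← hu', ← map_mul, Units.inv_mul, map_one, sub_self]
  have hQ : ∀ σ, (1 + Wmat x) * M σ = M' σ * (1 + Wmat x) := by
    intro σ
    have h1 := hP σ
    rw [hPQ, Matrix.smul_mul, Matrix.mul_smul] at h1
    have h2 := congrArg (fun Y => ((u⁻¹ : Aˣ) : A) • Y) h1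
    simpa [smul_smul] using h2
  -- `x = 0` by uniqueness of zeros of contractive maps
  have hG : Gmap sd (fun σ => M σ) x = Gmap sd (fun σ => M σ) 0 := by
    funext b
    rw [Gmap_of_intertwine sd (fun σ => M σ) (fun σ => M' σ) x hQ b, Gmap_zero]
    have e1 : errv sd (fun σ => M' σ) b = 0 := sub_eq_zero.mpr (hn' b)
    have e2 : errv sd (fun σ => M σ) b = 0 := sub_eq_zero.mpr (hn b)
    rw [e1, e2, mul_zero]
  have hx0 : x = 0 :=
    (isContractive_Gmap sd (fun σ => M σ) hsM).unique hx (fun _ => by simp) hG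
  ext σ : 1
  have h1 := hQ σ
  rw [hx0, Wmat_zero, add_zero, one_mul, mul_one] at h1
  exact h1

end Main

end Fermat.Agent.S53
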