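import Fermat.Agent.S53.Defs

/-!
# S53, task T3: existence of slice data (Schur's lemma + a linear left inverse)
-/

set_option autoImplicit false

noncomputable section

namespace Fermat.Agent.S53

open IsLocalRing TensorProduct

section Schur

variable {k : Type} [Field k] (ρbar : ResidualGaloisRep k)

/-- Schur's lemma in matrix form: a matrix commuting with the matrix form of an absolutely
irreducible residual representation is scalar. -/
theorem schur_resMat (habs : ρbar.IsAbsolutelyIrreducible) (X : M2 k)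
    (hX : ∀ σ : GQ, X * resMat ρbar σ = resMat ρbar σ * X) :
    X 0 1 = 0 ∧ X 1 0 = 0 ∧ X 0 0 = X 1 1 := by
  classical
  set K := AlgebraicClosure k
  set b := Module.finBasisOfFinrankEq k ρbar.V ρbar.finrank_eq with hb
  -- the endomorphism of `V` with matrix `X`
  set f : Module.End k ρbar.V := (LinearMap.toMatrixAlgEquiv b).symm X with hf
  have hfX : LinearMap.toMatrix b b f = X :=
    (LinearMap.toMatrixAlgEquiv b).apply_symm_apply X
  have hcomm : ∀ σ : GQ, f * ρbar.ρ σ = ρbar.ρ σ * f := by
    intro σ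
    apply (LinearMap.toMatrixAlgEquiv b).injective
    rw [map_mul, map_mul, hf, AlgEquiv.apply_symm_apply]
    exact hX σ
  -- base change to the algebraic closure
  set F : Module.End K (K ⊗[k] ρbar.V) := f.baseChange K with hF
  have hFcomm : ∀ σ : GQ, F * (ρbar.ρ σ).baseChange K = (ρbar.ρ σ).baseChange K * F := by
    intro σ
    rw [hF, ← LinearMap.baseChange_mul, ← LinearMap.baseChange_mul, hcomm σ]
  have : Nontrivial (K ⊗[k] ρbar.V) := by
    apply Module.nontrivial_of_finrank_pos (R := K)
    rw [Module.finrank_baseChange, ρbar.finrank_eq]; norm_num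
  obtain ⟨μ, hμ⟩ := Module.End.exists_eigenvalue F
  -- the eigenspace is Galois stable, hence everything
  have hstable : ∀ σ : GQ, ∀ x ∈ Module.End.eigenspace F μ,
      (ρbar.baseChange K).ρ σ x ∈ Module.End.eigenspace F μ := by
    intro σ x hx
    rw [Module.End.mem_eigenspace_iff] at hx ⊢
    have h1 : F ((ρbar.ρ σ).baseChange K x) = (ρbar.ρ σ).baseChange K (F x) := by
      have := congrArg (fun g : Module.End K (K ⊗[k] ρbar.V) => g x) (hFcomm σ)
      simpa [Module.End.mul_apply] using this
    show F ((ρbar.ρ σ).baseChange K x) = μ • (ρbar.ρ σ).baseChange K x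
    rw [h1, hx, map_smul]
  have htop : Module.End.eigenspace F μ = ⊤ := by
    rcases habs (Module.End.eigenspace F μ) hstable with h | h
    · exact absurd h hμ
    · exact h
  have hFμ : ∀ x, F x = μ • x := fun x =>
    Module.End.mem_eigenspace_iff.mp (htop ▸ Submodule.mem_top)
  -- compare matrices
  have hmat : X.map (algebraMap k K) = μ • (1 : M2 K) := by
    have h1 := LinearMap.toMatrix_baseChange K f b b
    rw [hfX] at h1
    rw [← h1]
    have : F = μ • (1 : Module.End K (K ⊗[k] ρbar.V)) := by
      ext x; simp [hFμ]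
    rw [← hF, this, map_smul]
    congr 1
    exact LinearMap.toMatrix_one _
  have inj := (algebraMap k K).injective
  have e01 := congrFun (congrFun hmat 0) 1
  have e10 := congrFun (congrFun hmat 1) 0
  have e00 := congrFun (congrFun hmat 0) 0
  have e11 := congrFun (congrFun hmat 1) 1
  simp at e01 e10 e00 e11
  refine ⟨?_, ?_, ?_⟩
  · exact inj (by rw [e01, map_zero])
  · exact inj (by rw [e10, map_zero])
  · exact inj (by rw [e00, e11])

end Schur

section Exists

theorem Wmat_add {A : Type} [CommRing A] (x y : Fin 3 → A) : Wmat (x + y) = Wmat x + Wmat y := by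
  ext i j; fin_cases i <;> fin_cases j <;> simp [Wmat]

theorem Wmat_smul {A : Type} [CommRing A] (c : A) (x : Fin 3 → A) : Wmat (c • x) = c • Wmat x := by
  ext i j; fin_cases i <;> fin_cases j <;> simp [Wmat]

/-- The commutator map `x ↦ ([Wmat x, N a])_a`, as a linear map. -/
def commMap {k : Type} [Field k] {m : ℕ} (N : Fin m → M2 k) :
    (Fin 3 → k) →ₗ[k] (Fin m → Fin 2 → Fin 2 → k) where
  toFun x := fun a i j => (Wmat x * N a - N a * Wmat x) i j
  map_add' x y := by
    ext a i j
    simp only [Wmat_add, add_mul, mul_add, Pi.add_apply, Matrix.sub_apply, Matrix.add_apply]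
    ring
  map_smul' c x := by
    ext a i j
    simp only [Wmat_smul, Matrix.smul_mul, Matrix.mul_smul, Pi.smul_apply, Matrix.sub_apply,
      Matrix.smul_apply, RingHom.id_apply, smul_eq_mul]
    ring

theorem exists_sliceData (𝒪 : Type) [CommRing 𝒪] [IsLocalRing 𝒪] [Finite (ResidueField 𝒪)]
    (ρbar : ResidualGaloisRep (ResidueField 𝒪)) (habs : ρbar.IsAbsolutelyIrreducible) :
    Nonempty (SliceData (resMat ρbar)) := by
  classical
  set k := ResidueField 𝒪
  set ρb := resMat ρbar with hρb
  -- enumerate the (finite) image of `ρb`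
  have : Finite (M2 k) := inferInstanceAs (Finite (Fin 2 → Fin 2 → k))
  have : Finite (Set.range ρb) := Subtype.finite
  obtain ⟨m, ⟨e⟩⟩ := Finite.exists_equiv_fin (Set.range ρb)
  have hex : ∀ a : Fin m, ∃ σ : GQ, ρb σ = (e.symm a : M2 k) := fun a => (e.symm a).2
  choose g hg using hex
  have hcover : ∀ σ : GQ, ∃ a, ρb (g a) = ρb σ := by
    intro σ
    refine ⟨e ⟨ρb σ, Set.mem_range_self σ⟩, ?_⟩
    rw [hg, Equiv.symm_apply_apply]
  -- the commutator map is injective by Schur
  set Φ := commMap (fun a => ρb (g a)) with hΦ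
  have hker : LinearMap.ker Φ = ⊥ := by
    rw [LinearMap.ker_eq_bot']
    intro x hx
    have hcomm : ∀ σ : GQ, Wmat x * ρb σ = ρb σ * Wmat x := by
      intro σ
      obtain ⟨a, ha⟩ := hcover σ
      rw [← ha]
      ext i j
      have := congrFun (congrFun (congrFun hx a) i) j
      simp only [hΦ, commMap, LinearMap.coe_mk, AddHom.coe_mk, Matrix.sub_apply, Pi.zero_apply]
        at this
      exact sub_eq_zero.mp this
    obtain ⟨h01, h10, h00⟩ := schur_resMat ρbar habs (Wmat x) hcomm
    simp only [Wmat, Matrix.of_apply, Matrix.cons_val', Matrix.cons_val_zero, Matrix.cons_val_one,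
      Matrix.cons_val_fin_one] at h01 h10 h00
    funext b
    fin_cases b
    · exact h01
    · exact h10
    · exact h00.symm
  obtain ⟨Ψ, hΨ⟩ := Φ.exists_leftInverse_of_injective hker
  -- coefficients of the left inverse
  set lam : Fin 3 → Fin m → Fin 2 → Fin 2 → k := fun b a i j =>
    Ψ (Pi.single a (Pi.single i (Pi.single j 1))) b with hlam
  have hΨ_eq : ∀ (b : Fin 3) (N : Fin m → Fin 2 → Fin 2 → k),
      Ψ N b = ∑ a, ∑ i, ∑ j, lam b a i j * N a i j := by
    intro b
    have : (LinearMap.proj b : (Fin 3 → k) →ₗ[k] k).comp Ψ =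
        ∑ a, ∑ i, ∑ j, lam b a i j •
          ((LinearMap.proj j : (Fin 2 → k) →ₗ[k] k).comp
            ((LinearMap.proj i : (Fin 2 → Fin 2 → k) →ₗ[k] (Fin 2 → k)).comp
              (LinearMap.proj a : (Fin m → Fin 2 → Fin 2 → k) →ₗ[k] (Fin 2 → Fin 2 → k)))) := by
      ext a i j
      simp [hlam, Pi.single_apply]
      fin_cases i <;> fin_cases j <;>
        simp [ite_apply, Finset.sum_ite_eq']
    intro N
    have h2 := congrArg (fun L : (Fin m → Fin 2 → Fin 2 → k) →ₗ[k] k => L N) this
    simpa using h2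
  choose ℓ hℓ using fun b a i j => residue_surjective (R := 𝒪) (lam b a i j)
  choose κ hκ using fun b : Fin 3 =>
    residue_surjective (R := 𝒪) (∑ a, ∑ i, ∑ j, residue 𝒪 (ℓ b a i j) * ρb (g a) i j)
  refine ⟨⟨m, g, ℓ, κ, hκ, ?_⟩⟩
  intro b x
  have h1 : Ψ (Φ x) b = x b := by
    have := congrArg (fun L : (Fin 3 → k) →ₗ[k] (Fin 3 → k) => L x b) hΨ
    simpa using this
  rw [← h1, hΨ_eq]
  refine Finset.sum_congr rfl fun a _ => Finset.sum_congr rfl fun i _ =>
    Finset.sum_congr rfl fun j _ => ?_
  rw [hℓ]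
  rfl

end Exists

end Fermat.Agent.S53

end
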