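import Fermat.Agent.S53.Filter
import Fermat.Agent.S53.CompleteLocal
import Fermat.Agent.S53.TestAlg

/-!
# S53: the universal normalised lift obtained from the output of `exists_proRep`

Input: `R` complete noetherian local `𝒪`-algebra and `u : Lam 𝒪 →ₐ[𝒪] R` with the properties
(O1a), (O1b), (O2) of `exists_proRep` for the filter `TT sd 𝒟`.  Output: the matrix representation
`Muniv σ i j = u (X (σ, i, j))` is a normalised strict lift of type `𝒟`, universal over finite
test algebras.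
-/

set_option autoImplicit false
set_option linter.unusedSectionVars false
set_option linter.style.haveILetI false

noncomputable section

namespace Fermat.Agent.S53.UnivLift

open IsLocalRing MvPolynomial Fermat.Agent.S53

theorem eq_zero_of_forall_mem_pow {S : Type} [CommRing S] (I : Ideal S) [IsHausdorff I S] {x : S}
    (h : ∀ n : ℕ, x ∈ I ^ n) : x = 0 := by
  apply IsHausdorff.haus ‹IsHausdorff I S› x
  intro n
  rw [SModEq.zero]
  have : (I ^ n • ⊤ : Submodule S S) = I ^ n := by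
    rw [smul_eq_mul, Ideal.mul_top]
  rw [this]
  exact h n

/-- An `𝒪`-algebra homomorphism into a local `𝒪`-algebra whose residue field is generated by `𝒪`
maps the maximal ideal into the maximal ideal. -/
theorem algHom_mem_maximalIdeal {𝒪 : Type} [CommRing 𝒪] {A B : Type} [CommRing A] [IsLocalRing A]
    [Algebra 𝒪 A] [CommRing B] [IsLocalRing B] [Algebra 𝒪 B]
    (hres : Function.Surjective (IsLocalRing.residue B ∘ algebraMap 𝒪 B)) (φ : A →ₐ[𝒪] B)
    {a : A} (ha : a ∈ maximalIdeal A) : φ a ∈ maximalIdeal B := by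
  have hsurj : Function.Surjective ((residue B).comp (φ : A →+* B)) := by
    intro x
    obtain ⟨c, hc⟩ := hres x
    refine ⟨algebraMap 𝒪 A c, ?_⟩
    rw [RingHom.comp_apply, AlgHom.coe_toRingHom, AlgHom.commutes]
    exact hc
  have hmax := RingHom.ker_isMaximal_of_surjective _ hsurj
  have hker := IsLocalRing.eq_maximalIdeal hmax
  have h1 : a ∈ RingHom.ker ((residue B).comp (φ : A →+* B)) := by
    rw [hker]; exact ha
  rw [RingHom.mem_ker, RingHom.comp_apply, residue_eq_zero_iff] at h1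
  exact h1

theorem algHom_mem_maximalIdeal_pow {𝒪 : Type} [CommRing 𝒪] {A B : Type} [CommRing A]
    [IsLocalRing A] [Algebra 𝒪 A] [CommRing B] [IsLocalRing B] [Algebra 𝒪 B]
    (hres : Function.Surjective (IsLocalRing.residue B ∘ algebraMap 𝒪 B)) (φ : A →ₐ[𝒪] B)
    (n : ℕ) {a : A} (ha : a ∈ maximalIdeal A ^ n) : φ a ∈ maximalIdeal B ^ n := by
  have h1 : (maximalIdeal A).map (φ : A →+* B) ≤ maximalIdeal B := by
    rw [Ideal.map_le_iff_le_comap]
    intro x hx
    exact algHom_mem_maximalIdeal hres φ hx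
  have h2 : (maximalIdeal A ^ n).map (φ : A →+* B) ≤ maximalIdeal B ^ n := by
    rw [Ideal.map_pow]
    exact Ideal.pow_right_mono h1 n
  exact h2 (Ideal.mem_map_of_mem _ ha)

section Main

variable {𝒪 : Type} [CommRing 𝒪] [IsLocalRing 𝒪] {ρb : GQ →* M2 (ResidueField 𝒪)}
  {sd : SliceData ρb}
  {𝒟 : ∀ ⦃A : Type⦄ [CommRing A] [IsLocalRing A] [Algebra 𝒪 A], GaloisRepAdic A → Prop}
variable {R : Type} [CommRing R] [IsLocalRing R] [IsNoetherianRing R]
  [IsAdicComplete (maximalIdeal R) R] [Algebra 𝒪 R]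
variable (u : Lam 𝒪 →ₐ[𝒪] R)

/-- The ideals `comap u (𝔪_R ^ n)`. -/
abbrev Ilev (n : ℕ) : Ideal (Lam 𝒪) := Ideal.comap u (maximalIdeal R ^ n)

variable (hO1b : ∀ n : ℕ, 1 ≤ n → Ideal.comap u (maximalIdeal R ^ n) ∈ TT sd 𝒟)

include hO1b in
/-- An element of `Lam` lying in every ideal of the filter is killed by `u`. -/
theorem u_eq_zero_of_forall_mem {l : Lam 𝒪} (h : ∀ I ∈ TT sd 𝒟, l ∈ I) : u l = 0 := by
  apply eq_zero_of_forall_mem_pow (maximalIdeal R)
  intro n
  rcases Nat.eq_zero_or_pos n with rfl | hn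
  · simp
  · exact h _ (hO1b n hn)

/-- The universal matrix representation. -/
def Muniv : GQ →* M2 R where
  toFun σ := Matrix.of fun i j => u (X (σ, i, j))
  map_one' := by
    ext i j
    have h := u_eq_zero_of_forall_mem u hO1b (l := oneRel 𝒪 i j) (fun I hI => TT_oneRel_mem hI i j)
    rw [oneRel, map_sub, sub_eq_zero] at h
    rw [Matrix.of_apply, h, Matrix.one_apply]
    split_ifs <;> simp
  map_mul' σ τ := by
    ext i j
    have h := u_eq_zero_of_forall_mem u hO1b (l := mulRel 𝒪 σ τ i j)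
      (fun I hI => TT_mulRel_mem hI σ τ i j)
    rw [mulRel, map_sub, sub_eq_zero] at h
    rw [Matrix.of_apply, ← h, Matrix.mul_apply, map_sum]
    simp

@[simp] theorem Muniv_apply (σ : GQ) (i j : Fin 2) :
    Muniv u hO1b σ i j = u (X (σ, i, j)) := rfl

theorem evL_Muniv : evL (𝒪 := 𝒪) (Muniv u hO1b : GQ → M2 R) = u := by
  symm
  apply evL_unique
  intro σ i j
  rfl

/-- The normalisation relation. -/
def nrmRel (sd : SliceData ρb) (b : Fin 3) : Lam 𝒪 :=
  ∑ a, ∑ i, ∑ j, C (sd.ℓ b a i j) * X (sd.g a, i, j) - C (sd.κ b)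

theorem algHom_nrmRel {B : Type} [CommRing B] [Algebra 𝒪 B] (f : Lam 𝒪 →ₐ[𝒪] B) (b : Fin 3) :
    f (nrmRel sd b) =
      nrm sd (fun σ => (Matrix.of fun i j => f (X (σ, i, j)) : M2 B)) b
        - algebraMap 𝒪 B (sd.κ b) := by
  have hC : ∀ c : 𝒪, f (C c) = algebraMap 𝒪 B c := fun c => by
    rw [← MvPolynomial.algebraMap_eq, AlgHom.commutes]
  simp only [nrmRel, nrm, map_sub, map_sum, map_mul, hC, Matrix.of_apply]

theorem nrmRel_mem_of_mem_TT {I : Ideal (Lam 𝒪)} (hI : I ∈ TT sd 𝒟) (b : Fin 3) :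
    nrmRel sd b ∈ I := by
  haveI := TT_isLocalRing hI
  rw [← Ideal.Quotient.eq_zero_iff_mem]
  have h := algHom_nrmRel (sd := sd) (Ideal.Quotient.mkₐ 𝒪 I) b
  rw [Ideal.Quotient.mkₐ_eq_mk] at h
  rw [h, sub_eq_zero]
  exact (TT_isNLift hI).normalized b

include hO1b in
theorem normalized_Muniv : Normalized sd (Muniv u hO1b : GQ → M2 R) := by
  intro b
  have h := u_eq_zero_of_forall_mem u hO1b (l := nrmRel sd b)
    (fun I hI => nrmRel_mem_of_mem_TT hI b)
  rw [algHom_nrmRel, sub_eq_zero] at h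
  exact h

include hO1b in
theorem strict_Muniv : Strict ρb (Muniv u hO1b) := by
  intro σ i j c hc
  have hI1 := hO1b 1 le_rfl
  haveI := TT_isLocalRing hI1
  haveI := (TT_finTest hI1).finite
  have h1 := (TT_isNLift hI1).strict σ i j c hc
  obtain ⟨N, hN⟩ := isNilpotent_of_mem_maximalIdeal_of_finite h1
  have h2 : (X (σ, i, j) - C c : Lam 𝒪) ^ N ∈ Ideal.comap u (maximalIdeal R ^ 1) := by
    rw [← Ideal.Quotient.eq_zero_iff_mem, map_pow, map_sub]
    rw [univMat_apply] at hN
    have hC : algebraMap 𝒪 (Lam 𝒪 ⧸ Ideal.comap u (maximalIdeal R ^ 1)) c =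
        Ideal.Quotient.mk _ (C c) := rfl
    rw [hC] at hN
    exact hN
  rw [Ideal.mem_comap, pow_one, map_pow] at h2
  have h3 := (maximalIdeal.isMaximal R).isPrime.mem_of_pow_mem N h2
  rw [map_sub] at h3
  have hC : u (C c) = algebraMap 𝒪 R c := by
    rw [← MvPolynomial.algebraMap_eq, AlgHom.commutes]
  rw [hC] at h3
  exact h3

include hO1b in
theorem matCont_Muniv : MatCont (Muniv u hO1b) := by
  intro n
  rcases Nat.eq_zero_or_pos n with rfl | hn
  · refine ⟨⊥, inferInstance, fun σ _ i j => ?_⟩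
    simp
  · have hIn := hO1b n hn
    haveI := TT_isLocalRing hIn
    obtain ⟨hc, -⟩ := (TT_isNLift hIn).isType
    obtain ⟨L, hL, h⟩ := (matCont_iff_of_nilpotent
      (FinTest.isNilpotent_maximalIdeal (TT_finTest hIn)) _).mp hc
    refine ⟨L, hL, fun σ hσ i j => ?_⟩
    have h1 := h σ hσ
    have h2 : univMat _ (TT_mulRel_mem hIn) (TT_oneRel_mem hIn) σ i j = (1 : M2 _) i j := by
      rw [h1]
    rw [univMat_apply, Matrix.one_apply] at h2
    have h3 : (X (σ, i, j) - C (if i = j then 1 else 0) : Lam 𝒪) ∈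
        Ideal.comap u (maximalIdeal R ^ n) := by
      rw [← Ideal.Quotient.eq_zero_iff_mem, map_sub, h2, sub_eq_zero]
      split_ifs <;> simp
    rw [Ideal.mem_comap, map_sub] at h3
    have h4 : (Muniv u hO1b σ - 1) i j = u (X (σ, i, j)) - u (C (if i = j then 1 else 0)) := by
      rw [Matrix.sub_apply, Muniv_apply, Matrix.one_apply]
      congr 1
      split_ifs <;> simp
    rw [h4]
    exact h3

variable (h𝒟 : GaloisRep.IsDeformationCondition 𝒪 𝒟) [IsLocalHom (algebraMap 𝒪 R)]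
  (hres : Function.Surjective (IsLocalRing.residue R ∘ algebraMap 𝒪 R))
  (hO1a : ∀ n : ℕ, 1 ≤ n → ∀ x : R, ∃ l : Lam 𝒪, x - u l ∈ maximalIdeal R ^ n)

include h𝒟 hres hO1a in
theorem type_Muniv : 𝒟 (ofMat (Muniv u hO1b) (matCont_Muniv u hO1b)) := by
  rw [type_iff_forall_surjective h𝒟 inferInstance hres]
  intro B _ _ _ hB q hq hqs
  haveI := hB.isArtinian
  obtain ⟨n0, hn0⟩ := isNilpotent_maximalIdeal_of_isArtinianRing (A := B)
  have hn : maximalIdeal B ^ (n0 + 1) = ⊥ := by
    rw [pow_succ, hn0]; simp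
  have hfker : Ideal.comap u (maximalIdeal R ^ (n0 + 1)) ≤ RingHom.ker (q.comp u) := by
    intro l hl
    rw [RingHom.mem_ker]
    have h1 : q (u l) ∈ maximalIdeal B ^ (n0 + 1) :=
      algHom_mem_maximalIdeal_pow hB.residue_surjective q (n0 + 1) hl
    rw [hn] at h1
    exact h1
  have hfsurj : Function.Surjective (q.comp u) := by
    intro b
    obtain ⟨x, rfl⟩ := hqs b
    obtain ⟨l, hl⟩ := hO1a (n0 + 1) (Nat.le_add_left 1 n0) x
    refine ⟨l, ?_⟩
    have h1 : q (x - u l) ∈ maximalIdeal B ^ (n0 + 1) :=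
      algHom_mem_maximalIdeal_pow hB.residue_surjective q (n0 + 1) hl
    rw [hn, Ideal.mem_bot, map_sub, sub_eq_zero] at h1
    exact h1.symm
  have hK : RingHom.ker (q.comp u) ∈ TT sd 𝒟 :=
    TT_upward h𝒟 (hO1b (n0 + 1) (Nat.le_add_left 1 n0)) _ hfker (RingHom.ker_ne_top _)
  haveI := TT_isLocalRing hK
  have hκs : Function.Surjective (Ideal.kerLiftAlg (q.comp u)) := by
    intro b
    obtain ⟨l, hl⟩ := hfsurj b
    exact ⟨Ideal.Quotient.mk _ l, (Ideal.kerLiftAlg_mk _ _).trans hl⟩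
  obtain ⟨_, hBfin⟩ := FinTest.ofSurjective (TT_finTest hK) (Ideal.kerLiftAlg (q.comp u)) hκs
  have heq : mapMat (q : R →+* B) (Muniv u hO1b) =
      mapMat ((Ideal.kerLiftAlg (q.comp u) : (Lam 𝒪 ⧸ RingHom.ker (q.comp u)) →ₐ[𝒪] B) :
        (Lam 𝒪 ⧸ RingHom.ker (q.comp u)) →+* B)
        (univMat _ (TT_mulRel_mem hK) (TT_oneRel_mem hK)) := by
    ext σ i j
    exact (Ideal.kerLiftAlg_mk (q.comp u) (X (σ, i, j))).symm
  rw [heq]
  exact DM_map h𝒟 (TT_finTest hK) hBfin _ (TT_isNLift hK).isType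

include h𝒟 hres hO1a in
/-- The universal matrix representation is a normalised strict lift of type `𝒟`. -/
theorem isNLift_Muniv : IsNLift sd 𝒟 (Muniv u hO1b) :=
  ⟨strict_Muniv u hO1b, normalized_Muniv u hO1b,
    ⟨matCont_Muniv u hO1b, type_Muniv u hO1b h𝒟 hres hO1a⟩⟩

variable (hO2 : ∀ I ∈ TT sd 𝒟, ∃ n : ℕ, 1 ≤ n ∧ Ideal.comap u (maximalIdeal R ^ n) ≤ I)

include h𝒟 hO1a hO2 in
/-- Universality of `Muniv` over finite test algebras. -/
theorem finiteUniversal_Muniv (A : Type) [CommRing A] [IsLocalRing A] [Algebra 𝒪 A]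
    (hA : FinTest 𝒪 A) (M : GQ →* M2 A) (hM : IsNLift sd 𝒟 M) :
    ∃! φ : R →ₐ[𝒪] A, mapMat (φ : R →+* A) (Muniv u hO1b) = M := by
  have hI : RingHom.ker (evL (𝒪 := 𝒪) (M : GQ → M2 A)) ∈ TT sd 𝒟 := ker_evL_mem_TT h𝒟 hA M hM
  obtain ⟨n, hn, hle⟩ := hO2 _ hI
  -- the value of `evL M` on an approximant does not depend on the approximant
  have key : ∀ l l' : Lam 𝒪, u l - u l' ∈ maximalIdeal R ^ n →
      evL (𝒪 := 𝒪) (M : GQ → M2 A) l = evL (M : GQ → M2 A) l' := by
    intro l l' h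
    have h1 : l - l' ∈ Ideal.comap u (maximalIdeal R ^ n) := by
      rw [Ideal.mem_comap, map_sub]; exact h
    have h2 := hle h1
    rw [RingHom.mem_ker, map_sub, sub_eq_zero] at h2
    exact h2
  let ap : R → Lam 𝒪 := fun x => (hO1a n hn x).choose
  have hap : ∀ x, x - u (ap x) ∈ maximalIdeal R ^ n := fun x => (hO1a n hn x).choose_spec
  have key2 : ∀ (x : R) (l : Lam 𝒪), x - u l ∈ maximalIdeal R ^ n →
      evL (𝒪 := 𝒪) (M : GQ → M2 A) (ap x) = evL (M : GQ → M2 A) l := by
    intro x l h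
    apply key
    have : u (ap x) - u l = (x - u l) - (x - u (ap x)) := by ring
    rw [this]
    exact Ideal.sub_mem _ h (hap x)
  let φ : R →ₐ[𝒪] A :=
    { toFun := fun x => evL (𝒪 := 𝒪) (M : GQ → M2 A) (ap x)
      map_one' := by
        rw [key2 1 1 (by rw [map_one, sub_self]; exact Ideal.zero_mem _), map_one]
      map_mul' := fun x y => by
        rw [key2 (x * y) (ap x * ap y), map_mul]
        have : x * y - u (ap x * ap y) = x * (y - u (ap y)) + (x - u (ap x)) * u (ap y) := by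
          rw [map_mul]; ring
        rw [this]
        exact Ideal.add_mem _ (Ideal.mul_mem_left _ _ (hap y)) (Ideal.mul_mem_right _ _ (hap x))
      map_zero' := by
        rw [key2 0 0 (by rw [map_zero, sub_self]; exact Ideal.zero_mem _), map_zero]
      map_add' := fun x y => by
        rw [key2 (x + y) (ap x + ap y), map_add]
        have : x + y - u (ap x + ap y) = (x - u (ap x)) + (y - u (ap y)) := by
          rw [map_add]; ring
        rw [this]
        exact Ideal.add_mem _ (hap x) (hap y)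
      commutes' := fun c => by
        rw [key2 (algebraMap 𝒪 R c) (algebraMap 𝒪 (Lam 𝒪) c)
          (by rw [AlgHom.commutes, sub_self]; exact Ideal.zero_mem _), AlgHom.commutes] }
  have hφu : ∀ l : Lam 𝒪, φ (u l) = evL (𝒪 := 𝒪) (M : GQ → M2 A) l := fun l =>
    key2 (u l) l (by rw [sub_self]; exact Ideal.zero_mem _)
  refine ⟨φ, ?_, ?_⟩
  · ext σ i j
    show φ (u (X (σ, i, j))) = M σ i j
    rw [hφu, evL_X]
  · intro φ' hφ'
    -- both agree on the image of `u`
    have h1 : ∀ l : Lam 𝒪, φ' (u l) = φ (u l) := by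
      intro l
      rw [hφu]
      have : φ'.comp u = evL (𝒪 := 𝒪) (M : GQ → M2 A) := by
        apply evL_unique
        intro σ i j
        have := congrFun (congrFun (congrFun (congrArg DFunLike.coe hφ') σ) i) j
        exact this
      exact congrFun (congrArg DFunLike.coe this) l
    haveI := hA.finite
    obtain ⟨N, hN1, hN⟩ := exists_maximalIdeal_pow_eq_bot_of_finite A
    apply AlgHom.ext
    intro x
    obtain ⟨l, hl⟩ := hO1a N hN1 x
    have h2 : φ' (x - u l) ∈ maximalIdeal A ^ N :=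
      algHom_mem_maximalIdeal_pow hA.residue_surjective φ' N hl
    have h3 : φ (x - u l) ∈ maximalIdeal A ^ N :=
      algHom_mem_maximalIdeal_pow hA.residue_surjective φ N hl
    rw [hN, Ideal.mem_bot, map_sub, sub_eq_zero] at h2 h3
    rw [h2, h3, h1]

end Main

end Fermat.Agent.S53.UnivLift

end
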