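import Fermat.Agent.S53.LevelMin
import Fermat.Agent.S53.PowerSeries
import Fermat.Agent.S53.TestAlg

/-!
# S53, part of task T8: uniform generators and the uniform cardinality bound

If there are only finitely many `𝒪`-algebra homs `Lam → k[ε]` with kernel in `TT`, then there are
finitely many elements `l a ∈ 𝔐` of `Lam` whose images generate every `Lam ⧸ I`, `I ∈ TT`, as an
`𝒪`-algebra (`exists_generators`).  Consequently every such quotient is a quotient of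
`𝒪⟦X_1,…,X_d⟧` and the cardinalities of the `Lam ⧸ I` with `𝔐 ^ n ≤ I` are bounded
(`exists_card_bound`).
-/

set_option autoImplicit false
set_option linter.unusedSectionVars false
set_option linter.unusedVariables false
set_option linter.style.haveILetI false

noncomputable section

namespace Fermat.Agent.S53

open IsLocalRing

namespace LevelMin

section Generators

variable {𝒪 : Type} [CommRing 𝒪] [IsLocalRing 𝒪]
  {Lam : Type} [CommRing Lam] [Algebra 𝒪 Lam] {TT : Set (Ideal Lam)}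

/-- Every element of `Lam` is congruent modulo `𝔐` to a constant from `𝒪`. -/
theorem exists_sub_algebraMap_mem (h : IsTestFilter (𝒪 := 𝒪) TT) (𝔐 : Ideal Lam)
    (h𝔐 : 𝔐.IsMaximal) (hle : ∀ I ∈ TT, I ≤ 𝔐) (x : Lam) :
    ∃ c : 𝒪, x - algebraMap 𝒪 Lam c ∈ 𝔐 := by
  obtain ⟨I0, hI0⟩ := h.hT0
  obtain ⟨hloc, hfin⟩ := h.hT1 I0 hI0
  have h1 : 𝔐 = Ideal.comap (Ideal.Quotient.mk I0) (maximalIdeal (Lam ⧸ I0)) :=
    eq_comap_maximalIdeal I0 𝔐 h𝔐 (hle I0 hI0)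
  obtain ⟨c, hc⟩ := hfin.residue_surjective (residue (Lam ⧸ I0) (Ideal.Quotient.mk I0 x))
  refine ⟨c, ?_⟩
  rw [h1, Ideal.mem_comap, map_sub, ← IsLocalRing.residue_eq_zero_iff, map_sub]
  simp only [Function.comp_apply] at hc
  have h2 : Ideal.Quotient.mk I0 (algebraMap 𝒪 Lam c) = algebraMap 𝒪 (Lam ⧸ I0) c := rfl
  rw [h2, hc, sub_self]

/-- The composite of a hom `Lam ⧸ I → B` (`I ∈ TT`, `B` nontrivial) with the quotient map has
kernel in `TT`. -/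
theorem ker_comp_mk_mem (h : IsTestFilter (𝒪 := 𝒪) TT) {I : Ideal Lam} (hI : I ∈ TT)
    {B : Type} [CommRing B] [Nontrivial B] [Algebra 𝒪 B] (g : (Lam ⧸ I) →ₐ[𝒪] B) :
    RingHom.ker (g.comp (Ideal.Quotient.mkₐ 𝒪 I)) ∈ TT := by
  refine h.hT3 I hI _ ?_ ?_
  · intro x hx
    rw [RingHom.mem_ker]
    change g (Ideal.Quotient.mk I x) = 0
    rw [Ideal.Quotient.eq_zero_iff_mem.mpr hx, map_zero]
  · exact RingHom.ker_ne_top _

/-- **Uniform generators.** -/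
theorem exists_generators (h : IsTestFilter (𝒪 := 𝒪) TT)
    (hT4 : letI := dualNumberAlgebra 𝒪
      Finite {f : Lam →ₐ[𝒪] DualNumber (ResidueField 𝒪) // RingHom.ker f ∈ TT})
    (𝔐 : Ideal Lam) (h𝔐 : 𝔐.IsMaximal) (hle : ∀ I ∈ TT, I ≤ 𝔐) :
    ∃ (d : ℕ) (l : Fin d → Lam), (∀ a, l a ∈ 𝔐) ∧
      ∀ I ∈ TT, Algebra.adjoin 𝒪 (Set.range fun a => Ideal.Quotient.mk I (l a)) = ⊤ := by
  classical
  letI := dualNumberAlgebra 𝒪
  let Φ : Type := {f : Lam →ₐ[𝒪] DualNumber (ResidueField 𝒪) // RingHom.ker f ∈ TT}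
  haveI : Finite Φ := hT4
  haveI : Finite (Φ × Φ) := inferInstance
  -- separating elements in `𝔐`
  have hsep : ∀ p : Φ × Φ, ∃ x ∈ 𝔐, p.1 ≠ p.2 → p.1.1 x ≠ p.2.1 x := by
    intro p
    by_cases hp : p.1 = p.2
    · exact ⟨0, Ideal.zero_mem _, fun hne => absurd hp hne⟩
    · have hne : p.1.1 ≠ p.2.1 := fun hh => hp (Subtype.ext hh)
      obtain ⟨x, hx⟩ := DFunLike.ne_iff.mp hne
      obtain ⟨c, hc⟩ := exists_sub_algebraMap_mem h 𝔐 h𝔐 hle x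
      refine ⟨x - algebraMap 𝒪 Lam c, hc, fun _ => ?_⟩
      rw [map_sub, map_sub, AlgHom.commutes, AlgHom.commutes]
      intro hh
      exact hx (sub_left_injective hh)
  choose x hx𝔐 hxsep using hsep
  let e := Finite.equivFin (Φ × Φ)
  refine ⟨Nat.card (Φ × Φ), fun a => x (e.symm a), fun a => hx𝔐 _, fun I hI => ?_⟩
  obtain ⟨hloc, hfin⟩ := h.hT1 I hI
  by_contra hne
  obtain ⟨u', v', huv', hagree⟩ := exists_algHom_dualNumber_ne hfin _ hne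
  let u : Φ := ⟨u'.comp (Ideal.Quotient.mkₐ 𝒪 I), ker_comp_mk_mem h hI u'⟩
  let v : Φ := ⟨v'.comp (Ideal.Quotient.mkₐ 𝒪 I), ker_comp_mk_mem h hI v'⟩
  have huv : u ≠ v := by
    intro hh
    apply huv'
    have h1 : u'.comp (Ideal.Quotient.mkₐ 𝒪 I) = v'.comp (Ideal.Quotient.mkₐ 𝒪 I) :=
      congrArg Subtype.val hh
    refine AlgHom.ext fun y => ?_
    obtain ⟨z, rfl⟩ := Ideal.Quotient.mk_surjective y
    exact DFunLike.congr_fun h1 z
  have h2 := hxsep (u, v) huv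
  apply h2
  have h3 : Ideal.Quotient.mk I (x (e.symm (e (u, v)))) ∈
      Algebra.adjoin 𝒪 (Set.range fun a => Ideal.Quotient.mk I (x (e.symm a))) :=
    Algebra.subset_adjoin ⟨e (u, v), rfl⟩
  rw [Equiv.symm_apply_apply] at h3
  exact hagree _ h3

end Generators

section Bound

variable {𝒪 : Type} [CommRing 𝒪] [IsDomain 𝒪] [IsDiscreteValuationRing 𝒪]
  [IsAdicComplete (maximalIdeal 𝒪) 𝒪] [Finite (ResidueField 𝒪)]
  {Lam : Type} [CommRing Lam] [Algebra 𝒪 Lam] {TT : Set (Ideal Lam)}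

/-- Generators in `𝔐` give surjective evaluation maps from the power series ring, killing
`𝔫 ^ n` whenever `𝔐 ^ n ≤ I`. -/
theorem exists_surjective_evS_of_generators (h : IsTestFilter (𝒪 := 𝒪) TT)
    (𝔐 : Ideal Lam) (h𝔐 : 𝔐.IsMaximal) (hle : ∀ I ∈ TT, I ≤ 𝔐)
    {d : ℕ} (l : Fin d → Lam) (hl : ∀ a, l a ∈ 𝔐) {I : Ideal Lam} (hI : I ∈ TT)
    (hgen : Algebra.adjoin 𝒪 (Set.range fun a => Ideal.Quotient.mk I (l a)) = ⊤) :
    ∃ f : MvPowerSeries (Fin d) 𝒪 →ₐ[𝒪] Lam ⧸ I,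
      (∀ a, f (MvPowerSeries.X a) = Ideal.Quotient.mk I (l a)) ∧ Function.Surjective f ∧
      ∀ n : ℕ, 𝔐 ^ n ≤ I →
        maximalIdeal (MvPowerSeries (Fin d) 𝒪) ^ n ≤
          RingHom.ker (f : MvPowerSeries (Fin d) 𝒪 →+* Lam ⧸ I) := by
  obtain ⟨hloc, hfin⟩ := h.hT1 I hI
  have h𝔐I : 𝔐 = Ideal.comap (Ideal.Quotient.mk I) (maximalIdeal (Lam ⧸ I)) :=
    eq_comap_maximalIdeal I 𝔐 h𝔐 (hle I hI)
  have hmem : ∀ a, Ideal.Quotient.mk I (l a) ∈ maximalIdeal (Lam ⧸ I) := by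
    intro a
    have := hl a
    rw [h𝔐I, Ideal.mem_comap] at this
    exact this
  obtain ⟨f, hf⟩ := exists_evS hfin (fun a => Ideal.Quotient.mk I (l a)) hmem
  refine ⟨f, hf, ?_, ?_⟩
  · rw [← AlgHom.range_eq_top, eq_top_iff, ← hgen]
    refine Algebra.adjoin_le ?_
    rintro _ ⟨a, rfl⟩
    exact ⟨MvPowerSeries.X a, hf a⟩
  · intro n hIn
    set S : Type := MvPowerSeries (Fin d) 𝒪
    have hpow : maximalIdeal (Lam ⧸ I) ^ n = ⊥ := by
      have h1 : Ideal.map (Ideal.Quotient.mk I) 𝔐 = maximalIdeal (Lam ⧸ I) := by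
        rw [h𝔐I, Ideal.map_comap_of_surjective _ Ideal.Quotient.mk_surjective]
      rw [← h1, ← Ideal.map_pow, eq_bot_iff]
      calc Ideal.map (Ideal.Quotient.mk I) (𝔐 ^ n) ≤ Ideal.map (Ideal.Quotient.mk I) I :=
            Ideal.map_mono hIn
        _ = ⊥ := Ideal.map_quotient_self I
    have h1 : Ideal.map (f : S →+* (Lam ⧸ I)) (maximalIdeal S) ≤ maximalIdeal (Lam ⧸ I) := by
      rw [Ideal.map_le_iff_le_comap]
      intro s hs
      exact evS_map_maximalIdeal hfin f s hs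
    intro s hs
    rw [RingHom.mem_ker]
    have h2 : (f : S →+* (Lam ⧸ I)) s ∈
        Ideal.map (f : S →+* (Lam ⧸ I)) (maximalIdeal S ^ n) := Ideal.mem_map_of_mem _ hs
    rw [Ideal.map_pow] at h2
    have h3 := Ideal.pow_right_mono h1 n h2
    rw [hpow, Ideal.mem_bot] at h3
    exact h3

/-- The uniform cardinality bound needed by `exists_levelMin`. -/
theorem exists_card_bound (h : IsTestFilter (𝒪 := 𝒪) TT)
    (hT4 : letI := dualNumberAlgebra 𝒪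
      Finite {f : Lam →ₐ[𝒪] DualNumber (ResidueField 𝒪) // RingHom.ker f ∈ TT})
    (𝔐 : Ideal Lam) (h𝔐 : 𝔐.IsMaximal) (hle : ∀ I ∈ TT, I ≤ 𝔐) :
    ∀ n : ℕ, ∃ C : ℕ, ∀ I ∈ TT, 𝔐 ^ n ≤ I → Nat.card (Lam ⧸ I) ≤ C := by
  obtain ⟨d, l, hl, hgen⟩ := exists_generators h hT4 𝔐 h𝔐 hle
  intro n
  let S : Type := MvPowerSeries (Fin d) 𝒪
  refine ⟨Nat.card (S ⧸ maximalIdeal S ^ n), fun I hI hIn => ?_⟩
  obtain ⟨f, -, hf, hkill⟩ :=
    exists_surjective_evS_of_generators h 𝔐 h𝔐 hle l hl hI (hgen I hI)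
  haveI : Finite (S ⧸ maximalIdeal S ^ n) :=
    finite_quotient_of_pow_le 𝒪 d (maximalIdeal S ^ n) n le_rfl
  let g : S ⧸ maximalIdeal S ^ n →+* Lam ⧸ I :=
    Ideal.Quotient.lift (maximalIdeal S ^ n) (f : S →+* (Lam ⧸ I))
      (fun s hs => hkill n hIn hs)
  have hg : Function.Surjective g := by
    intro y
    obtain ⟨s, rfl⟩ := hf y
    exact ⟨Ideal.Quotient.mk _ s, by simp [g]⟩
  exact Nat.card_le_card_of_surjective g hg

/-- Everything on the `Lam`-side of `exists_proRep`, packaged: the maximal ideal `𝔐`, uniform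
generators `l`, and the levelwise least ideals `Imin n`. -/
theorem exists_levelData (h : IsTestFilter (𝒪 := 𝒪) TT)
    (hT4 : letI := dualNumberAlgebra 𝒪
      Finite {f : Lam →ₐ[𝒪] DualNumber (ResidueField 𝒪) // RingHom.ker f ∈ TT}) :
    ∃ (𝔐 : Ideal Lam) (d : ℕ) (l : Fin d → Lam) (Imin : ℕ → Ideal Lam),
      𝔐.IsMaximal ∧ (∀ I ∈ TT, I ≤ 𝔐) ∧ (∀ I ∈ TT, ∃ n : ℕ, 1 ≤ n ∧ 𝔐 ^ n ≤ I) ∧
      (∀ I ∈ TT, ∀ hloc : IsLocalRing (Lam ⧸ I),
        𝔐 = Ideal.comap (Ideal.Quotient.mk I) (@maximalIdeal (Lam ⧸ I) _ hloc)) ∧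
      (∀ a, l a ∈ 𝔐) ∧
      (∀ I ∈ TT, Algebra.adjoin 𝒪 (Set.range fun a => Ideal.Quotient.mk I (l a)) = ⊤) ∧
      ∀ n : ℕ, 1 ≤ n →
        Imin n ∈ TT ∧ 𝔐 ^ n ≤ Imin n ∧ (∀ J ∈ TT, 𝔐 ^ n ≤ J → Imin n ≤ J) ∧
        Imin (n + 1) ≤ Imin n ∧ Imin n = Imin (n + 1) ⊔ 𝔐 ^ n := by
  obtain ⟨𝔐, h𝔐, hall⟩ := exists_common_maximal h
  have hle : ∀ I ∈ TT, I ≤ 𝔐 := fun I hI => (hall I hI).1
  obtain ⟨d, l, hl, hgen⟩ := exists_generators h hT4 𝔐 h𝔐 hle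
  obtain ⟨Imin, hImin⟩ := exists_levelMin h 𝔐 h𝔐 hle (exists_card_bound h hT4 𝔐 h𝔐 hle)
  exact ⟨𝔐, d, l, Imin, h𝔐, hle, fun I hI => (hall I hI).2.1, fun I hI => (hall I hI).2.2,
    hl, hgen, hImin⟩

end Bound

end LevelMin

end Fermat.Agent.S53

end
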