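import Fermat.Agent.S53.Defs

/-!
# S53: transport of `FinTest` along injective / surjective algebra homs
-/

set_option autoImplicit false
set_option linter.unusedSectionVars false
set_option linter.style.haveILetI false

noncomputable section

namespace Fermat.Agent.S53

open IsLocalRing

variable {𝒪 : Type} [CommRing 𝒪] [IsLocalRing 𝒪]

/-- In a finite ring, an element whose image under an injective ring hom is a unit is a unit. -/
theorem isUnit_of_isUnit_map_of_injective {A B : Type} [CommRing A] [CommRing B] [Finite B]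
    (φ : A →+* B) (hφ : Function.Injective φ) {a : A} (h : IsUnit (φ a)) : IsUnit a := by
  obtain ⟨n, hn, h1⟩ := (isOfFinOrder_of_finite h.unit).exists_pow_eq_one
  have h2 : φ (a ^ n) = φ 1 := by
    rw [map_pow, map_one]
    have := congrArg (fun u : Bˣ => (u : B)) h1
    simpa using this
  have h3 : a ^ n = 1 := hφ h2
  exact IsUnit.of_pow_eq_one h3 (Nat.pos_iff_ne_zero.mp hn)

theorem residue_eq_residue_iff {A : Type} [CommRing A] [IsLocalRing A] (x y : A) :
    residue A x = residue A y ↔ x - y ∈ maximalIdeal A := by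
  rw [← sub_eq_zero, ← map_sub, residue_eq_zero_iff]

/-- A subobject (injective algebra hom) of a finite test algebra is a finite test algebra. -/
theorem FinTest.ofInjective {A B : Type} [CommRing A] [Algebra 𝒪 A] [CommRing B] [IsLocalRing B]
    [Algebra 𝒪 B] (hB : FinTest 𝒪 B) (φ : A →ₐ[𝒪] B) (hφ : Function.Injective φ) :
    ∃ _ : IsLocalRing A, FinTest 𝒪 A := by
  haveI := hB.finite
  haveI : Finite A := Finite.of_injective φ hφ
  haveI : Nontrivial A := by
    refine ⟨⟨0, 1, fun h => ?_⟩⟩
    have := congrArg φ h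
    rw [map_zero, map_one] at this
    exact zero_ne_one this
  haveI hloc : IsLocalHom (φ : A →+* B) :=
    ⟨fun a ha => isUnit_of_isUnit_map_of_injective (φ : A →+* B) hφ ha⟩
  haveI : IsLocalRing A := RingHom.domain_isLocalRing (φ : A →+* B)
  refine ⟨inferInstance, ⟨inferInstance, ⟨fun c hc => ?_⟩, fun x => ?_⟩⟩
  · haveI := hB.isLocalHom
    have h1 : IsUnit (algebraMap 𝒪 B c) := by
      rw [← φ.commutes]
      exact hc.map φ
    exact isUnit_of_map_unit (algebraMap 𝒪 B) c h1
  · obtain ⟨y, rfl⟩ := IsLocalRing.residue_surjective x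
    obtain ⟨c, hc⟩ := hB.residue_surjective (residue B (φ y))
    refine ⟨c, ?_⟩
    rw [Function.comp_apply, residue_eq_residue_iff] at hc ⊢
    rw [mem_maximalIdeal, mem_nonunits_iff] at hc ⊢
    intro hu
    apply hc
    have := hu.map φ
    rwa [map_sub, φ.commutes] at this

/-- A nontrivial quotient (surjective algebra hom) of a finite test algebra is a finite test
algebra. -/
theorem FinTest.ofSurjective {A B : Type} [CommRing A] [IsLocalRing A] [Algebra 𝒪 A] [CommRing B]
    [Algebra 𝒪 B] [Nontrivial B] (hA : FinTest 𝒪 A) (φ : A →ₐ[𝒪] B)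
    (hφ : Function.Surjective φ) : ∃ _ : IsLocalRing B, FinTest 𝒪 B := by
  haveI := hA.finite
  haveI : Finite B := Finite.of_surjective φ hφ
  haveI : IsLocalRing B := IsLocalRing.of_surjective' (φ : A →+* B) hφ
  -- `φ` maps the maximal ideal into the maximal ideal
  have hmax : ∀ x ∈ maximalIdeal A, φ x ∈ maximalIdeal B := by
    intro x hx
    rw [mem_maximalIdeal, mem_nonunits_iff]
    intro hu
    obtain ⟨z, hz⟩ := hu.exists_right_inv
    obtain ⟨y, rfl⟩ := hφ z
    have h1 : φ (x * y - 1) = 0 := by rw [map_sub, map_mul, hz, map_one, sub_self]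
    have h2 : IsUnit (x * y - 1) := by
      have h3 : x * y ∈ maximalIdeal A := Ideal.mul_mem_right _ _ hx
      have h4 : IsUnit (1 - x * y) := by
        by_contra hc
        have h5 : (1 - x * y) ∈ maximalIdeal A := hc
        have h6 : (1 : A) ∈ maximalIdeal A := by
          have := Ideal.add_mem _ h5 h3
          simp at this
        exact (Ideal.ne_top_iff_one _).mp (maximalIdeal.isMaximal A).ne_top h6
      have h7 : x * y - 1 = -(1 - x * y) := by ring
      rw [h7]
      exact h4.neg
    have h3 : IsUnit (φ (x * y - 1)) := h2.map φ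
    rw [h1] at h3
    exact not_isUnit_zero h3
  refine ⟨inferInstance, ⟨inferInstance, ⟨fun c hc => ?_⟩, fun x => ?_⟩⟩
  · haveI := hA.isLocalHom
    by_contra hcu
    have h1 : algebraMap 𝒪 A c ∈ maximalIdeal A := by
      rw [mem_maximalIdeal, mem_nonunits_iff]
      intro hu
      exact hcu (isUnit_of_map_unit (algebraMap 𝒪 A) c hu)
    have h2 := hmax _ h1
    rw [φ.commutes] at h2
    exact h2 hc
  · obtain ⟨z, rfl⟩ := IsLocalRing.residue_surjective x
    obtain ⟨y, rfl⟩ := hφ z
    obtain ⟨c, hc⟩ := hA.residue_surjective (residue A y)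
    refine ⟨c, ?_⟩
    rw [Function.comp_apply, residue_eq_residue_iff] at hc ⊢
    have := hmax _ hc
    rwa [map_sub, φ.commutes] at this

/-- Elements of the maximal ideal of a finite local ring are nilpotent. -/
theorem isNilpotent_of_mem_maximalIdeal_of_finite {A : Type} [CommRing A] [IsLocalRing A]
    [Finite A] {x : A} (hx : x ∈ maximalIdeal A) : IsNilpotent x := by
  have h1 : IsNilpotent (Ideal.jacobson (⊥ : Ideal A)) := IsArtinianRing.isNilpotent_jacobson_bot
  rw [IsLocalRing.jacobson_eq_maximalIdeal ⊥ bot_ne_top] at h1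
  obtain ⟨n, hn⟩ := h1
  refine ⟨n, ?_⟩
  have : x ^ n ∈ maximalIdeal A ^ n := Ideal.pow_mem_pow hx n
  rw [hn] at this
  simpa using this

/-- The maximal ideal of a finite local ring is nilpotent. -/
theorem exists_maximalIdeal_pow_eq_bot_of_finite (A : Type) [CommRing A] [IsLocalRing A]
    [Finite A] : ∃ n : ℕ, 1 ≤ n ∧ maximalIdeal A ^ n = ⊥ := by
  have h1 : IsNilpotent (Ideal.jacobson (⊥ : Ideal A)) := IsArtinianRing.isNilpotent_jacobson_bot
  rw [IsLocalRing.jacobson_eq_maximalIdeal ⊥ bot_ne_top] at h1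
  obtain ⟨n, hn⟩ := h1
  refine ⟨n + 1, Nat.le_add_left 1 n, ?_⟩
  rw [pow_succ, hn]
  simp

/-- Every algebra hom between finite test algebras is local. -/
theorem FinTest.isLocalHom_of_algHom {A B : Type} [CommRing A] [IsLocalRing A] [Algebra 𝒪 A]
    [CommRing B] [IsLocalRing B] [Algebra 𝒪 B] (hA : FinTest 𝒪 A) (φ : A →ₐ[𝒪] B) :
    IsLocalHom (φ : A →+* B) := by
  haveI := hA.finite
  refine ⟨fun a ha => ?_⟩
  by_contra hc
  have h1 : a ∈ maximalIdeal A := hc
  obtain ⟨n, hn⟩ := isNilpotent_of_mem_maximalIdeal_of_finite h1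
  have h2 : IsUnit ((φ : A →+* B) a ^ n) := ha.pow n
  rw [← map_pow, hn, map_zero] at h2
  exact not_isUnit_zero h2

end Fermat.Agent.S53

end
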