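import Fermat.Agent.S53.Lam
import Fermat.Agent.S53.FinTestBasic
import Fermat.Agent.S53.DCond

/-!
# S53: the filter `TT` of ideals of `Lam` attached to normalised lifts of type `𝒟`
-/

set_option autoImplicit false
set_option linter.unusedSectionVars false
set_option linter.style.haveILetI false

noncomputable section

namespace Fermat.Agent.S53

open IsLocalRing MvPolynomial

section Lifts

variable {𝒪 : Type} [CommRing 𝒪] [IsLocalRing 𝒪] {ρb : GQ →* M2 (ResidueField 𝒪)}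
  (sd : SliceData ρb)
variable {A B : Type} [CommRing A] [IsLocalRing A] [Algebra 𝒪 A]
  [CommRing B] [IsLocalRing B] [Algebra 𝒪 B]

theorem nrm_map (φ : A →ₐ[𝒪] B) (M : GQ → M2 A) (b : Fin 3) :
    φ (nrm sd M b) = nrm sd (fun σ => (M σ).map φ) b := by
  simp only [nrm, map_sum, map_mul, AlgHom.commutes, Matrix.map_apply]

theorem nrm_mapMat (φ : A →ₐ[𝒪] B) (M : GQ →* M2 A) (b : Fin 3) :
    φ (nrm sd (M : GQ → M2 A) b) = nrm sd (mapMat (φ : A →+* B) M : GQ → M2 B) b := by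
  rw [nrm_map]
  rfl

theorem Normalized.push {M : GQ →* M2 A} (h : Normalized sd (M : GQ → M2 A)) (φ : A →ₐ[𝒪] B) :
    Normalized sd (mapMat (φ : A →+* B) M : GQ → M2 B) := by
  intro b
  rw [← nrm_mapMat, h b, AlgHom.commutes]

theorem Normalized.of_push_injective {M : GQ →* M2 A} (φ : A →ₐ[𝒪] B)
    (hφ : Function.Injective φ) (h : Normalized sd (mapMat (φ : A →+* B) M : GQ → M2 B)) :
    Normalized sd (M : GQ → M2 A) := by
  intro b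
  apply hφ
  rw [nrm_mapMat, h b, AlgHom.commutes]

theorem Strict.push {M : GQ →* M2 A} (h : Strict ρb M) (φ : A →ₐ[𝒪] B)
    (hφ : IsLocalHom (φ : A →+* B)) : Strict ρb (mapMat (φ : A →+* B) M) := by
  intro σ i j c hc
  have h1 := h σ i j c hc
  rw [mapMat_apply, ← φ.commutes]
  have h2 : (φ : A →+* B) (M σ i j - algebraMap 𝒪 A c) ∈ maximalIdeal B := by
    rw [mem_maximalIdeal, mem_nonunits_iff] at h1 ⊢
    exact fun hu => h1 (isUnit_of_map_unit (φ : A →+* B) _ hu)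
  simpa using h2

theorem Strict.of_push {M : GQ →* M2 A} (φ : A →ₐ[𝒪] B)
    (h : Strict ρb (mapMat (φ : A →+* B) M)) : Strict ρb M := by
  intro σ i j c hc
  have h1 := h σ i j c hc
  rw [mapMat_apply, ← φ.commutes] at h1
  rw [mem_maximalIdeal, mem_nonunits_iff] at h1 ⊢
  intro hu
  apply h1
  have := hu.map φ
  simpa using this

variable {𝒟 : ∀ ⦃A : Type⦄ [CommRing A] [IsLocalRing A] [Algebra 𝒪 A], GaloisRepAdic A → Prop}
  (h𝒟 : GaloisRep.IsDeformationCondition 𝒪 𝒟)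
include h𝒟

theorem IsNLift.push {M : GQ →* M2 A} (h : IsNLift sd 𝒟 M) (hA : FinTest 𝒪 A)
    (hB : FinTest 𝒪 B) (φ : A →ₐ[𝒪] B) : IsNLift sd 𝒟 (mapMat (φ : A →+* B) M) :=
  ⟨h.strict.push φ (FinTest.isLocalHom_algHom hA hB φ), h.normalized.push sd φ,
    DM_map h𝒟 hA hB φ h.isType⟩

theorem IsNLift.of_push_injective {M : GQ →* M2 A} (hA : FinTest 𝒪 A) (hB : FinTest 𝒪 B)
    (φ : A →ₐ[𝒪] B) (hφ : Function.Injective φ)
    (h : IsNLift sd 𝒟 (mapMat (φ : A →+* B) M)) : IsNLift sd 𝒟 M :=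
  ⟨Strict.of_push φ h.strict, Normalized.of_push_injective sd φ hφ h.normalized,
    DM_of_map_injective h𝒟 hA hB φ hφ h.isType⟩

end Lifts

section Filter

variable {𝒪 : Type} [CommRing 𝒪] [IsLocalRing 𝒪] {ρb : GQ →* M2 (ResidueField 𝒪)}
  (sd : SliceData ρb)
  (𝒟 : ∀ ⦃A : Type⦄ [CommRing A] [IsLocalRing A] [Algebra 𝒪 A], GaloisRepAdic A → Prop)

/-- The filter of ideals `I` of `Lam` such that `Lam ⧸ I` is a finite test algebra on which the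
tautological matrix function is a normalised lift of type `𝒟`. -/
def TT : Set (Ideal (Lam 𝒪)) :=
  {I | ∃ (h1 : ∀ σ τ i j, mulRel 𝒪 σ τ i j ∈ I) (h2 : ∀ i j, oneRel 𝒪 i j ∈ I)
      (_ : IsLocalRing (Lam 𝒪 ⧸ I)), FinTest 𝒪 (Lam 𝒪 ⧸ I) ∧ IsNLift sd 𝒟 (univMat I h1 h2)}

variable {sd 𝒟}

theorem TT_mulRel_mem {I : Ideal (Lam 𝒪)} (hI : I ∈ TT sd 𝒟) (σ τ : GQ) (i j : Fin 2) :
    mulRel 𝒪 σ τ i j ∈ I := hI.choose σ τ i j

theorem TT_oneRel_mem {I : Ideal (Lam 𝒪)} (hI : I ∈ TT sd 𝒟) (i j : Fin 2) :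
    oneRel 𝒪 i j ∈ I := hI.choose_spec.choose i j

theorem TT_isLocalRing {I : Ideal (Lam 𝒪)} (hI : I ∈ TT sd 𝒟) : IsLocalRing (Lam 𝒪 ⧸ I) :=
  hI.choose_spec.choose_spec.choose

theorem TT_finTest {I : Ideal (Lam 𝒪)} (hI : I ∈ TT sd 𝒟) :
    haveI := TT_isLocalRing hI
    FinTest 𝒪 (Lam 𝒪 ⧸ I) :=
  hI.choose_spec.choose_spec.choose_spec.1

theorem TT_isNLift {I : Ideal (Lam 𝒪)} (hI : I ∈ TT sd 𝒟) :
    haveI := TT_isLocalRing hI
    IsNLift sd 𝒟 (univMat I (TT_mulRel_mem hI) (TT_oneRel_mem hI)) :=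
  hI.choose_spec.choose_spec.choose_spec.2

theorem TT_ne_top {I : Ideal (Lam 𝒪)} (hI : I ∈ TT sd 𝒟) : I ≠ ⊤ := by
  haveI := TT_isLocalRing hI
  intro h
  have : Subsingleton (Lam 𝒪 ⧸ I) := by
    rw [h]; exact Ideal.Quotient.subsingleton_iff.mpr rfl
  exact not_subsingleton (Lam 𝒪 ⧸ I) this

theorem kerLiftAlg_evL_mk {A : Type} [CommRing A] [Algebra 𝒪 A] (M : GQ → M2 A) (σ : GQ)
    (i j : Fin 2) :
    Ideal.kerLiftAlg (evL (𝒪 := 𝒪) M) (Ideal.Quotient.mk _ (X (σ, i, j))) = M σ i j := by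
  rw [Ideal.kerLiftAlg_mk, evL_X]

variable (h𝒟 : GaloisRep.IsDeformationCondition 𝒪 𝒟)
include h𝒟

/-- The kernel of the evaluation at a normalised lift of type `𝒟` over a finite test algebra
belongs to `TT`. -/
theorem ker_evL_mem_TT {A : Type} [CommRing A] [IsLocalRing A] [Algebra 𝒪 A] (hA : FinTest 𝒪 A)
    (M : GQ →* M2 A) (hM : IsNLift sd 𝒟 M) :
    RingHom.ker (evL (𝒪 := 𝒪) (M : GQ → M2 A)) ∈ TT sd 𝒟 := by
  have h1 : ∀ σ τ i j, mulRel 𝒪 σ τ i j ∈ RingHom.ker (evL (𝒪 := 𝒪) (M : GQ → M2 A)) :=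
    fun σ τ i j => (RingHom.mem_ker).mpr (evL_mulRel_monoidHom M σ τ i j)
  have h2 : ∀ i j, oneRel 𝒪 i j ∈ RingHom.ker (evL (𝒪 := 𝒪) (M : GQ → M2 A)) := fun i j =>
    (RingHom.mem_ker).mpr (evL_oneRel_monoidHom M i j)
  have hι : Function.Injective (Ideal.kerLiftAlg (evL (𝒪 := 𝒪) (M : GQ → M2 A))) :=
    Ideal.kerLiftAlg_injective _
  obtain ⟨hloc, hfin⟩ := FinTest.ofInjective hA _ hι
  refine ⟨h1, h2, hloc, hfin, ?_⟩
  apply IsNLift.of_push_injective sd h𝒟 hfin hA _ hι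
  have : mapMat ((Ideal.kerLiftAlg (evL (𝒪 := 𝒪) (M : GQ → M2 A)) :
      (Lam 𝒪 ⧸ RingHom.ker (evL (𝒪 := 𝒪) (M : GQ → M2 A))) →ₐ[𝒪] A) :
      (Lam 𝒪 ⧸ RingHom.ker (evL (𝒪 := 𝒪) (M : GQ → M2 A))) →+* A)
      (univMat _ h1 h2) = M := by
    ext σ i j
    exact kerLiftAlg_evL_mk (M : GQ → M2 A) σ i j
  rw [this]
  exact hM

/-- `TT` is upward closed among proper ideals. -/
theorem TT_upward {I : Ideal (Lam 𝒪)} (hI : I ∈ TT sd 𝒟) (J : Ideal (Lam 𝒪)) (hIJ : I ≤ J)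
    (hJ : J ≠ ⊤) : J ∈ TT sd 𝒟 := by
  haveI := TT_isLocalRing hI
  have h1 : ∀ σ τ i j, mulRel 𝒪 σ τ i j ∈ J := fun σ τ i j => hIJ ((TT_mulRel_mem hI) σ τ i j)
  have h2 : ∀ i j, oneRel 𝒪 i j ∈ J := fun i j => hIJ ((TT_oneRel_mem hI) i j)
  haveI : Nontrivial (Lam 𝒪 ⧸ J) := Ideal.Quotient.nontrivial_iff.mpr hJ
  let π : (Lam 𝒪 ⧸ I) →ₐ[𝒪] (Lam 𝒪 ⧸ J) := Ideal.Quotient.factorₐ 𝒪 hIJ
  have hπ : Function.Surjective π := Ideal.Quotient.factor_surjective hIJ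
  obtain ⟨hloc, hfin⟩ := FinTest.ofSurjective (TT_finTest hI) π hπ
  refine ⟨h1, h2, hloc, hfin, ?_⟩
  have : mapMat (π : (Lam 𝒪 ⧸ I) →+* (Lam 𝒪 ⧸ J)) (univMat I (TT_mulRel_mem hI) (TT_oneRel_mem hI))
      = univMat J h1 h2 := by
    ext σ i j
    simp [π]
  rw [← this]
  exact IsNLift.push sd h𝒟 (TT_isNLift hI) (TT_finTest hI) hfin π

end Filter

end Fermat.Agent.S53

end
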