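import Fermat.Agent.S53.Filter
import Fermat.Agent.S53.TestAlg

/-!
# S53: the filter `TT` is closed under finite intersections (`hT2`)

Given two normalised lifts of type `𝒟` over finite test algebras `A`, `B`, we glue them to a
normalised lift of type `𝒟` over the fibre product `A ×ₖ B` (`pullbackMat`, `isNLift_pullbackMat`),
using the fibre product axiom of a deformation condition.  Applied to the tautological lifts over
`Lam ⧸ I` and `Lam ⧸ J` this gives `I ⊓ J ∈ TT`.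
-/

set_option autoImplicit false
set_option linter.unusedSectionVars false
set_option linter.style.haveILetI false

noncomputable section

namespace Fermat.Agent.S53

open IsLocalRing MvPolynomial

section Pullback

variable {𝒪 : Type} [CommRing 𝒪] [IsLocalRing 𝒪] {ρb : GQ →* M2 (ResidueField 𝒪)}
variable {A B : Type} [CommRing A] [IsLocalRing A] [Algebra 𝒪 A]
  [CommRing B] [IsLocalRing B] [Algebra 𝒪 B]

/-- For a strict lift over a finite test algebra, any `𝒪`-algebra hom to `k` sends the matrix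
entries to the entries of the residual representation. -/
theorem Strict.resk_apply (hA : FinTest 𝒪 A) (f : A →ₐ[𝒪] ResidueField 𝒪) {M : GQ →* M2 A}
    (hM : Strict ρb M) (σ : GQ) (i j : Fin 2) : f (M σ i j) = ρb σ i j := by
  obtain ⟨c, hc⟩ := residue_surjective (R := 𝒪) (ρb σ i j)
  have h1 := (hA.algHom_resk_eq_zero_iff f _).mpr (hM σ i j c hc)
  rw [map_sub, sub_eq_zero, f.commutes] at h1
  rw [h1, ← hc]
  rfl

/-- first projection of the fibre product -/
def pullbackFst (f : A →ₐ[𝒪] ResidueField 𝒪) (g : B →ₐ[𝒪] ResidueField 𝒪) :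
    f.pullback g →ₐ[𝒪] A :=
  (AlgHom.fst 𝒪 A B).comp (f.pullback g).val

/-- second projection of the fibre product -/
def pullbackSnd (f : A →ₐ[𝒪] ResidueField 𝒪) (g : B →ₐ[𝒪] ResidueField 𝒪) :
    f.pullback g →ₐ[𝒪] B :=
  (AlgHom.snd 𝒪 A B).comp (f.pullback g).val

@[simp] theorem pullbackFst_apply (f : A →ₐ[𝒪] ResidueField 𝒪) (g : B →ₐ[𝒪] ResidueField 𝒪)
    (x : f.pullback g) : pullbackFst f g x = (x : A × B).1 := rfl

@[simp] theorem pullbackSnd_apply (f : A →ₐ[𝒪] ResidueField 𝒪) (g : B →ₐ[𝒪] ResidueField 𝒪)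
    (x : f.pullback g) : pullbackSnd f g x = (x : A × B).2 := rfl

theorem pullback_comm (f : A →ₐ[𝒪] ResidueField 𝒪) (g : B →ₐ[𝒪] ResidueField 𝒪) :
    f.comp (pullbackFst f g) = g.comp (pullbackSnd f g) :=
  AlgHom.ext fun x => x.2

theorem pullback_pair_injective (f : A →ₐ[𝒪] ResidueField 𝒪) (g : B →ₐ[𝒪] ResidueField 𝒪) :
    Function.Injective (fun x : f.pullback g => (pullbackFst f g x, pullbackSnd f g x)) :=
  fun _ _ h => Subtype.ext h

theorem pullback_ext (f : A →ₐ[𝒪] ResidueField 𝒪) (g : B →ₐ[𝒪] ResidueField 𝒪)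
    {x y : f.pullback g} (h1 : pullbackFst f g x = pullbackFst f g y)
    (h2 : pullbackSnd f g x = pullbackSnd f g y) : x = y :=
  Subtype.ext (Prod.ext h1 h2)

theorem pullback_exists (f : A →ₐ[𝒪] ResidueField 𝒪) (g : B →ₐ[𝒪] ResidueField 𝒪) (a : A) (b : B)
    (h : f a = g b) : ∃ x : f.pullback g, pullbackFst f g x = a ∧ pullbackSnd f g x = b :=
  ⟨⟨(a, b), h⟩, rfl, rfl⟩

theorem pullback_matrix_ext (f : A →ₐ[𝒪] ResidueField 𝒪) (g : B →ₐ[𝒪] ResidueField 𝒪)
    {X Y : M2 (f.pullback g)}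
    (h1 : X.map (pullbackFst f g) = Y.map (pullbackFst f g))
    (h2 : X.map (pullbackSnd f g) = Y.map (pullbackSnd f g)) : X = Y := by
  refine Matrix.ext fun i j => pullback_ext f g ?_ ?_
  · exact congrFun (congrFun h1 i) j
  · exact congrFun (congrFun h2 i) j

/-- Gluing of two matrix representations which agree in `k`. -/
def pullbackMat (f : A →ₐ[𝒪] ResidueField 𝒪) (g : B →ₐ[𝒪] ResidueField 𝒪)
    (MA : GQ →* M2 A) (MB : GQ →* M2 B) (h : ∀ σ i j, f (MA σ i j) = g (MB σ i j)) :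
    GQ →* M2 (f.pullback g) where
  toFun σ := Matrix.of fun i j => ⟨(MA σ i j, MB σ i j), h σ i j⟩
  map_one' := by
    apply pullback_matrix_ext
    · ext i j
      simp [Matrix.one_apply]
    · ext i j
      simp [Matrix.one_apply]
  map_mul' σ τ := by
    apply pullback_matrix_ext
    · rw [Matrix.map_mul]
      ext i j
      simp [Matrix.mul_apply]
    · rw [Matrix.map_mul]
      ext i j
      simp [Matrix.mul_apply]

@[simp] theorem pullbackMat_apply (f : A →ₐ[𝒪] ResidueField 𝒪) (g : B →ₐ[𝒪] ResidueField 𝒪)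
    (MA : GQ →* M2 A) (MB : GQ →* M2 B) (h : ∀ σ i j, f (MA σ i j) = g (MB σ i j)) (σ : GQ)
    (i j : Fin 2) :
    (pullbackMat f g MA MB h σ i j : A × B) = (MA σ i j, MB σ i j) := rfl

theorem mapMat_pullbackFst (f : A →ₐ[𝒪] ResidueField 𝒪) (g : B →ₐ[𝒪] ResidueField 𝒪)
    [IsLocalRing (f.pullback g)]
    (MA : GQ →* M2 A) (MB : GQ →* M2 B) (h : ∀ σ i j, f (MA σ i j) = g (MB σ i j)) :
    mapMat (pullbackFst f g : f.pullback g →+* A) (pullbackMat f g MA MB h) = MA := by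
  ext σ i j
  rfl

theorem mapMat_pullbackSnd (f : A →ₐ[𝒪] ResidueField 𝒪) (g : B →ₐ[𝒪] ResidueField 𝒪)
    [IsLocalRing (f.pullback g)]
    (MA : GQ →* M2 A) (MB : GQ →* M2 B) (h : ∀ σ i j, f (MA σ i j) = g (MB σ i j)) :
    mapMat (pullbackSnd f g : f.pullback g →+* B) (pullbackMat f g MA MB h) = MB := by
  ext σ i j
  rfl

variable (sd : SliceData ρb)
  {𝒟 : ∀ ⦃A : Type⦄ [CommRing A] [IsLocalRing A] [Algebra 𝒪 A], GaloisRepAdic A → Prop}

/-- The glued matrix representation over the fibre product `A ×ₖ B` of two normalised lifts of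
type `𝒟` is a normalised lift of type `𝒟`. -/
theorem isNLift_pullbackMat (h𝒟 : GaloisRep.IsDeformationCondition 𝒪 𝒟)
    (hA : FinTest 𝒪 A) (hB : FinTest 𝒪 B)
    (f : A →ₐ[𝒪] ResidueField 𝒪) (g : B →ₐ[𝒪] ResidueField 𝒪)
    {MA : GQ →* M2 A} {MB : GQ →* M2 B} (hMA : IsNLift sd 𝒟 MA) (hMB : IsNLift sd 𝒟 MB)
    (h : ∀ σ i j, f (MA σ i j) = g (MB σ i j)) :
    haveI := pullback_isLocalRing hA hB f g
    IsNLift sd 𝒟 (pullbackMat f g MA MB h) := by
  haveI := pullback_isLocalRing hA hB f g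
  have hP := pullback_finTest hA hB f g
  haveI : Finite (ResidueField 𝒪) :=
    haveI := hA.finite
    Finite.of_surjective f (FinTest.algHom_resk_surjective f)
  have e1 := mapMat_pullbackFst f g MA MB h
  have e2 := mapMat_pullbackSnd f g MA MB h
  refine ⟨?_, ?_, ?_⟩
  · apply Strict.of_push (pullbackFst f g)
    rw [e1]
    exact hMA.strict
  · intro b
    apply pullback_ext f g
    · rw [nrm_mapMat, e1, hMA.normalized b, AlgHom.commutes]
    · rw [nrm_mapMat, e2, hMB.normalized b, AlgHom.commutes]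
  · refine DM_of_fibreProduct h𝒟 hA hB (finTest_residueField (𝒪 := 𝒪)) hP f g
      (pullbackFst f g) (pullbackSnd f g) (pullback_comm f g) (pullback_pair_injective f g)
      (pullback_exists f g) ?_ ?_
    · rw [e1]
      exact hMA.isType
    · rw [e2]
      exact hMB.isType

theorem evL_pullbackMat_fst (f : A →ₐ[𝒪] ResidueField 𝒪) (g : B →ₐ[𝒪] ResidueField 𝒪)
    (MA : GQ →* M2 A) (MB : GQ →* M2 B) (h : ∀ σ i j, f (MA σ i j) = g (MB σ i j))
    (l : Lam 𝒪) :
    pullbackFst f g (evL (pullbackMat f g MA MB h : GQ → M2 (f.pullback g)) l) =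
      evL (MA : GQ → M2 A) l := by
  rw [algHom_evL]
  rfl

theorem evL_pullbackMat_snd (f : A →ₐ[𝒪] ResidueField 𝒪) (g : B →ₐ[𝒪] ResidueField 𝒪)
    (MA : GQ →* M2 A) (MB : GQ →* M2 B) (h : ∀ σ i j, f (MA σ i j) = g (MB σ i j))
    (l : Lam 𝒪) :
    pullbackSnd f g (evL (pullbackMat f g MA MB h : GQ → M2 (f.pullback g)) l) =
      evL (MB : GQ → M2 B) l := by
  rw [algHom_evL]
  rfl

theorem ker_evL_pullbackMat (f : A →ₐ[𝒪] ResidueField 𝒪) (g : B →ₐ[𝒪] ResidueField 𝒪)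
    (MA : GQ →* M2 A) (MB : GQ →* M2 B) (h : ∀ σ i j, f (MA σ i j) = g (MB σ i j)) :
    RingHom.ker (evL (𝒪 := 𝒪) (pullbackMat f g MA MB h : GQ → M2 (f.pullback g))) =
      RingHom.ker (evL (𝒪 := 𝒪) (MA : GQ → M2 A)) ⊓ RingHom.ker (evL (𝒪 := 𝒪) (MB : GQ → M2 B)) := by
  ext l
  rw [Ideal.mem_inf, RingHom.mem_ker, RingHom.mem_ker, RingHom.mem_ker,
    ← evL_pullbackMat_fst f g MA MB h, ← evL_pullbackMat_snd f g MA MB h]
  constructor
  · intro h0
    rw [h0]
    exact ⟨map_zero _, map_zero _⟩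
  · rintro ⟨h1, h2⟩
    apply pullback_ext f g
    · rw [h1, map_zero]
    · rw [h2, map_zero]

end Pullback

section Inf

variable {𝒪 : Type} [CommRing 𝒪] [IsLocalRing 𝒪] {ρb : GQ →* M2 (ResidueField 𝒪)}
  {sd : SliceData ρb}
  {𝒟 : ∀ ⦃A : Type⦄ [CommRing A] [IsLocalRing A] [Algebra 𝒪 A], GaloisRepAdic A → Prop}

theorem ker_evL_univMat (J : Ideal (Lam 𝒪)) (h1 : ∀ σ τ i j, mulRel 𝒪 σ τ i j ∈ J)
    (h2 : ∀ i j, oneRel 𝒪 i j ∈ J) :
    RingHom.ker (evL (𝒪 := 𝒪) (univMat J h1 h2 : GQ → M2 (Lam 𝒪 ⧸ J))) = J := by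
  rw [evL_univMat]
  ext l
  rw [RingHom.mem_ker]
  exact Ideal.Quotient.eq_zero_iff_mem

/-- `hT2`: the filter `TT` is closed under finite intersections. -/
theorem TT_inf (h𝒟 : GaloisRep.IsDeformationCondition 𝒪 𝒟) {I J : Ideal (Lam 𝒪)}
    (hI : I ∈ TT sd 𝒟) (hJ : J ∈ TT sd 𝒟) : I ⊓ J ∈ TT sd 𝒟 := by
  haveI := TT_isLocalRing hI
  haveI := TT_isLocalRing hJ
  have hA := TT_finTest hI
  have hB := TT_finTest hJ
  have hMA := TT_isNLift hI
  have hMB := TT_isNLift hJ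
  obtain ⟨f, -, -⟩ := exists_resk hA
  obtain ⟨g, -, -⟩ := exists_resk hB
  have h : ∀ σ i j, f (univMat I (TT_mulRel_mem hI) (TT_oneRel_mem hI) σ i j) =
      g (univMat J (TT_mulRel_mem hJ) (TT_oneRel_mem hJ) σ i j) := fun σ i j => by
    rw [hMA.strict.resk_apply hA f, hMB.strict.resk_apply hB g]
  haveI := pullback_isLocalRing hA hB f g
  have hP := pullback_finTest hA hB f g
  have hM := isNLift_pullbackMat sd h𝒟 hA hB f g hMA hMB h
  have key := ker_evL_mem_TT h𝒟 hP _ hM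
  rwa [ker_evL_pullbackMat, ker_evL_univMat, ker_evL_univMat] at key

end Inf

end Fermat.Agent.S53

end
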