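import Fermat.Agent.S53.Defs

/-!
# S53: the big polynomial ring `Lam` and evaluation at matrix representations
-/

set_option autoImplicit false
set_option linter.unusedSectionVars false

noncomputable section

namespace Fermat.Agent.S53

open IsLocalRing MvPolynomial

/-- The polynomial ring on the matrix entries `X (σ, i, j)`. -/
abbrev Lam (𝒪 : Type) [CommRing 𝒪] : Type := MvPolynomial (GQ × Fin 2 × Fin 2) 𝒪

section evL

variable {𝒪 : Type} [CommRing 𝒪]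
variable {A B : Type} [CommRing A] [Algebra 𝒪 A] [CommRing B] [Algebra 𝒪 B]

/-- Evaluation of `Lam` at a matrix valued function. -/
def evL (M : GQ → M2 A) : Lam 𝒪 →ₐ[𝒪] A :=
  MvPolynomial.aeval (fun p : GQ × Fin 2 × Fin 2 => M p.1 p.2.1 p.2.2)

@[simp] theorem evL_X (M : GQ → M2 A) (σ : GQ) (i j : Fin 2) :
    evL (𝒪 := 𝒪) M (X (σ, i, j)) = M σ i j := by
  simp [evL]

theorem evL_unique (M : GQ → M2 A) (f : Lam 𝒪 →ₐ[𝒪] A)
    (hf : ∀ σ i j, f (X (σ, i, j)) = M σ i j) : f = evL M := by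
  apply MvPolynomial.algHom_ext
  rintro ⟨σ, i, j⟩
  rw [hf, evL_X]

theorem comp_evL (φ : A →ₐ[𝒪] B) (M : GQ → M2 A) :
    φ.comp (evL (𝒪 := 𝒪) M) = evL (fun σ => (M σ).map φ) := by
  apply evL_unique
  intro σ i j
  simp

theorem algHom_evL (φ : A →ₐ[𝒪] B) (M : GQ → M2 A) (l : Lam 𝒪) :
    φ (evL M l) = evL (fun σ => (M σ).map φ) l := by
  rw [← comp_evL]; rfl

/-- the multiplicativity relation -/
def mulRel (𝒪 : Type) [CommRing 𝒪] (σ τ : GQ) (i j : Fin 2) : Lam 𝒪 :=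
  ∑ k, X (σ, i, k) * X (τ, k, j) - X (σ * τ, i, j)

/-- the unit relation -/
def oneRel (𝒪 : Type) [CommRing 𝒪] (i j : Fin 2) : Lam 𝒪 :=
  X ((1 : GQ), i, j) - C (if i = j then 1 else 0)

theorem evL_mulRel (M : GQ → M2 A) (σ τ : GQ) (i j : Fin 2) :
    evL M (mulRel 𝒪 σ τ i j) = (M σ * M τ) i j - M (σ * τ) i j := by
  simp [mulRel, Matrix.mul_apply]

theorem evL_oneRel (M : GQ → M2 A) (i j : Fin 2) :
    evL M (oneRel 𝒪 i j) = M 1 i j - (1 : M2 A) i j := by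
  simp only [oneRel, map_sub, evL_X, Matrix.one_apply]
  congr 1
  split_ifs <;> simp [evL]

theorem evL_mulRel_monoidHom (M : GQ →* M2 A) (σ τ : GQ) (i j : Fin 2) :
    evL (M : GQ → M2 A) (mulRel 𝒪 σ τ i j) = 0 := by
  rw [evL_mulRel, map_mul, sub_self]

theorem evL_oneRel_monoidHom (M : GQ →* M2 A) (i j : Fin 2) :
    evL (M : GQ → M2 A) (oneRel 𝒪 i j) = 0 := by
  rw [evL_oneRel, map_one, sub_self]

/-- The tautological matrix representation over a quotient of `Lam` by an ideal containing the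
relations. -/
def univMat (J : Ideal (Lam 𝒪)) (h1 : ∀ σ τ i j, mulRel 𝒪 σ τ i j ∈ J)
    (h2 : ∀ i j, oneRel 𝒪 i j ∈ J) : GQ →* M2 (Lam 𝒪 ⧸ J) where
  toFun σ := Matrix.of fun i j => Ideal.Quotient.mk J (X (σ, i, j))
  map_one' := by
    ext i j
    have := h2 i j
    rw [← Ideal.Quotient.eq_zero_iff_mem, oneRel, map_sub, sub_eq_zero] at this
    rw [Matrix.of_apply, this, Matrix.one_apply]
    split_ifs <;> simp
  map_mul' σ τ := by
    ext i j
    have := h1 σ τ i j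
    rw [← Ideal.Quotient.eq_zero_iff_mem, mulRel, map_sub, sub_eq_zero] at this
    rw [Matrix.of_apply, ← this, Matrix.mul_apply, map_sum]
    simp

@[simp] theorem univMat_apply (J : Ideal (Lam 𝒪)) (h1 : ∀ σ τ i j, mulRel 𝒪 σ τ i j ∈ J)
    (h2 : ∀ i j, oneRel 𝒪 i j ∈ J) (σ : GQ) (i j : Fin 2) :
    univMat J h1 h2 σ i j = Ideal.Quotient.mk J (X (σ, i, j)) := rfl

theorem evL_univMat (J : Ideal (Lam 𝒪)) (h1 : ∀ σ τ i j, mulRel 𝒪 σ τ i j ∈ J)
    (h2 : ∀ i j, oneRel 𝒪 i j ∈ J) :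
    evL (univMat J h1 h2 : GQ → M2 (Lam 𝒪 ⧸ J)) = Ideal.Quotient.mkₐ 𝒪 J := by
  symm
  apply evL_unique
  intro σ i j
  rfl

end evL

end Fermat.Agent.S53

end
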