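import Fermat.Agent.S53.Defs

/-!
# S53, part of task T8: the `Lam`-side of pro-representability

Given a filter-like set `TT` of ideals of an `𝒪`-algebra `Lam` (hypotheses `hT0 … hT3` of the
blueprint statement `exists_proRep`) we show

* all members of `TT` lie in one maximal ideal `𝔐`, and contain a power of it;
* if the cardinalities of `Lam ⧸ I`, `I ∈ TT`, `𝔐 ^ n ≤ I` are bounded (for each `n`), then there is
  a least such `I`, called `Imin n`, and `Imin n = Imin (n+1) ⊔ 𝔐 ^ n`.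
-/

set_option autoImplicit false
set_option linter.unusedSectionVars false
set_option linter.unusedVariables false
set_option linter.style.haveILetI false

noncomputable section

namespace Fermat.Agent.S53

open IsLocalRing

namespace LevelMin

section Generic

variable {Lam : Type} [CommRing Lam]

/-- If `Lam ⧸ I` is local and `𝔪 ⊇ I` is a maximal ideal, then `𝔪` is the preimage of the
maximal ideal of the quotient. -/
theorem eq_comap_maximalIdeal (I 𝔪 : Ideal Lam) [IsLocalRing (Lam ⧸ I)] (h𝔪 : 𝔪.IsMaximal)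
    (hI : I ≤ 𝔪) : 𝔪 = Ideal.comap (Ideal.Quotient.mk I) (maximalIdeal (Lam ⧸ I)) := by
  have hsurj : Function.Surjective (Ideal.Quotient.mk I) := Ideal.Quotient.mk_surjective
  have hker : RingHom.ker (Ideal.Quotient.mk I) ≤ 𝔪 := by rwa [Ideal.mk_ker]
  have hmax : (Ideal.map (Ideal.Quotient.mk I) 𝔪).IsMaximal := by
    rcases Ideal.map_eq_top_or_isMaximal_of_surjective (Ideal.Quotient.mk I) hsurj h𝔪 with h | h
    · exfalso
      have h2 := Ideal.comap_map_of_surjective (Ideal.Quotient.mk I) hsurj 𝔪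
      rw [h, Ideal.comap_top] at h2
      have h3 : 𝔪 ⊔ Ideal.comap (Ideal.Quotient.mk I) ⊥ = 𝔪 := by
        rw [sup_eq_left]
        exact hker
      rw [h3] at h2
      exact h𝔪.ne_top h2.symm
    · exact h
  have h1 : Ideal.map (Ideal.Quotient.mk I) 𝔪 = maximalIdeal (Lam ⧸ I) :=
    IsLocalRing.eq_maximalIdeal hmax
  rw [← h1, Ideal.comap_map_of_surjective (Ideal.Quotient.mk I) hsurj 𝔪]
  symm
  rw [sup_eq_left]
  exact hker

theorem comap_maximalIdeal_isMaximal (I : Ideal Lam) [IsLocalRing (Lam ⧸ I)] :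
    (Ideal.comap (Ideal.Quotient.mk I) (maximalIdeal (Lam ⧸ I))).IsMaximal :=
  Ideal.comap_isMaximal_of_surjective _ Ideal.Quotient.mk_surjective

theorem le_comap_maximalIdeal (I : Ideal Lam) [IsLocalRing (Lam ⧸ I)] :
    I ≤ Ideal.comap (Ideal.Quotient.mk I) (maximalIdeal (Lam ⧸ I)) := by
  intro x hx
  rw [Ideal.mem_comap, Ideal.Quotient.eq_zero_iff_mem.mpr hx]
  exact Ideal.zero_mem _

/-- In a finite local ring the maximal ideal is nilpotent. -/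
theorem exists_maximalIdeal_pow_eq_bot (B : Type) [CommRing B] [IsLocalRing B] [Finite B] :
    ∃ n : ℕ, maximalIdeal B ^ n = ⊥ := by
  have h := IsArtinianRing.isNilpotent_jacobson_bot (R := B)
  rw [IsLocalRing.jacobson_eq_maximalIdeal (⊥ : Ideal B) bot_ne_top] at h
  obtain ⟨n, hn⟩ := h
  exact ⟨n, by simpa using hn⟩

/-- If `Lam ⧸ I` is a finite local ring, `I` contains a power of the preimage of its maximal
ideal. -/
theorem exists_pow_le (I : Ideal Lam) [IsLocalRing (Lam ⧸ I)] [Finite (Lam ⧸ I)] :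
    ∃ n : ℕ, (Ideal.comap (Ideal.Quotient.mk I) (maximalIdeal (Lam ⧸ I))) ^ n ≤ I := by
  obtain ⟨n, hn⟩ := exists_maximalIdeal_pow_eq_bot (Lam ⧸ I)
  refine ⟨n, ?_⟩
  have h1 : Ideal.map (Ideal.Quotient.mk I)
      ((Ideal.comap (Ideal.Quotient.mk I) (maximalIdeal (Lam ⧸ I))) ^ n) = ⊥ := by
    rw [Ideal.map_pow, Ideal.map_comap_of_surjective _ Ideal.Quotient.mk_surjective, hn]
  intro x hx
  have h2 : Ideal.Quotient.mk I x ∈ Ideal.map (Ideal.Quotient.mk I)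
      ((Ideal.comap (Ideal.Quotient.mk I) (maximalIdeal (Lam ⧸ I))) ^ n) :=
    Ideal.mem_map_of_mem _ hx
  rw [h1, Ideal.mem_bot] at h2
  exact Ideal.Quotient.eq_zero_iff_mem.mp h2

/-- For `I' ≤ I` with finite quotients: `card (Lam ⧸ I) ≤ card (Lam ⧸ I')`, and equality forces
`I' = I`. -/
theorem card_quotient_le_of_le {I' I : Ideal Lam} (h : I' ≤ I) [Finite (Lam ⧸ I')] :
    Nat.card (Lam ⧸ I) ≤ Nat.card (Lam ⧸ I') :=
  Nat.card_le_card_of_surjective (Ideal.Quotient.factor h) (Ideal.Quotient.factor_surjective h)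

theorem eq_of_card_quotient_le {I' I : Ideal Lam} (h : I' ≤ I) [Finite (Lam ⧸ I')]
    (hc : Nat.card (Lam ⧸ I') ≤ Nat.card (Lam ⧸ I)) : I' = I := by
  haveI : Finite (Lam ⧸ I) :=
    Finite.of_surjective (Ideal.Quotient.factor h) (Ideal.Quotient.factor_surjective h)
  have hsurj := Ideal.Quotient.factor_surjective h
  have hcard : Nat.card (Lam ⧸ I') = Nat.card (Lam ⧸ I) :=
    le_antisymm hc (card_quotient_le_of_le h)
  have hbij : Function.Bijective (Ideal.Quotient.factor h) :=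
    (Nat.bijective_iff_surjective_and_card _).mpr ⟨hsurj, hcard⟩
  refine le_antisymm h ?_
  intro x hx
  have h1 : Ideal.Quotient.factor h (Ideal.Quotient.mk I' x) = 0 := by
    rw [Ideal.Quotient.factor_mk]
    exact Ideal.Quotient.eq_zero_iff_mem.mpr hx
  have h2 : Ideal.Quotient.mk I' x = 0 := hbij.1 (by rw [h1, map_zero])
  exact Ideal.Quotient.eq_zero_iff_mem.mp h2

end Generic

section Filter

variable {𝒪 : Type} [CommRing 𝒪] [IsLocalRing 𝒪]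
  {Lam : Type} [CommRing Lam] [Algebra 𝒪 Lam] (TT : Set (Ideal Lam))

/-- The four filter hypotheses of the blueprint statement `exists_proRep`. -/
structure IsTestFilter : Prop where
  hT0 : TT.Nonempty
  hT1 : ∀ I ∈ TT, ∃ _ : IsLocalRing (Lam ⧸ I), FinTest 𝒪 (Lam ⧸ I)
  hT2 : ∀ I ∈ TT, ∀ J ∈ TT, I ⊓ J ∈ TT
  hT3 : ∀ I ∈ TT, ∀ J : Ideal Lam, I ≤ J → J ≠ ⊤ → J ∈ TT

variable {TT}

/-- (LM1) All members of `TT` are contained in one maximal ideal and contain a power of it. -/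
theorem exists_common_maximal (h : IsTestFilter (𝒪 := 𝒪) TT) :
    ∃ 𝔐 : Ideal Lam, 𝔐.IsMaximal ∧ ∀ I ∈ TT, I ≤ 𝔐 ∧ (∃ n : ℕ, 1 ≤ n ∧ 𝔐 ^ n ≤ I) ∧
      ∀ hloc : IsLocalRing (Lam ⧸ I),
        𝔐 = Ideal.comap (Ideal.Quotient.mk I) (@maximalIdeal (Lam ⧸ I) _ hloc) := by
  obtain ⟨I0, hI0⟩ := h.hT0
  obtain ⟨hloc0, hfin0⟩ := h.hT1 I0 hI0
  let 𝔐 : Ideal Lam := Ideal.comap (Ideal.Quotient.mk I0) (maximalIdeal (Lam ⧸ I0))
  have h𝔐 : 𝔐.IsMaximal := comap_maximalIdeal_isMaximal I0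
  have key : ∀ I ∈ TT, ∀ hloc : IsLocalRing (Lam ⧸ I),
      𝔐 = Ideal.comap (Ideal.Quotient.mk I) (@maximalIdeal (Lam ⧸ I) _ hloc) := by
    intro I hI hloc
    have hK := h.hT2 I0 hI0 I hI
    obtain ⟨hlocK, hfinK⟩ := h.hT1 _ hK
    have h1 : 𝔐 = Ideal.comap (Ideal.Quotient.mk (I0 ⊓ I)) (maximalIdeal (Lam ⧸ (I0 ⊓ I))) :=
      eq_comap_maximalIdeal (I0 ⊓ I) 𝔐 h𝔐 (inf_le_left.trans (le_comap_maximalIdeal I0))
    have h2 : Ideal.comap (Ideal.Quotient.mk I) (maximalIdeal (Lam ⧸ I)) =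
        Ideal.comap (Ideal.Quotient.mk (I0 ⊓ I)) (maximalIdeal (Lam ⧸ (I0 ⊓ I))) :=
      eq_comap_maximalIdeal (I0 ⊓ I) _ (comap_maximalIdeal_isMaximal I)
        (inf_le_right.trans (le_comap_maximalIdeal I))
    rw [h1, h2]
  refine ⟨𝔐, h𝔐, fun I hI => ?_⟩
  obtain ⟨hloc, hfin⟩ := h.hT1 I hI
  have hk := key I hI hloc
  refine ⟨?_, ?_, key I hI⟩
  · rw [hk]; exact le_comap_maximalIdeal I
  · haveI := hfin.finite
    obtain ⟨n, hn⟩ := exists_pow_le I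
    rw [← hk] at hn
    refine ⟨n + 1, Nat.le_add_left 1 n, le_trans ?_ hn⟩
    exact Ideal.pow_le_pow_right (Nat.le_succ n)

/-- (LM2) Existence of levelwise least elements, given a uniform bound on the cardinalities. -/
theorem exists_levelMin (h : IsTestFilter (𝒪 := 𝒪) TT) (𝔐 : Ideal Lam) (h𝔐 : 𝔐.IsMaximal)
    (hle : ∀ I ∈ TT, I ≤ 𝔐)
    (hB : ∀ n : ℕ, ∃ C : ℕ, ∀ I ∈ TT, 𝔐 ^ n ≤ I → Nat.card (Lam ⧸ I) ≤ C) :
    ∃ Imin : ℕ → Ideal Lam, ∀ n : ℕ, 1 ≤ n →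
      Imin n ∈ TT ∧ 𝔐 ^ n ≤ Imin n ∧ (∀ J ∈ TT, 𝔐 ^ n ≤ J → Imin n ≤ J) ∧
      Imin (n + 1) ≤ Imin n ∧ Imin n = Imin (n + 1) ⊔ 𝔐 ^ n := by
  classical
  -- nonemptiness of each level
  have hne : ∀ n : ℕ, 1 ≤ n → ∃ I ∈ TT, 𝔐 ^ n ≤ I := by
    intro n hn
    obtain ⟨I0, hI0⟩ := h.hT0
    have hpow : 𝔐 ^ n ≤ 𝔐 := by
      calc 𝔐 ^ n ≤ 𝔐 ^ 1 := Ideal.pow_le_pow_right hn
        _ = 𝔐 := pow_one 𝔐
    refine ⟨I0 ⊔ 𝔐 ^ n, h.hT3 I0 hI0 _ le_sup_left ?_, le_sup_right⟩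
    intro htop
    have : I0 ⊔ 𝔐 ^ n ≤ 𝔐 := sup_le (hle I0 hI0) hpow
    rw [htop, top_le_iff] at this
    exact h𝔐.ne_top this
  -- levelwise minimum
  have hmin : ∀ n : ℕ, 1 ≤ n → ∃ I ∈ TT, 𝔐 ^ n ≤ I ∧ ∀ J ∈ TT, 𝔐 ^ n ≤ J → I ≤ J := by
    intro n hn
    obtain ⟨C, hC⟩ := hB n
    -- the set of attained cardinalities
    let s : Set ℕ := {c | ∃ I ∈ TT, 𝔐 ^ n ≤ I ∧ Nat.card (Lam ⧸ I) = c}
    have hsne : s.Nonempty := by
      obtain ⟨I, hI, hIn⟩ := hne n hn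
      exact ⟨_, I, hI, hIn, rfl⟩
    have hsbdd : BddAbove s := ⟨C, by rintro c ⟨I, hI, hIn, rfl⟩; exact hC I hI hIn⟩
    obtain ⟨I, hI, hIn, hIc⟩ := Nat.sSup_mem hsne hsbdd
    refine ⟨I, hI, hIn, fun J hJ hJn => ?_⟩
    have hK : I ⊓ J ∈ TT := h.hT2 I hI J hJ
    have hKn : 𝔐 ^ n ≤ I ⊓ J := le_inf hIn hJn
    obtain ⟨hlocK, hfinK⟩ := h.hT1 _ hK
    haveI := hfinK.finite
    have h1 : Nat.card (Lam ⧸ (I ⊓ J)) ≤ Nat.card (Lam ⧸ I) := by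
      rw [hIc]
      exact le_csSup hsbdd ⟨I ⊓ J, hK, hKn, rfl⟩
    have h2 : I ⊓ J = I := eq_of_card_quotient_le inf_le_left h1
    exact inf_eq_left.mp h2
  -- choose
  let Imin : ℕ → Ideal Lam := fun n =>
    if hn : 1 ≤ n then Classical.choose (hmin n hn) else ⊤
  have hspec : ∀ n (hn : 1 ≤ n), Imin n ∈ TT ∧ 𝔐 ^ n ≤ Imin n ∧
      ∀ J ∈ TT, 𝔐 ^ n ≤ J → Imin n ≤ J := by
    intro n hn
    have := Classical.choose_spec (hmin n hn)
    simp only [Imin, dif_pos hn]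
    exact this
  refine ⟨Imin, fun n hn => ?_⟩
  obtain ⟨h1, h2, h3⟩ := hspec n hn
  obtain ⟨h1', h2', h3'⟩ := hspec (n + 1) (Nat.le_add_left 1 n)
  have hstep : 𝔐 ^ (n + 1) ≤ 𝔐 ^ n := Ideal.pow_le_pow_right (Nat.le_succ n)
  have hdec : Imin (n + 1) ≤ Imin n := h3' _ h1 (hstep.trans h2)
  refine ⟨h1, h2, h3, hdec, le_antisymm ?_ (sup_le hdec h2)⟩
  refine h3 _ (h.hT3 _ h1' _ le_sup_left ?_) le_sup_right
  intro htop
  have hpow : 𝔐 ^ n ≤ 𝔐 := by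
    calc 𝔐 ^ n ≤ 𝔐 ^ 1 := Ideal.pow_le_pow_right hn
      _ = 𝔐 := pow_one 𝔐
  have : Imin (n + 1) ⊔ 𝔐 ^ n ≤ 𝔐 := sup_le (hle _ h1') hpow
  rw [htop, top_le_iff] at this
  exact h𝔐.ne_top this

/-- (LM3) every member of `TT` contains some `Imin n`. -/
theorem exists_levelMin_le {𝔐 : Ideal Lam} {Imin : ℕ → Ideal Lam}
    (hmin : ∀ n : ℕ, 1 ≤ n → ∀ J ∈ TT, 𝔐 ^ n ≤ J → Imin n ≤ J)
    {I : Ideal Lam} (hI : I ∈ TT) (hpow : ∃ n : ℕ, 1 ≤ n ∧ 𝔐 ^ n ≤ I) :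
    ∃ n : ℕ, 1 ≤ n ∧ Imin n ≤ I := by
  obtain ⟨n, hn, hle⟩ := hpow
  exact ⟨n, hn, hmin n hn I hI hle⟩

end Filter

end LevelMin

end Fermat.Agent.S53

end
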