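import Fermat.Agent.S53.QuotComplete
import Fermat.Agent.S53.Chevalley
import Fermat.Agent.S53.CotangentBound
import Fermat.Agent.S53.PSComplete

/-!
# S53, task T8 (backup assembly): pro-representability in ideal-filter form

`SSide`: abstract construction of the pro-representing ring `R = S ⧸ ⨅ J n` from a compatible
system of surjections `S → Lam ⧸ I' n`.
-/

set_option autoImplicit false
set_option linter.unusedSectionVars false
set_option linter.unusedVariables false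
set_option linter.style.haveILetI false

noncomputable section

namespace Fermat.Agent.S53.ProRepAlt

open IsLocalRing Fermat.Agent.S53

section SSide

variable {𝒪 : Type} [CommRing 𝒪] [IsLocalRing 𝒪]
  {S : Type} [CommRing S] [IsLocalRing S] [IsNoetherianRing S]
  [IsAdicComplete (maximalIdeal S) S] [Algebra 𝒪 S]
  {Lam : Type} [CommRing Lam] [Algebra 𝒪 Lam]
  (I' : ℕ → Ideal Lam) (hI' : ∀ n, I' (n + 1) ≤ I' n)
  (f' : ∀ n, S →ₐ[𝒪] Lam ⧸ I' n)
  (hsurj : ∀ n, Function.Surjective (f' n))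
  (hcompat : ∀ n, (Ideal.Quotient.factorₐ 𝒪 (hI' n)).comp (f' (n + 1)) = f' n)
  (hF1 : ∀ n, maximalIdeal S ^ (n + 1) ≤ RingHom.ker (f' n))
  (hF3 : ∀ n, RingHom.ker (f' n) ≤ RingHom.ker (f' (n + 1)) ⊔ maximalIdeal S ^ (n + 1))
  (h0 : I' 0 ≠ ⊤)

/-- The chain of ideals to which the Chevalley lemma is applied. -/
def Jc (n : ℕ) : Ideal S := RingHom.ker (f' n) ⊔ maximalIdeal S ^ n

/-- The kernel of `S → lim Lam ⧸ I' n`. -/
def Kc : Ideal S := ⨅ i, Jc I' f' i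

include hcompat in
theorem ker_succ_le (n : ℕ) : RingHom.ker (f' (n + 1)) ≤ RingHom.ker (f' n) := by
  intro s hs
  rw [RingHom.mem_ker] at hs ⊢
  rw [← hcompat n, AlgHom.comp_apply, hs, map_zero]

include hcompat hF1 in
theorem Jc_succ_eq (n : ℕ) : Jc I' f' (n + 1) ≤ RingHom.ker (f' n) :=
  sup_le (ker_succ_le I' hI' f' hcompat n) (hF1 n)

include hcompat hF1 hF3 in
theorem ker_eq (n : ℕ) : RingHom.ker (f' n) = Kc I' f' ⊔ maximalIdeal S ^ (n + 1) := by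
  have h1 : ∀ n, maximalIdeal S ^ n ≤ Jc I' f' n := fun n => le_sup_right
  have hanti : Antitone (Jc I' f') := by
    apply antitone_nat_of_succ_le
    intro n
    exact (Jc_succ_eq I' hI' f' hcompat hF1 n).trans le_sup_left
  have h2 : ∀ n, Jc I' f' n ≤ Jc I' f' (n + 1) ⊔ maximalIdeal S ^ n := by
    intro n
    refine sup_le ?_ le_sup_right
    exact (hF3 n).trans le_sup_left
  have hche := ProRep.eq_iInf_sup_pow (maximalIdeal S) (Jc I' f') h1 h2 hanti (n + 1)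
  apply le_antisymm
  · calc RingHom.ker (f' n) ≤ RingHom.ker (f' (n + 1)) ⊔ maximalIdeal S ^ (n + 1) := hF3 n
      _ = Jc I' f' (n + 1) := rfl
      _ = Kc I' f' ⊔ maximalIdeal S ^ (n + 1) := hche
  · refine sup_le ?_ (hF1 n)
    exact (iInf_le _ (n + 1)).trans (Jc_succ_eq I' hI' f' hcompat hF1 n)

include hcompat hF1 h0 in
theorem Kc_ne_top : Kc I' f' ≠ ⊤ := by
  intro h
  have h1 : Kc I' f' ≤ RingHom.ker (f' 0) :=
    (iInf_le _ 1).trans (Jc_succ_eq I' hI' f' hcompat hF1 0)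
  rw [h, top_le_iff] at h1
  haveI : Nontrivial (Lam ⧸ I' 0) := Ideal.Quotient.nontrivial_iff.mpr h0
  exact RingHom.ker_ne_top (f' 0 : S →+* Lam ⧸ I' 0) h1

include hcompat in
/-- General compatibility of the system `f'`. -/
theorem compat_of_le {m n : ℕ} (hle : m ≤ n) (s : S) (l : Lam)
    (h : f' n s = Ideal.Quotient.mk (I' n) l) : f' m s = Ideal.Quotient.mk (I' m) l := by
  induction n, hle using Nat.le_induction with
  | base => exact h
  | succ k hk ih =>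
    apply ih
    rw [← hcompat k, AlgHom.comp_apply, h]
    rfl

include hI' hcompat hF1 hF3 h0 hsurj in
/-- **Abstract S-side of `exists_proRep`.** -/
theorem exists_ring_of_system (hlocS : IsLocalHom (algebraMap 𝒪 S))
    (hresS : Function.Surjective (IsLocalRing.residue S ∘ algebraMap 𝒪 S)) :
    ∃ (R : Type) (_ : CommRing R) (_ : IsLocalRing R) (_ : IsNoetherianRing R)
      (_ : IsAdicComplete (maximalIdeal R) R) (_ : Algebra 𝒪 R)
      (_ : IsLocalHom (algebraMap 𝒪 R)) (u : Lam →ₐ[𝒪] R),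
      Function.Surjective (residue R ∘ algebraMap 𝒪 R) ∧
      (∀ n : ℕ, ∀ x : R, ∃ l : Lam, x - u l ∈ maximalIdeal R ^ (n + 1)) ∧
      (∀ n : ℕ, Ideal.comap u (maximalIdeal R ^ (n + 1)) = I' n) := by
  have hK : Kc I' f' ≠ ⊤ := Kc_ne_top I' hI' f' hcompat hF1 h0
  haveI hlocR : IsLocalRing (S ⧸ Kc I' f') := isLocalRing_quotient _ hK
  haveI hcomplR : IsAdicComplete (maximalIdeal (S ⧸ Kc I' f')) (S ⧸ Kc I' f') :=
    QuotComplete.isAdicComplete_quotient _ hK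
  haveI hlochomR : IsLocalHom (algebraMap 𝒪 (S ⧸ Kc I' f')) :=
    QuotComplete.isLocalHom_algebraMap_quotient _ hK hlocS
  have hresR := QuotComplete.residue_surjective_quotient (Kc I' f') hK hresS
  -- (A): membership in powers of the maximal ideal of `R` in terms of `f'`
  have hA : ∀ (n : ℕ) (s : S), Ideal.Quotient.mk (Kc I' f') s ∈
      maximalIdeal (S ⧸ Kc I' f') ^ (n + 1) ↔ f' n s = 0 := by
    intro n s
    rw [QuotComplete.mk_mem_maximalIdeal_quotient_pow_iff _ hK, sup_comm,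
      ← ker_eq I' hI' f' hcompat hF1 hF3 n, RingHom.mem_ker]
  -- the maps `Lam ⧸ I' n → R ⧸ 𝔪 ^ n`
  have hH : ∀ n : ℕ, RingHom.ker (f' n).toRingHom ≤
      RingHom.ker ((Ideal.Quotient.mkₐ 𝒪 (maximalIdeal (S ⧸ Kc I' f') ^ n)).comp
        (Ideal.Quotient.mkₐ 𝒪 (Kc I' f'))).toRingHom := by
    intro n s hs
    rw [RingHom.mem_ker] at hs ⊢
    have h1 : Ideal.Quotient.mk (Kc I' f') s ∈ maximalIdeal (S ⧸ Kc I' f') ^ (n + 1) :=
      (hA n s).mpr hs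
    have h2 : Ideal.Quotient.mk (Kc I' f') s ∈ maximalIdeal (S ⧸ Kc I' f') ^ n :=
      Ideal.pow_le_pow_right (Nat.le_succ n) h1
    exact Ideal.Quotient.eq_zero_iff_mem.mpr h2
  let ψ : ∀ n : ℕ, (Lam ⧸ I' n) →ₐ[𝒪] (S ⧸ Kc I' f') ⧸ maximalIdeal (S ⧸ Kc I' f') ^ n :=
    fun n => AlgHom.liftOfSurjective (f' n) (hsurj n)
      ((Ideal.Quotient.mkₐ 𝒪 (maximalIdeal (S ⧸ Kc I' f') ^ n)).comp
        (Ideal.Quotient.mkₐ 𝒪 (Kc I' f'))) (hH n)
  let g : ∀ n : ℕ, Lam →ₐ[𝒪] (S ⧸ Kc I' f') ⧸ maximalIdeal (S ⧸ Kc I' f') ^ n :=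
    fun n => (ψ n).comp (Ideal.Quotient.mkₐ 𝒪 (I' n))
  have hLg : ∀ (n : ℕ) (l : Lam) (s : S), f' n s = Ideal.Quotient.mk (I' n) l →
      g n l = Ideal.Quotient.mk (maximalIdeal (S ⧸ Kc I' f') ^ n)
        (Ideal.Quotient.mk (Kc I' f') s) := by
    intro n l s h
    show ψ n (Ideal.Quotient.mk (I' n) l) = _
    rw [← h]
    exact AlgHom.liftOfSurjective_apply (f' n) (hsurj n) _ (hH n) s
  have hg : ∀ {m n : ℕ} (hle : m ≤ n),
      (Ideal.Quotient.factorₐ 𝒪 (Ideal.pow_le_pow_right hle)).comp (g n) = g m := by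
    intro m n hle
    ext l
    obtain ⟨s, hs⟩ := hsurj n (Ideal.Quotient.mk (I' n) l)
    rw [AlgHom.comp_apply, hLg n l s hs,
      hLg m l s (compat_of_le I' hI' f' hcompat hle s l hs)]
    rfl
  refine ⟨S ⧸ Kc I' f', inferInstance, hlocR, inferInstance, hcomplR, inferInstance, hlochomR,
    IsAdicComplete.liftAlgHom (maximalIdeal (S ⧸ Kc I' f')) g hg, hresR, ?_, ?_⟩
  · intro n x
    obtain ⟨s, rfl⟩ := Ideal.Quotient.mk_surjective x
    obtain ⟨l, hl⟩ := Ideal.Quotient.mk_surjective (f' (n + 1) s)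
    refine ⟨l, ?_⟩
    rw [← Ideal.Quotient.eq]
    rw [IsAdicComplete.mk_liftAlgHom (maximalIdeal (S ⧸ Kc I' f')) g hg (n + 1) l,
      hLg (n + 1) l s hl.symm]
  · intro n
    ext l
    obtain ⟨s, hs⟩ := hsurj (n + 1) (Ideal.Quotient.mk (I' (n + 1)) l)
    rw [Ideal.mem_comap, ← Ideal.Quotient.eq_zero_iff_mem,
      IsAdicComplete.mk_liftAlgHom (maximalIdeal (S ⧸ Kc I' f')) g hg (n + 1) l,
      hLg (n + 1) l s hs, Ideal.Quotient.eq_zero_iff_mem, hA n s,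
      compat_of_le I' hI' f' hcompat (Nat.le_succ n) s l hs, Ideal.Quotient.eq_zero_iff_mem]

end SSide

section Final

/-- In a surjection of local rings the maximal ideal maps onto the maximal ideal. -/
theorem maximalIdeal_le_map_of_surjective {A B : Type} [CommRing A] [IsLocalRing A] [CommRing B]
    [IsLocalRing B] (f : A →+* B) (hf : Function.Surjective f) :
    maximalIdeal B ≤ (maximalIdeal A).map f := by
  intro y hy
  obtain ⟨t, rfl⟩ := hf y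
  refine Ideal.mem_map_of_mem f ?_
  rw [mem_maximalIdeal, mem_nonunits_iff] at hy ⊢
  exact fun hu => hy (hu.map f)

/-- **T8 (pro-representability, ideal-filter form)**: blueprint statement `exists_proRep`. -/
theorem exists_proRep_alt
    (𝒪 : Type) [CommRing 𝒪] [IsDomain 𝒪] [IsDiscreteValuationRing 𝒪]
    [IsAdicComplete (maximalIdeal 𝒪) 𝒪] [Finite (ResidueField 𝒪)]
    (Lam : Type) [CommRing Lam] [Algebra 𝒪 Lam] (TT : Set (Ideal Lam))
    (hT0 : TT.Nonempty)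
    (hT1 : ∀ I ∈ TT, ∃ _ : IsLocalRing (Lam ⧸ I), FinTest 𝒪 (Lam ⧸ I))
    (hT2 : ∀ I ∈ TT, ∀ J ∈ TT, I ⊓ J ∈ TT)
    (hT3 : ∀ I ∈ TT, ∀ J : Ideal Lam, I ≤ J → J ≠ ⊤ → J ∈ TT)
    (hT4 : letI := dualNumberAlgebra 𝒪
      Finite {f : Lam →ₐ[𝒪] DualNumber (ResidueField 𝒪) // RingHom.ker f ∈ TT}) :
    ∃ (R : Type) (_ : CommRing R) (_ : IsLocalRing R) (_ : IsNoetherianRing R)
      (_ : IsAdicComplete (maximalIdeal R) R) (_ : Algebra 𝒪 R)
      (_ : IsLocalHom (algebraMap 𝒪 R)) (u : Lam →ₐ[𝒪] R),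
      Function.Surjective (residue R ∘ algebraMap 𝒪 R) ∧
      (∀ n : ℕ, 1 ≤ n → ∀ x : R, ∃ l : Lam, x - u l ∈ maximalIdeal R ^ n) ∧
      (∀ n : ℕ, 1 ≤ n → Ideal.comap u (maximalIdeal R ^ n) ∈ TT) ∧
      (∀ I ∈ TT, ∃ n : ℕ, 1 ≤ n ∧ Ideal.comap u (maximalIdeal R ^ n) ≤ I) := by
  have h : LevelMin.IsTestFilter (𝒪 := 𝒪) TT := ⟨hT0, hT1, hT2, hT3⟩
  obtain ⟨𝔐, d, l, Imin, h𝔐, hle, hpow, hcomap, hl, hgen, hImin⟩ :=
    LevelMin.exists_levelData h hT4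
  haveI : IsAdicComplete (maximalIdeal (MvPowerSeries (Fin d) 𝒪)) (MvPowerSeries (Fin d) 𝒪) :=
    isAdicComplete_mvPowerSeries 𝒪 d
  have hmem : ∀ n : ℕ, Imin (n + 1) ∈ TT := fun n =>
    (hImin (n + 1) (Nat.succ_le_succ (Nat.zero_le n))).1
  have hI' : ∀ n : ℕ, Imin (n + 1 + 1) ≤ Imin (n + 1) := fun n =>
    (hImin (n + 1) (Nat.succ_le_succ (Nat.zero_le n))).2.2.2.1
  have hex : ∀ n : ℕ, ∃ f : MvPowerSeries (Fin d) 𝒪 →ₐ[𝒪] Lam ⧸ Imin (n + 1),
      (∀ a, f (MvPowerSeries.X a) = Ideal.Quotient.mk (Imin (n + 1)) (l a)) ∧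
      Function.Surjective f ∧
      ∀ m : ℕ, 𝔐 ^ m ≤ Imin (n + 1) →
        maximalIdeal (MvPowerSeries (Fin d) 𝒪) ^ m ≤
          RingHom.ker (f : MvPowerSeries (Fin d) 𝒪 →+* Lam ⧸ Imin (n + 1)) := fun n =>
    LevelMin.exists_surjective_evS_of_generators h 𝔐 h𝔐 hle l hl (hmem n) (hgen _ (hmem n))
  choose f' hfX hfsurj hfkill using hex
  have hcompat : ∀ n, (Ideal.Quotient.factorₐ 𝒪 (hI' n)).comp (f' (n + 1)) = f' n := by
    intro n
    obtain ⟨hloc, hfin⟩ := hT1 _ (hmem n)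
    refine evS_ext hfin _ _ (fun a => ?_)
    rw [AlgHom.comp_apply, hfX, hfX]
    rfl
  have hF1 : ∀ n, maximalIdeal (MvPowerSeries (Fin d) 𝒪) ^ (n + 1) ≤ RingHom.ker (f' n) :=
    fun n => hfkill n (n + 1) (hImin (n + 1) (Nat.succ_le_succ (Nat.zero_le n))).2.1
  have hF3 : ∀ n, RingHom.ker (f' n) ≤
      RingHom.ker (f' (n + 1)) ⊔ maximalIdeal (MvPowerSeries (Fin d) 𝒪) ^ (n + 1) := by
    intro n s hs
    rw [RingHom.mem_ker] at hs
    obtain ⟨hloc, hfin⟩ := hT1 _ (hmem (n + 1))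
    obtain ⟨lam, hlam⟩ := Ideal.Quotient.mk_surjective (f' (n + 1) s)
    have h1 : Ideal.Quotient.mk (Imin (n + 1)) lam = 0 := by
      rw [← hs, ← hcompat n, AlgHom.comp_apply, ← hlam]
      rfl
    have h2 : lam ∈ Imin (n + 1 + 1) ⊔ 𝔐 ^ (n + 1) := by
      rw [← (hImin (n + 1) (Nat.succ_le_succ (Nat.zero_le n))).2.2.2.2]
      exact Ideal.Quotient.eq_zero_iff_mem.mp h1
    obtain ⟨α, hα, μ, hμ, rfl⟩ := Submodule.mem_sup.1 h2
    have h3 : f' (n + 1) s = Ideal.Quotient.mk (Imin (n + 1 + 1)) μ := by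
      rw [← hlam, map_add, Ideal.Quotient.eq_zero_iff_mem.mpr hα, zero_add]
    -- `mk μ` lies in the image of `𝔫 ^ (n+1)`
    have h4 : Ideal.map (Ideal.Quotient.mk (Imin (n + 1 + 1))) 𝔐 =
        maximalIdeal (Lam ⧸ Imin (n + 1 + 1)) := by
      rw [hcomap _ (hmem (n + 1)) hloc,
        Ideal.map_comap_of_surjective _ Ideal.Quotient.mk_surjective]
    have h5 : Ideal.map (Ideal.Quotient.mk (Imin (n + 1 + 1))) (𝔐 ^ (n + 1)) ≤
        Ideal.map (f' (n + 1) : MvPowerSeries (Fin d) 𝒪 →+* Lam ⧸ Imin (n + 1 + 1))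
          (maximalIdeal (MvPowerSeries (Fin d) 𝒪) ^ (n + 1)) := by
      rw [Ideal.map_pow, Ideal.map_pow, h4]
      exact Ideal.pow_right_mono
        (maximalIdeal_le_map_of_surjective
          (f' (n + 1) : MvPowerSeries (Fin d) 𝒪 →+* Lam ⧸ Imin (n + 1 + 1)) (hfsurj (n + 1))) _
    have h6 := h5 (Ideal.mem_map_of_mem _ hμ)
    obtain ⟨t, ht, htμ⟩ := (Ideal.mem_map_iff_of_surjective
      (f' (n + 1) : MvPowerSeries (Fin d) 𝒪 →+* Lam ⧸ Imin (n + 1 + 1)) (hfsurj (n + 1))).1 h6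
    have h7 : s = (s - t) + t := by ring
    rw [h7]
    refine Submodule.add_mem_sup ?_ ht
    rw [RingHom.mem_ker, map_sub, h3]
    rw [sub_eq_zero]
    exact htμ.symm
  have h0 : Imin (0 + 1) ≠ ⊤ := by
    intro htop
    have := hle _ (hmem 0)
    rw [htop, top_le_iff] at this
    exact h𝔐.ne_top this
  have hlocS : IsLocalHom (algebraMap 𝒪 (MvPowerSeries (Fin d) 𝒪)) :=
    PSC.isLocalHom_C (σ := Fin d) (R := 𝒪)
  have hresS : Function.Surjective (IsLocalRing.residue (MvPowerSeries (Fin d) 𝒪) ∘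
      algebraMap 𝒪 (MvPowerSeries (Fin d) 𝒪)) :=
    PSC.residue_comp_C_surjective (σ := Fin d) (R := 𝒪)
  obtain ⟨R, i1, i2, i3, i4, i5, i6, u, hres, hO1a, hO1b⟩ :=
    exists_ring_of_system (fun n => Imin (n + 1)) hI' f' hfsurj hcompat hF1 hF3 h0 hlocS hresS
  refine ⟨R, i1, i2, i3, i4, i5, i6, u, hres, ?_, ?_, ?_⟩
  · intro n hn x
    obtain ⟨k, rfl⟩ := Nat.exists_eq_succ_of_ne_zero (Nat.pos_iff_ne_zero.mp hn)
    exact hO1a k x
  · intro n hn
    obtain ⟨k, rfl⟩ := Nat.exists_eq_succ_of_ne_zero (Nat.pos_iff_ne_zero.mp hn)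
    rw [hO1b k]
    exact hmem k
  · intro I hI
    obtain ⟨n, hn, hIn⟩ := hpow I hI
    refine ⟨n, hn, ?_⟩
    obtain ⟨k, rfl⟩ := Nat.exists_eq_succ_of_ne_zero (Nat.pos_iff_ne_zero.mp hn)
    rw [hO1b k]
    exact (hImin (k + 1) hn).2.2.1 I hI hIn

end Final

end Fermat.Agent.S53.ProRepAlt

end
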