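import Fermat.Agent.S53.CompleteLocal
import Fermat.Prelude.Thm_IsLocalRing_isAdicComplete_of_module_finite

/-!
# S53 (task T8, piece (b)): quotients of a complete noetherian local `𝒪`-algebra

For a local `𝒪`-algebra `S` (local structure map, residue field generated by `𝒪`) and a proper
ideal `K`, the quotient `S ⧸ K` is again such an algebra; it is noetherian and complete when `S`
is, and the preimage of the `n`-th power of its maximal ideal is `𝔫 ^ n ⊔ K`.
-/

set_option autoImplicit false
set_option linter.unusedSectionVars false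
set_option linter.style.haveILetI false

noncomputable section

namespace Fermat.Agent.S53.QuotComplete

open IsLocalRing Fermat.Agent.S53

variable {S : Type} [CommRing S] [IsLocalRing S] (K : Ideal S) (hK : K ≠ ⊤)

/-- Powers of the maximal ideal of a quotient are the images of the powers of the maximal ideal. -/
theorem maximalIdeal_quotient_pow (n : ℕ) :
    haveI := isLocalRing_quotient K hK
    maximalIdeal (S ⧸ K) ^ n = (maximalIdeal S ^ n).map (Ideal.Quotient.mk K) := by
  haveI := isLocalRing_quotient K hK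
  rw [Ideal.map_pow, map_mk_maximalIdeal K hK]

/-- The preimage of `𝔪_{S/K} ^ n` in `S` is `𝔫 ^ n ⊔ K`. -/
theorem comap_maximalIdeal_quotient_pow (n : ℕ) :
    haveI := isLocalRing_quotient K hK
    Ideal.comap (Ideal.Quotient.mk K) (maximalIdeal (S ⧸ K) ^ n) = maximalIdeal S ^ n ⊔ K := by
  haveI := isLocalRing_quotient K hK
  rw [maximalIdeal_quotient_pow K hK n,
    Ideal.comap_map_of_surjective _ Ideal.Quotient.mk_surjective, ← RingHom.ker_eq_comap_bot,
    Ideal.mk_ker]

theorem mk_mem_maximalIdeal_quotient_pow_iff (n : ℕ) (s : S) :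
    haveI := isLocalRing_quotient K hK
    Ideal.Quotient.mk K s ∈ maximalIdeal (S ⧸ K) ^ n ↔ s ∈ maximalIdeal S ^ n ⊔ K := by
  haveI := isLocalRing_quotient K hK
  rw [← comap_maximalIdeal_quotient_pow K hK n, Ideal.mem_comap]

/-- A quotient of a complete noetherian local ring by a proper ideal is complete. -/
theorem isAdicComplete_quotient [IsNoetherianRing S] [IsAdicComplete (maximalIdeal S) S] :
    haveI := isLocalRing_quotient K hK
    IsAdicComplete (maximalIdeal (S ⧸ K)) (S ⧸ K) := by
  haveI := isLocalRing_quotient K hK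
  haveI : IsLocalHom (algebraMap S (S ⧸ K)) := isLocalHom_quotient_mk K hK
  haveI : Module.Finite S (S ⧸ K) :=
    Module.Finite.of_surjective (Ideal.Quotient.mkₐ S K).toLinearMap
      (Ideal.Quotient.mkₐ_surjective S K)
  exact IsLocalRing.isAdicComplete_of_module_finite (𝒪 := S)

variable {𝒪 : Type} [CommRing 𝒪] [IsLocalRing 𝒪] [Algebra 𝒪 S]

include hK in
/-- The structure map of a quotient is local. -/
theorem isLocalHom_algebraMap_quotient (hloc : IsLocalHom (algebraMap 𝒪 S)) :
    IsLocalHom (algebraMap 𝒪 (S ⧸ K)) := by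
  haveI := isLocalRing_quotient K hK
  refine ⟨fun c hc => ?_⟩
  have h1 : IsUnit (Ideal.Quotient.mk K (algebraMap 𝒪 S c)) := hc
  haveI := isLocalHom_quotient_mk K hK
  have h2 : IsUnit (algebraMap 𝒪 S c) := isUnit_of_map_unit (Ideal.Quotient.mk K) _ h1
  haveI := hloc
  exact isUnit_of_map_unit (algebraMap 𝒪 S) c h2

/-- The residue field of a quotient is generated by `𝒪`. -/
theorem residue_surjective_quotient
    (hres : Function.Surjective (IsLocalRing.residue S ∘ algebraMap 𝒪 S)) :
    haveI := isLocalRing_quotient K hK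
    Function.Surjective (IsLocalRing.residue (S ⧸ K) ∘ algebraMap 𝒪 (S ⧸ K)) := by
  haveI := isLocalRing_quotient K hK
  intro x
  obtain ⟨y, rfl⟩ := IsLocalRing.residue_surjective x
  obtain ⟨a, rfl⟩ := Ideal.Quotient.mk_surjective y
  obtain ⟨c, hc⟩ := hres (residue S a)
  refine ⟨c, ?_⟩
  have h1 : algebraMap 𝒪 S c - a ∈ maximalIdeal S := by
    rw [← residue_eq_zero_iff, map_sub, sub_eq_zero]
    exact hc
  have h2 : Ideal.Quotient.mk K (algebraMap 𝒪 S c - a) ∈ maximalIdeal (S ⧸ K) :=
    (mk_mem_maximalIdeal_quotient_iff K hK _).mpr h1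
  rw [← residue_eq_zero_iff, map_sub, map_sub, sub_eq_zero] at h2
  exact h2

end Fermat.Agent.S53.QuotComplete

end
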